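import Mathlib.NumberTheory.NumberField.ClassNumber
import Mathlib.NumberTheory.NumberField.Units.DirichletTheorem
import Mathlib.GroupTheory.FiniteAbelian.Basic
import Mathlib.RingTheory.DedekindDomain.Ideal.Lemmas
import Mathlib.RingTheory.Valuation.LocalSubring
import Fermat.Agent.Mazur.Value

/-!
# Finitely many square classes with even values outside a finite set

In a number field inside `ℚ̄` there are only finitely many square classes whose value is a square
at every place not over a given integer.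
-/

set_option autoImplicit false
set_option linter.style.haveILetI false
set_option linter.unusedSectionVars false

noncomputable section

namespace FLTAgent.MW

open NumberField UniqueFactorizationMonoid

local notation "QA" => AlgebraicClosure ℚ

section Dedekind

variable {R : Type*} [CommRing R] [IsDedekindDomain R]

open Classical in
/-- The exponent of a prime in a principal ideal. -/
def expAt (P : Ideal R) (x : R) : ℕ := (normalizedFactors (Ideal.span {x})).count P

theorem span_ne_zero {x : R} (hx : x ≠ 0) : (Ideal.span {x} : Ideal R) ≠ 0 := by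
  rwa [Ideal.zero_eq_bot, Ne, Ideal.span_singleton_eq_bot]

theorem expAt_mul (P : Ideal R) {x y : R} (hx : x ≠ 0) (hy : y ≠ 0) :
    expAt P (x * y) = expAt P x + expAt P y := by
  rw [expAt, ← Ideal.span_singleton_mul_span_singleton,
    normalizedFactors_mul (span_ne_zero hx) (span_ne_zero hy), Multiset.count_add]
  rfl

theorem expAt_eq_zero_iff {P : Ideal R} [P.IsPrime] (hP : P ≠ ⊥) {x : R} (hx : x ≠ 0) :
    expAt P x = 0 ↔ x ∉ P := by
  rw [expAt, Multiset.count_eq_zero,
    mem_normalizedFactors_iff (span_ne_zero hx), ← Ideal.span_singleton_le_iff_mem P,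
    ← Ideal.dvd_iff_le]
  exact not_congr ⟨fun h => h.2, fun h => ⟨Ideal.prime_of_isPrime hP inferInstance, h⟩⟩

theorem pow_dvd_iff_le_expAt {P : Ideal R} [P.IsPrime] (hP : P ≠ ⊥) {x : R} (hx : x ≠ 0) (n : ℕ) :
    P ^ n ∣ Ideal.span {x} ↔ n ≤ expAt P x := by
  classical
  have hirr : Irreducible P := (Ideal.prime_of_isPrime hP inferInstance).irreducible
  rw [dvd_iff_normalizedFactors_le_normalizedFactors (pow_ne_zero _ hirr.ne_zero) (span_ne_zero hx),
    hirr.normalizedFactors_pow, normalize_eq, Multiset.le_count_iff_replicate_le.symm, expAt]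

/-- An element with smaller exponent divides a multiple of one with larger exponent by an element
outside the prime. -/
theorem exists_mul_eq_of_lt {P : Ideal R} [P.IsPrime] (hP : P ≠ ⊥) {a b : R} (ha : a ≠ 0)
    (hb : b ≠ 0) (h : expAt P a < expAt P b) : ∃ c d : R, d ∉ P ∧ c ∈ P ∧ b * d = a * c := by
  classical
  set n := expAt P a
  obtain ⟨I, hI⟩ : P ^ n ∣ Ideal.span {a} := (pow_dvd_iff_le_expAt hP ha n).2 le_rfl
  have hnot : ¬ I ≤ P := fun hle => by
    have h1 : P ^ (n + 1) ∣ Ideal.span {a} := by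
      rw [hI, pow_succ]; exact mul_dvd_mul_left _ (Ideal.dvd_iff_le.2 hle)
    have := (pow_dvd_iff_le_expAt hP ha _).1 h1
    omega
  obtain ⟨d, hdI, hdP⟩ := SetLike.not_le_iff_exists.1 hnot
  have hbP : b ∈ P ^ n := by
    rw [← Ideal.span_singleton_le_iff_mem, ← Ideal.dvd_iff_le,
      pow_dvd_iff_le_expAt hP hb]
    exact h.le
  have hmem := Ideal.mul_mem_mul hbP hdI
  rw [← hI, Ideal.mem_span_singleton] at hmem
  obtain ⟨c, hc⟩ := hmem
  have hd0 : d ≠ 0 := fun e => hdP (e ▸ P.zero_mem)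
  have hc0 : c ≠ 0 := fun e => mul_ne_zero hb hd0 (by rw [hc, e, mul_zero])
  refine ⟨c, d, hdP, by_contra fun hcP => ?_, hc⟩
  have e := congrArg (expAt P) hc
  rw [expAt_mul P hb hd0, expAt_mul P ha hc0, (expAt_eq_zero_iff hP hc0).2 hcP,
    (expAt_eq_zero_iff hP hd0).2 hdP] at e
  omega

end Dedekind

local instance (priority := 2000) algSub (L : IntermediateField ℚ (AlgebraicClosure ℚ)) :
    Algebra ℚ L := L.algebra'

variable {L : IntermediateField ℚ (AlgebraicClosure ℚ)} [NumberField L]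

/-- A valuation ring centred at a prime of the integers determines the exponents. -/
theorem expAt_eq_of_valuation_eq {P : Ideal (𝓞 L)} [P.IsPrime] (hP : P ≠ ⊥)
    {A : ValuationSubring QA}
    (h1 : ∀ c : 𝓞 L, c ∉ P → A.valuation ((c : L) : QA) = 1)
    (h2 : ∀ c ∈ P, A.valuation ((c : L) : QA) < 1)
    {a b : 𝓞 L} (ha : a ≠ 0) (hb : b ≠ 0)
    (hv : A.valuation ((a : L) : QA) = A.valuation ((b : L) : QA)) : expAt P a = expAt P b := by
  suffices key : ∀ a b : 𝓞 L, a ≠ 0 → b ≠ 0 →
      A.valuation ((a : L) : QA) = A.valuation ((b : L) : QA) → ¬ expAt P a < expAt P b by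
    have := key a b ha hb hv
    have := key b a hb ha hv.symm
    omega
  intro a b ha hb hv hlt
  obtain ⟨c, d, hd, hc, e⟩ := exists_mul_eq_of_lt hP ha hb hlt
  have e' := congrArg (fun x : 𝓞 L => A.valuation ((x : L) : QA)) e
  simp only [map_mul, MulMemClass.coe_mul] at e'
  rw [h1 d hd, mul_one, ← hv] at e'
  have hne : A.valuation ((a : L) : QA) ≠ 0 := (Valuation.ne_zero_iff _).2 (by simpa using ha)
  exact (h2 c hc).ne ((mul_eq_left₀ hne).1 e'.symm)

/-- Every prime of the integers is the centre of a place. -/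
theorem exists_place_of_prime (P : Ideal (𝓞 L)) [hP : P.IsPrime] :
    ∃ A : ValuationSubring QA, (∀ c : 𝓞 L, c ∉ P → A.valuation ((c : L) : QA) = 1) ∧
      ∀ c ∈ P, A.valuation ((c : L) : QA) < 1 := by
  let f : 𝓞 L →+* QA := (algebraMap L QA).comp (algebraMap (𝓞 L) L)
  have hf : Function.Injective f :=
    (algebraMap L QA).injective.comp (FaithfulSMul.algebraMap_injective (𝓞 L) L)
  have hu : ∀ s : P.primeCompl, IsUnit (f s) := fun s => isUnit_iff_ne_zero.2 fun h =>
    s.2 (hf (h.trans (map_zero f).symm) ▸ P.zero_mem)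
  let g : Localization.AtPrime P →+* QA := IsLocalization.lift hu
  obtain ⟨A, hmem, hloc⟩ := IsLocalRing.exists_factor_valuationRing g
  have hg : ∀ c : 𝓞 L, g (algebraMap _ _ c) = f c := IsLocalization.lift_eq hu
  refine ⟨A, fun c hc => ?_, fun c hc => ?_⟩
  · have hcu : IsUnit (algebraMap (𝓞 L) (Localization.AtPrime P) c) :=
      (IsLocalization.AtPrime.isUnit_to_map_iff _ P c).2 hc
    have h := hcu.map (g.codRestrict A.toSubring hmem)
    obtain ⟨u, hu'⟩ := h
    have := A.valuation_unit u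
    rw [show ((u : A) : QA) = f c from (congrArg Subtype.val hu').trans (hg c)] at this
    exact this
  · have hle : A.valuation (f c) ≤ 1 := (A.valuation_le_one_iff _).2 (hg c ▸ hmem _)
    refine lt_of_le_of_ne hle fun h => ?_
    have hunit : IsUnit ((g.codRestrict A.toSubring hmem) (algebraMap _ _ c)) :=
      (ValuationSubring.valuation_eq_one_iff A _).2 (by
        show A.valuation (g _) = 1
        rw [hg]; exact h)
    exact (IsLocalization.AtPrime.isUnit_to_map_iff _ P c).1 (hloc.map_nonunit _ hunit) hc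

/-- **Finiteness.** Finitely many square classes have square values away from `M`. -/
theorem exists_finset_square_classes (M : ℕ) (hM : M ≠ 0) :
    ∃ R : Finset QA, ∀ α ∈ L, α ≠ 0 →
      (∀ q : ℕ, q.Prime → ¬ q ∣ M → ∀ A : ValuationSubring QA, A.LiesOverPrime q →
        ∃ y ∈ L, A.valuation α = A.valuation y ^ 2) →
      ∃ r ∈ R, ∃ z ∈ L, α = r * z ^ 2 := by
  classical
  let S : Finset (Ideal (𝓞 L)) := (normalizedFactors (Ideal.span {(M : 𝓞 L)})).toFinset
  have hM' : (M : 𝓞 L) ≠ 0 := Nat.cast_ne_zero.2 hM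
  let Good : 𝓞 L → Prop := fun x =>
    x ≠ 0 ∧ ∀ P : Ideal (𝓞 L), P.IsPrime → P ≠ ⊥ → P ∉ S → Even (expAt P x)
  let odds : 𝓞 L → Finset (Ideal (𝓞 L)) := fun x =>
    (normalizedFactors (Ideal.span {x})).toFinset.filter fun P => ¬ Even (expAt P x)
  let half : 𝓞 L → Ideal (𝓞 L) := fun x =>
    ∏ P ∈ (normalizedFactors (Ideal.span {x})).toFinset, P ^ (expAt P x / 2)
  have hhalf : ∀ x, half x ∈ nonZeroDivisors (Ideal (𝓞 L)) := fun x => by
    refine mem_nonZeroDivisors_of_ne_zero (Finset.prod_ne_zero_iff.2 fun P hP => pow_ne_zero _ ?_)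
    exact (prime_of_normalized_factor P (Multiset.mem_toFinset.1 hP)).ne_zero
  have hdec : ∀ x : 𝓞 L, x ≠ 0 → Ideal.span {x} = (∏ P ∈ odds x, P) * half x ^ 2 := by
    intro x hx
    conv_lhs => rw [← associated_iff_eq.1 (prod_normalizedFactors (span_ne_zero hx))]
    rw [Finset.prod_multiset_count, Finset.prod_filter, ← Finset.prod_pow,
      ← Finset.prod_mul_distrib]
    refine Finset.prod_congr rfl fun P _ => ?_
    show P ^ expAt P x = _
    rw [← pow_mul]
    split_ifs with h
    · rw [one_mul]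
      congr 1
      obtain ⟨k, hk⟩ := h
      omega
    · rw [← pow_succ']
      congr 1
      obtain ⟨k, hk⟩ := Nat.not_even_iff_odd.1 h
      omega
  have hodds : ∀ x, Good x → odds x ∈ S.powerset := fun x hx => by
    refine Finset.mem_powerset.2 fun P hP => ?_
    rw [Finset.mem_filter, Multiset.mem_toFinset] at hP
    by_contra hS
    have hprime := prime_of_normalized_factor P hP.1
    exact hP.2 (hx.2 P (Ideal.isPrime_of_prime hprime) hprime.ne_zero hS)
  -- units modulo squares
  haveI : Group.FG (𝓞 L)ˣ := Group.fg_iff_monoid_fg.2 inferInstance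
  haveI := Subgroup.finiteIndex_range_powMonoidHom_of_fg (𝓞 L)ˣ (n := 2) two_ne_zero
  haveI : Fintype ((𝓞 L)ˣ ⧸ (powMonoidHom (α := (𝓞 L)ˣ) 2).range) := Fintype.ofFinite _
  let key : 𝓞 L → Finset (Ideal (𝓞 L)) × ClassGroup (𝓞 L) := fun x =>
    (odds x, ClassGroup.mk0 ⟨half x, hhalf x⟩)
  let rep : Finset (Ideal (𝓞 L)) × ClassGroup (𝓞 L) → 𝓞 L := fun t =>
    if h : ∃ x, Good x ∧ key x = t then h.choose else 0
  refine ⟨(S.powerset ×ˢ (Finset.univ : Finset (ClassGroup (𝓞 L))) ×ˢ
    (Finset.univ : Finset ((𝓞 L)ˣ ⧸ (powMonoidHom (α := (𝓞 L)ˣ) 2).range))).image fun t =>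
      (((rep (t.1, t.2.1) * (t.2.2.out : (𝓞 L)ˣ) : 𝓞 L) : L) : QA), fun α hα hα0 hgood => ?_⟩
  obtain ⟨a, b, hb, hab⟩ := IsFractionRing.div_surjective (A := 𝓞 L) (⟨α, hα⟩ : L)
  have hb0 : b ≠ 0 := nonZeroDivisors.ne_zero hb
  have hα' : α = ((a : L) : QA) / ((b : L) : QA) := by
    have := congrArg Subtype.val hab
    simpa using this.symm
  have ha0 : a ≠ 0 := fun e => hα0 (by rw [hα', e]; simp)
  set x := a * b
  have hαx : α = ((x : L) : QA) / (((b : L) : QA)) ^ 2 := by
    have hbQ : ((b : L) : QA) ≠ 0 := by simpa using hb0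
    rw [hα', show ((x : L) : QA) = ((a : L) : QA) * ((b : L) : QA) by simp [x]]
    field_simp
  have hx : Good x := by
    refine ⟨mul_ne_zero ha0 hb0, fun P hP hP0 hPS => ?_⟩
    haveI := hP
    obtain ⟨A, h1, h2⟩ := exists_place_of_prime P
    haveI : P.IsMaximal := hP.isMaximal hP0
    haveI : Finite (𝓞 L ⧸ P) := Ideal.finiteQuotientOfFreeOfNeBot P hP0
    letI : Field (𝓞 L ⧸ P) := Ideal.Quotient.field P
    obtain ⟨q, hq, hqP⟩ : ∃ q : ℕ, q.Prime ∧ (q : 𝓞 L) ∈ P := by
      obtain ⟨q, hq⟩ := CharP.exists (𝓞 L ⧸ P)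
      refine ⟨q, (CharP.char_is_prime_or_zero (𝓞 L ⧸ P) q).resolve_right fun h => ?_, ?_⟩
      · subst h
        haveI := CharP.charP_to_charZero (𝓞 L ⧸ P)
        exact not_finite (𝓞 L ⧸ P)
      · rw [← Ideal.Quotient.eq_zero_iff_mem, map_natCast]
        exact CharP.cast_eq_zero _ q
    have hqA : A.LiesOverPrime q := A.mem_nonunits_iff.2 (by simpa using h2 _ hqP)
    have hqM : ¬ q ∣ M := fun hd => hPS <| Multiset.mem_toFinset.2 <|
      (mem_normalizedFactors_iff (span_ne_zero hM')).2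
        ⟨Ideal.prime_of_isPrime hP0 hP, Ideal.dvd_iff_le.2
          ((Ideal.span_singleton_le_iff_mem P).2 (by
            obtain ⟨k, rfl⟩ := hd
            rw [Nat.cast_mul]; exact P.mul_mem_right _ hqP))⟩
    obtain ⟨y, hy, hαy⟩ := hgood q hq hqM A hqA
    obtain ⟨c, d, hd, hcd⟩ := IsFractionRing.div_surjective (A := 𝓞 L) (⟨y, hy⟩ : L)
    have hd0 : d ≠ 0 := nonZeroDivisors.ne_zero hd
    have hdQ : ((d : L) : QA) ≠ 0 := by simpa using hd0
    have hbQ : ((b : L) : QA) ≠ 0 := by simpa using hb0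
    have hy' : y = ((c : L) : QA) / ((d : L) : QA) := by
      have := congrArg Subtype.val hcd
      simpa using this.symm
    have hc0 : c ≠ 0 := fun e => (Valuation.ne_zero_iff A.valuation).2 hα0 (by
      rw [hαy, hy', e]; simp)
    have hval : A.valuation (((x * (d * d) : 𝓞 L) : L) : QA) =
        A.valuation ((((c * b) * (c * b) : 𝓞 L) : L) : QA) := by
      have e : ((x : L) : QA) = α * ((b : L) : QA) ^ 2 := by rw [hαx]; field_simp
      simp only [map_mul, MulMemClass.coe_mul, e, hαy, hy', map_pow, map_div₀]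
      have hdv : A.valuation ((d : L) : QA) ≠ 0 := (Valuation.ne_zero_iff _).2 hdQ
      field_simp
    have := expAt_eq_of_valuation_eq hP0 h1 h2 (mul_ne_zero (mul_ne_zero ha0 hb0)
      (mul_ne_zero hd0 hd0)) (mul_ne_zero (mul_ne_zero hc0 hb0) (mul_ne_zero hc0 hb0)) hval
    rw [expAt_mul P (mul_ne_zero ha0 hb0) (mul_ne_zero hd0 hd0), expAt_mul P hd0 hd0,
      expAt_mul P (mul_ne_zero hc0 hb0) (mul_ne_zero hc0 hb0)] at this
    have hxe : expAt P (a * b) = expAt P x := rfl
    rw [Nat.even_iff]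
    omega
  have hrep : Good (rep (key x)) ∧ key (rep (key x)) = key x := by
    have h : ∃ x', Good x' ∧ key x' = key x := ⟨x, hx, rfl⟩
    simp only [rep, dif_pos h]
    exact h.choose_spec
  set x' := rep (key x)
  obtain ⟨e1, e2⟩ := Prod.ext_iff.1 hrep.2
  obtain ⟨s, t, hs, ht, hst⟩ := ClassGroup.mk0_eq_mk0_iff.1 e2
  have hspan : Ideal.span {x' * s ^ 2} = Ideal.span {x * t ^ 2} := by
    rw [← Ideal.span_singleton_mul_span_singleton, ← Ideal.span_singleton_mul_span_singleton,
      ← Ideal.span_singleton_pow, ← Ideal.span_singleton_pow, hdec x' hrep.1.1, hdec x hx.1,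
      show odds x' = odds x from e1, mul_assoc, mul_assoc, ← mul_pow, ← mul_pow,
      mul_comm (half x'), mul_comm (half x), hst]
  obtain ⟨u, hu⟩ := Ideal.span_singleton_eq_span_singleton.1 hspan
  obtain ⟨w, hw⟩ : ∃ w : (𝓞 L)ˣ,
      u = (QuotientGroup.mk u : (𝓞 L)ˣ ⧸ (powMonoidHom 2).range).out * w ^ 2 := by
    have h := QuotientGroup.mk_out_eq_mul (powMonoidHom 2).range u
    obtain ⟨⟨h', w, rfl⟩, e⟩ := h
    refine ⟨w⁻¹, ?_⟩
    rw [e]
    simp [powMonoidHom_apply]
  refine ⟨_, Finset.mem_image.2 ⟨((key x).1, (key x).2, QuotientGroup.mk u),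
    Finset.mem_product.2 ⟨hodds x hx, Finset.mem_product.2 ⟨Finset.mem_univ _, Finset.mem_univ _⟩⟩,
    rfl⟩, ((((s * (w : 𝓞 L)) : 𝓞 L) : L) : QA) / (((((t * b) : 𝓞 L)) : L) : QA), ?_, ?_⟩
  · exact L.div_mem (SetLike.coe_mem _) (SetLike.coe_mem _)
  · rw [show rep ((key x).1, (key x).2) = x' from rfl, hαx]
    rw [hw, Units.val_mul, Units.val_pow_eq_pow_val] at hu
    have e := congrArg (fun z : 𝓞 L => ((z : L) : QA)) hu
    have htQ : ((t : L) : QA) ≠ 0 := by simpa using ht
    have hbQ : ((b : L) : QA) ≠ 0 := by simpa using hb0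
    simp only [map_mul, map_pow, MulMemClass.coe_mul, SubmonoidClass.coe_pow] at e ⊢
    field_simp
    linear_combination -e

end FLTAgent.MW
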