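import Fermat.Agent.MW.Local

/-!
# The ratio is bounded at every place and trivial at almost every place
-/

set_option autoImplicit false
set_option linter.unusedSectionVars false
set_option linter.style.haveILetI false

noncomputable section

namespace FLTAgent.MW

open Filter Topology

variable {D : Datum} {a b c d₁ d₂ d₃ : ℕ}

/-- The numerical conditions on the degrees. -/
def Big (D : Datum) (a b c d₁ d₂ d₃ : ℕ) : Prop :=
  D.n₀ + d₁ + d₂ + d₃ + 1 ≤ a ∧ D.n₀ + d₁ + d₂ + d₃ + 1 ≤ b ∧ D.n₀ + d₁ + d₂ + d₃ + 1 ≤ c ∧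
    D.dim b + D.g = b + 1

theorem Big.small (h : Big D a b c d₁ d₂ d₃) :
    D.g + d₁ + d₂ + d₃ ≤ a ∧ D.g + d₁ + d₂ + d₃ ≤ b ∧ D.g + d₁ + d₂ + d₃ ≤ c := by
  obtain ⟨h1, h2, h3, -⟩ := h
  have := D.g_le
  omega

/-- Frames with good multipliers in a configuration of good frames. -/
theorem exists_quad {k : Type} [Field k] (R : Realisation D k) {P : Raw D k a b c d₁ d₂ d₃}
    (hP : P.Ok) (hbig : Big D a b c d₁ d₂ d₃) (hk : (d₃ : ℕ∞) < ENat.card k) :
    ∃ (cu : Fin (D.rk a d₁) → k) (cw : Fin (D.rk c d₂) → k) (X : Fin d₃ → D.Vec k b),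
      (P.quad cu cw X).Indep := by
  obtain ⟨ha, hb, hc, hdim⟩ := hbig
  set C := hP.conf (Big.small ⟨ha, hb, hc, hdim⟩)
  obtain ⟨u, w, hg⟩ := R.exists_good C ha hb hc hk
  obtain ⟨cu, hcu⟩ := (Submodule.mem_span_range_iff_exists_fun k).1
    (show u ∈ Submodule.span k (Set.range P.W1.1) from hg.memu)
  obtain ⟨cw, hcw⟩ := (Submodule.mem_span_range_iff_exists_fun k).1
    (show w ∈ Submodule.span k (Set.range P.Wc.1) from hg.memw)
  have := D.g_le
  obtain ⟨X, hX⟩ := exists_completion hP.sA'.1 (d := d₃) (by rw [Datum.rk]; omega)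
  have hq : (P.quad cu cw X).Fits C :=
    ⟨rfl, rfl, rfl, rfl, by show ∑ i, cu i • P.W1.1 i ∈ C.W1; rw [hcu]; exact hg.memu,
      by show ∑ i, cw i • P.Wc.1 i ∈ C.Wc; rw [hcw]; exact hg.memw⟩
  refine ⟨cu, cw, X, indep_of_good hq hX hP.sA2'.1 hP.sB'.1 hP.sB2'.1 ?_⟩
  show C.Good (∑ i, cu i • P.W1.1 i) (∑ i, cw i • P.Wc.1 i)
  rwa [hcu, hcw]

section Compact

variable {k : Type} [NormedField k] [ProperSpace k]

theorem tendsto_minors {r ι : Type} [Fintype r] [DecidableEq r] [Fintype ι] [DecidableEq ι]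
    {α : Type} {l : Filter α} {B : α → r → ι → k} {B₀ : r → ι → k}
    (h : Tendsto B l (𝓝 B₀)) : Tendsto (fun t => minors (B t)) l (𝓝 (minors B₀)) := by
  have hc : Continuous (minors : (r → ι → k) → (r → ι) → k) :=
    continuous_pi fun f => Continuous.matrix_det (continuous_pi fun i => continuous_pi fun j =>
      (continuous_apply (f j)).comp (continuous_apply i))
  exact (hc.tendsto B₀).comp h

theorem tendsto_mul {α : Type} {l : Filter α} {p q n : ℕ} {x : α → D.Vec k p} {x₀ : D.Vec k p}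
    {y : α → D.Vec k q} {y₀ : D.Vec k q} (hx : Tendsto x l (𝓝 x₀)) (hy : Tendsto y l (𝓝 y₀)) :
    Tendsto (fun t => D.mul p q n (x t) (y t)) l (𝓝 (D.mul p q n x₀ y₀)) := by
  refine tendsto_pi_nhds.2 fun m => ?_
  simp only [Datum.mul_apply]
  exact tendsto_finsetSum _ fun i _ => tendsto_finsetSum _ fun j _ =>
    (((tendsto_pi_nhds.1 hx i).mul (tendsto_pi_nhds.1 hy j)).mul_const _)

theorem tendsto_elim {α : Type} {l : Filter α} {r s V : Type} [TopologicalSpace V]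
    {o : α → r → V} {o₀ : r → V} {Y : α → s → V} {Y₀ : s → V} (ho : Tendsto o l (𝓝 o₀))
    (hY : Tendsto Y l (𝓝 Y₀)) :
    Tendsto (fun t => Sum.elim (o t) (Y t)) l (𝓝 (Sum.elim o₀ Y₀)) :=
  tendsto_pi_nhds.2 fun i => i.casesOn (tendsto_pi_nhds.1 ho) (tendsto_pi_nhds.1 hY)

theorem unitFrame_lim {r ι : Type} [Fintype r] [DecidableEq r] [Fintype ι] [DecidableEq ι]
    {B : ℕ → r → ι → k} {B₀ : r → ι → k} (h : Tendsto B atTop (𝓝 B₀))
    (hB : ∀ t, UnitFrame (B t)) : LinearIndependent k B₀ := by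
  refine minors_ne_zero_iff.1 fun h0 => ?_
  have h1 := (tendsto_minors h).norm
  simp only [(hB _).2, h0, norm_zero] at h1
  exact one_ne_zero (tendsto_nhds_unique tendsto_const_nhds h1)

theorem mem_lim {r ι : Type} [Fintype r] [DecidableEq r] [Fintype ι] [DecidableEq ι]
    {B : ℕ → r → ι → k} {B₀ : r → ι → k} {x : ℕ → ι → k} {x₀ : ι → k}
    (h : Tendsto B atTop (𝓝 B₀)) (hx : Tendsto x atTop (𝓝 x₀)) (hm : ∀ t, Mem (B t) (x t)) :
    Mem B₀ x₀ := by
  have h1 := tendsto_minors (tendsto_elim h (tendsto_pi_nhds.2 fun _ : Unit => hx))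
  simp only [show ∀ t, minors (Sum.elim (B t) fun _ : Unit => x t) = 0 from hm] at h1
  exact (tendsto_nhds_unique tendsto_const_nhds h1).symm

theorem mulRel_lim {p q n r s t : ℕ} {oP : ℕ → Fin r → D.Vec k p} {oP₀ : Fin r → D.Vec k p}
    {oQ : ℕ → Fin s → D.Vec k q} {oQ₀ : Fin s → D.Vec k q} {oT : ℕ → Fin t → D.Vec k n}
    {oT₀ : Fin t → D.Vec k n} (hP : Tendsto oP atTop (𝓝 oP₀)) (hQ : Tendsto oQ atTop (𝓝 oQ₀))
    (hT : Tendsto oT atTop (𝓝 oT₀)) (h : ∀ m, MulRel (oP m) (oQ m) (oT m)) :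
    MulRel oP₀ oQ₀ oT₀ := fun i j =>
  mem_lim hT (tendsto_mul (tendsto_pi_nhds.1 hP i) (tendsto_pi_nhds.1 hQ j)) fun m => h m i j

theorem leRel_lim {n r t : ℕ} {oP : ℕ → Fin r → D.Vec k n} {oP₀ : Fin r → D.Vec k n}
    {oT : ℕ → Fin t → D.Vec k n} {oT₀ : Fin t → D.Vec k n} (hP : Tendsto oP atTop (𝓝 oP₀))
    (hT : Tendsto oT atTop (𝓝 oT₀)) (h : ∀ m, LeRel (oP m) (oT m)) : LeRel oP₀ oT₀ := fun i =>
  mem_lim hT (tendsto_pi_nhds.1 hP i) fun m => h m i

theorem sectOk_lim {n d : ℕ} {s : ℕ → Sect D k n d} {s₀ : Sect D k n d}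
    (h : Tendsto s atTop (𝓝 s₀)) (hu : ∀ m, UnitSect (s m)) (ho : ∀ m, SectOk (s m)) :
    SectOk s₀ :=
  ⟨unitFrame_lim h.fst_nhds fun m => (hu m).1, unitFrame_lim h.snd_nhds fun m => (hu m).2,
    mulRel_lim h.fst_nhds tendsto_const_nhds h.snd_nhds fun m => (ho m).2.2⟩

theorem UnitSect.norm_le {n d : ℕ} {s : Sect D k n d} (h : UnitSect s) : ‖s‖ ≤ 1 :=
  max_le h.1.1 h.2.1

set_option maxHeartbeats 1000000 in
set_option synthInstance.maxSize 2000 in
set_option synthInstance.maxHeartbeats 400000 in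
/-- **Boundedness at one place.** -/
theorem exists_local_bound [Infinite k] (R : Realisation D k) (hbig : Big D a b c d₁ d₂ d₃) :
    ∃ M : ℝ, ∀ (C : Conf D k a b c d₁ d₂ d₃) (q : Quad D k a b c d₂ d₁ d₃),
      q.Fits C → q.Indep → |q.val lsize| ≤ M := by
  classical
  by_contra hcon
  push Not at hcon
  choose C q hfit hind hlarge using fun m : ℕ => hcon (m : ℝ)
  choose P hok hun hsp using fun m => exists_unitRaw (C m)
  have hbound : ∀ m, P m ∈ Metric.closedBall (0 : Raw D k a b c d₁ d₂ d₃) 1 := fun m => by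
    have h := hun m
    rw [Metric.mem_closedBall, dist_zero_right]
    exact max_le h.uW1.norm_le (max_le h.uWc.norm_le (max_le h.uA'.norm_le (max_le h.uA2.norm_le
      (max_le h.uA2'.norm_le (max_le h.uB.norm_le (max_le h.uB'.norm_le
        (max_le h.uB2.norm_le h.uB2'.norm_le)))))))
  obtain ⟨P₀, -, φ, hφ, hlim⟩ := (isCompact_closedBall _ _).tendsto_subseq hbound
  have l1 : Tendsto (fun m => (P (φ m)).W1) atTop (𝓝 P₀.W1) := hlim.fst_nhds
  have l2 : Tendsto (fun m => (P (φ m)).Wc) atTop (𝓝 P₀.Wc) := hlim.snd_nhds.fst_nhds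
  have l3 : Tendsto (fun m => (P (φ m)).A') atTop (𝓝 P₀.A') := hlim.snd_nhds.snd_nhds.fst_nhds
  have l4 : Tendsto (fun m => (P (φ m)).A2) atTop (𝓝 P₀.A2) :=
    hlim.snd_nhds.snd_nhds.snd_nhds.fst_nhds
  have l5 : Tendsto (fun m => (P (φ m)).A2') atTop (𝓝 P₀.A2') :=
    hlim.snd_nhds.snd_nhds.snd_nhds.snd_nhds.fst_nhds
  have l6 : Tendsto (fun m => (P (φ m)).B) atTop (𝓝 P₀.B) :=
    hlim.snd_nhds.snd_nhds.snd_nhds.snd_nhds.snd_nhds.fst_nhds
  have l7 : Tendsto (fun m => (P (φ m)).B') atTop (𝓝 P₀.B') :=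
    hlim.snd_nhds.snd_nhds.snd_nhds.snd_nhds.snd_nhds.snd_nhds.fst_nhds
  have l8 : Tendsto (fun m => (P (φ m)).B2) atTop (𝓝 P₀.B2) :=
    hlim.snd_nhds.snd_nhds.snd_nhds.snd_nhds.snd_nhds.snd_nhds.snd_nhds.fst_nhds
  have l9 : Tendsto (fun m => (P (φ m)).B2') atTop (𝓝 P₀.B2') :=
    hlim.snd_nhds.snd_nhds.snd_nhds.snd_nhds.snd_nhds.snd_nhds.snd_nhds.snd_nhds
  have sc : ∀ {r s : ℕ} (z : Fin r → D.Vec k s), Tendsto (fun _ : ℕ => z) atTop (𝓝 z) :=
    fun _ => tendsto_const_nhds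
  have hok₀ : P₀.Ok :=
    { sW1 := sectOk_lim l1 (fun m => (hun _).uW1) fun m => (hok _).sW1
      sWc := sectOk_lim l2 (fun m => (hun _).uWc) fun m => (hok _).sWc
      sA' := sectOk_lim l3 (fun m => (hun _).uA') fun m => (hok _).sA'
      sA2 := sectOk_lim l4 (fun m => (hun _).uA2) fun m => (hok _).sA2
      sA2' := sectOk_lim l5 (fun m => (hun _).uA2') fun m => (hok _).sA2'
      sB := sectOk_lim l6 (fun m => (hun _).uB) fun m => (hok _).sB
      sB' := sectOk_lim l7 (fun m => (hun _).uB') fun m => (hok _).sB'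
      sB2 := sectOk_lim l8 (fun m => (hun _).uB2) fun m => (hok _).sB2
      sB2' := sectOk_lim l9 (fun m => (hun _).uB2') fun m => (hok _).sB2'
      rB := mulRel_lim l1.fst_nhds (sc _) l6.fst_nhds fun m => (hok _).rB
      rB' := mulRel_lim l1.fst_nhds l3.fst_nhds l7.fst_nhds fun m => (hok _).rB'
      rA2 := mulRel_lim l2.fst_nhds (sc _) l4.fst_nhds fun m => (hok _).rA2
      rA2' := mulRel_lim l2.fst_nhds l3.fst_nhds l5.fst_nhds fun m => (hok _).rA2'
      rB2 := mulRel_lim l1.fst_nhds l4.fst_nhds l8.fst_nhds fun m => (hok _).rB2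
      rB2' := mulRel_lim l1.fst_nhds l5.fst_nhds l9.fst_nhds fun m => (hok _).rB2'
      rwB2' := mulRel_lim l2.fst_nhds l7.fst_nhds l9.fst_nhds fun m => (hok _).rwB2'
      lB := leRel_lim l7.fst_nhds l6.fst_nhds fun m => (hok _).lB
      lA2 := leRel_lim l5.fst_nhds l4.fst_nhds fun m => (hok _).lA2
      lB2 := leRel_lim l9.fst_nhds l8.fst_nhds fun m => (hok _).lB2 }
  obtain ⟨cu, cw, X, hI₀⟩ := exists_quad R hok₀ hbig (by simp)
  set Q : ℕ → Quad D k a b c d₂ d₁ d₃ := fun m => (P (φ m)).quad cu cw X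
  set Q₀ := P₀.quad cu cw X
  have tu : Tendsto (fun m => (Q m).u) atTop (𝓝 Q₀.u) :=
    tendsto_finsetSum Finset.univ fun i _ => (tendsto_pi_nhds.1 l1.fst_nhds i).const_smul (cu i)
  have tw : Tendsto (fun m => (Q m).w) atTop (𝓝 Q₀.w) :=
    tendsto_finsetSum Finset.univ fun i _ => (tendsto_pi_nhds.1 l2.fst_nhds i).const_smul (cw i)
  have twX : ∀ i, Tendsto (fun m => D.mul c b (b + c) (Q m).w (X i)) atTop
      (𝓝 (D.mul c b (b + c) Q₀.w (X i))) := fun i => tendsto_mul tw tendsto_const_nhds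
  have fA : Tendsto (fun m => (Q m).fA) atTop (𝓝 Q₀.fA) := tendsto_elim l3.fst_nhds (sc _)
  have fA2 : Tendsto (fun m => (Q m).fA2) atTop (𝓝 Q₀.fA2) :=
    tendsto_elim l5.fst_nhds (tendsto_pi_nhds.2 twX)
  have fB : Tendsto (fun m => (Q m).fB) atTop (𝓝 Q₀.fB) :=
    tendsto_elim l7.fst_nhds (tendsto_pi_nhds.2 fun i => tendsto_mul tu tendsto_const_nhds)
  have fB2 : Tendsto (fun m => (Q m).fB2) atTop (𝓝 Q₀.fB2) :=
    tendsto_elim l9.fst_nhds (tendsto_pi_nhds.2 fun i => tendsto_mul tu (twX i))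
  have ev : ∀ {r ι : Type} [Fintype r] [DecidableEq r] [Fintype ι] [DecidableEq ι]
      {B : ℕ → r → ι → k} {B₀ : r → ι → k}, Tendsto B atTop (𝓝 B₀) → LinearIndependent k B₀ →
        (∀ᶠ m in atTop, LinearIndependent k (B m)) ∧
          Tendsto (fun m => lsize (B m)) atTop (𝓝 (lsize B₀)) := by
    intro r ι _ _ _ _ B B₀ hB h0
    have h1 := (tendsto_minors hB).norm
    have h2 := norm_ne_zero_iff.2 (minors_ne_zero_iff.2 h0)
    exact ⟨(h1.eventually_ne h2).mono fun m hm => minors_ne_zero_iff.1 (norm_ne_zero_iff.1 hm),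
      h1.log h2⟩
  obtain ⟨iA, iA2, iB, iB2⟩ := hI₀
  obtain ⟨eA, vA⟩ := ev fA iA
  obtain ⟨eA2, vA2⟩ := ev fA2 iA2
  obtain ⟨eB, vB⟩ := ev fB iB
  obtain ⟨eB2, vB2⟩ := ev fB2 iB2
  obtain ⟨-, wA⟩ := ev l3.fst_nhds hok₀.sA'.1
  obtain ⟨-, wA2⟩ := ev l5.fst_nhds hok₀.sA2'.1
  obtain ⟨-, wB⟩ := ev l7.fst_nhds hok₀.sB'.1
  obtain ⟨-, wB2⟩ := ev l9.fst_nhds hok₀.sB2'.1
  have hval : Tendsto (fun m => (Q m).val lsize) atTop (𝓝 (Q₀.val lsize)) :=
    ((((((vB2.add wA2).add wB).add vA).sub wB2).sub vA2).sub vB).sub wA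
  have heq : ∀ᶠ m in atTop, (q (φ m)).val lsize = (Q m).val lsize := by
    filter_upwards [eA, eA2, eB, eB2] with m h1 h2 h3 h4
    obtain ⟨hg1, hg2, -⟩ := hbig.small
    exact val_eq isSize_lsize R (C (φ m)) (by omega) hg2 hbig.2.2.2 (hfit _)
      ((hsp _).fits cu cw X) (hind _) ⟨h1, h2, h3, h4⟩
  obtain ⟨N, hN⟩ := exists_nat_gt (|Q₀.val lsize| + 1)
  have h1 := (hval.abs.eventually_lt_const (lt_add_one |Q₀.val lsize|)).and
    (heq.and (eventually_ge_atTop N))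
  obtain ⟨m, hm1, hm2, hm3⟩ := h1.exists
  have h2 := hlarge (φ m)
  rw [hm2] at h2
  have h3 : (N : ℝ) ≤ φ m := Nat.cast_le.2 (hm3.trans (hφ.id_le m))
  linarith

end Compact

section Reduction

variable {p : ℕ} [Fact p.Prime]

local notation "kp" => ℚ_[p]

/-- Reduction of a `p`-adic number, zero off the integers. -/
def red (x : kp) : ZMod p :=
  if h : ‖x‖ ≤ 1 then PadicInt.toZMod ⟨x, h⟩ else 0

theorem red_coe (z : ℤ_[p]) : red (z : kp) = PadicInt.toZMod z := by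
  rw [red, dif_pos (show ‖(z : kp)‖ ≤ 1 from z.2)]
  rfl

theorem red_ne_zero {x : kp} (h : ‖x‖ = 1) : red x ≠ 0 := by
  rw [red, dif_pos h.le]
  exact ((PadicInt.isUnit_iff.2 h).map PadicInt.toZMod).ne_zero

theorem norm_eq_one_of_red {x : kp} (hx : ‖x‖ ≤ 1) (h : red x ≠ 0) : ‖x‖ = 1 := by
  refine le_antisymm hx (le_of_not_gt fun hlt => h ?_)
  rw [red, dif_pos hx, ← RingHom.mem_ker, PadicInt.ker_toZMod, IsLocalRing.mem_maximalIdeal]
  exact PadicInt.mem_nonunits.2 hlt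

/-- All entries are integral. -/
def Integral {r ι : Type} (B : r → ι → kp) : Prop := ∀ i l, ‖B i l‖ ≤ 1

/-- The reduced family. -/
def redFam {r ι : Type} (B : r → ι → kp) : r → ι → ZMod p := fun i l => red (B i l)

/-- The integral lift of an integral family. -/
theorem Integral.exists_lift {r ι : Type} {B : r → ι → kp} (h : Integral B) :
    ∃ z : r → ι → ℤ_[p], B = (fun i l => (z i l : kp)) ∧
      redFam B = fun i l => PadicInt.toZMod (z i l) :=
  ⟨fun i l => ⟨B i l, h i l⟩, rfl, funext fun i => funext fun l => red_coe ⟨B i l, h i l⟩⟩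

theorem Integral.minors {r ι : Type} [Fintype r] [DecidableEq r] {B : r → ι → kp}
    (h : Integral B) (f : r → ι) :
    ‖MW.minors B f‖ ≤ 1 ∧ MW.minors (redFam B) f = red (MW.minors B f) := by
  obtain ⟨z, hB, hr⟩ := h.exists_lift
  rw [hr, hB, minors_map, show (fun i l => ((z i l : ℤ_[p]) : kp)) =
    fun i l => PadicInt.Coe.ringHom (z i l) from rfl, minors_map]
  exact ⟨(MW.minors z f).2, (red_coe _).symm⟩

theorem UnitFrame.integral {r ι : Type} [Fintype r] [DecidableEq r] [Fintype ι] [DecidableEq ι]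
    {B : r → ι → kp} (h : UnitFrame B) : Integral B := fun i l =>
  ((norm_le_pi_norm (B i) l).trans (norm_le_pi_norm B i)).trans h.1

theorem UnitFrame.li_red {r ι : Type} [Fintype r] [DecidableEq r] [Fintype ι] [DecidableEq ι]
    {B : r → ι → kp} (h : UnitFrame B) : LinearIndependent (ZMod p) (redFam B) := by
  obtain ⟨f, hf⟩ : ∃ f, ‖MW.minors B f‖ = 1 := by
    by_contra! hne
    obtain ⟨f₀, -⟩ := exists_minor_ne_zero h.li
    obtain ⟨f, -, hmax⟩ := Finset.exists_max_image Finset.univ (fun f => ‖MW.minors B f‖)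
      ⟨f₀, Finset.mem_univ _⟩
    have h1 : ‖MW.minors B‖ ≤ ‖MW.minors B f‖ :=
      (pi_norm_le_iff_of_nonneg (norm_nonneg _)).2 fun g => hmax g (Finset.mem_univ _)
    exact hne f (le_antisymm (h.integral.minors f).1 (h.2 ▸ h1))
  exact linearIndependent_of_minor (f := f) (by
    rw [(h.integral.minors f).2]; exact red_ne_zero hf)

theorem lsize_eq_zero {r ι : Type} [Fintype r] [DecidableEq r] [Fintype ι] [DecidableEq ι]
    {B : r → ι → kp} (h : Integral B) (hli : LinearIndependent (ZMod p) (redFam B)) :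
    lsize B = 0 ∧ LinearIndependent kp B := by
  obtain ⟨f, hf⟩ := exists_minor_ne_zero hli
  rw [(h.minors f).2] at hf
  have h1 := norm_eq_one_of_red (h.minors f).1 hf
  refine ⟨?_, linearIndependent_of_minor (f := f) fun h0 => by simp [h0] at h1⟩
  rw [lsize, norm_eq_one_of_forall (fun g => (h.minors g).1) ⟨f, h1⟩, Real.log_one]

theorem Integral.elim {r s ι : Type} {o : r → ι → kp} {Y : s → ι → kp} (h : Integral o)
    (h' : Integral Y) : Integral (Sum.elim o Y) ∧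
      redFam (Sum.elim o Y) = Sum.elim (redFam o) (redFam Y) :=
  ⟨fun i => i.casesOn h h', funext fun i => by cases i <;> rfl⟩

theorem integral_mul {m q n : ℕ} {x : D.Vec kp m} {y : D.Vec kp q} (hx : ∀ i, ‖x i‖ ≤ 1)
    (hy : ∀ i, ‖y i‖ ≤ 1) (l : Fin (D.dim n)) : ‖D.mul m q n x y l‖ ≤ 1 ∧
      red (D.mul m q n x y l) = D.mul m q n (fun i => red (x i)) (fun i => red (y i)) l := by
  have h := Datum.mul_map D (PadicInt.Coe.ringHom (p := p)) m q n (fun i => ⟨x i, hx i⟩)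
    (fun i => ⟨y i, hy i⟩) l
  have h' := Datum.mul_map D (PadicInt.toZMod (p := p)) m q n (fun i => ⟨x i, hx i⟩)
    (fun i => ⟨y i, hy i⟩) l
  change ((D.mul m q n _ _ l : ℤ_[p]) : kp) = D.mul m q n x y l at h
  rw [← h, red_coe]
  refine ⟨(D.mul m q n _ _ l : ℤ_[p]).2, h'.trans ?_⟩
  simp only [← red_coe]

theorem mem_red {r ι : Type} [Fintype r] [DecidableEq r] {B : r → ι → kp} {x : ι → kp}
    (hB : Integral B) (hx : ∀ l, ‖x l‖ ≤ 1) (h : Mem B x) :
    Mem (redFam B) (fun l => red (x l)) := by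
  obtain ⟨hi, he⟩ := hB.elim (Y := fun _ : Unit => x) fun _ => hx
  funext f
  have := (hi.minors f).2
  rw [congrFun h f] at this
  show MW.minors (Sum.elim (redFam B) (redFam fun _ : Unit => x)) f = 0
  rw [← he, this]
  simpa using red_coe (0 : ℤ_[p])

theorem mulRel_red {m q n r s t : ℕ} {oP : Fin r → D.Vec kp m} {oQ : Fin s → D.Vec kp q}
    {oT : Fin t → D.Vec kp n} (hP : Integral oP) (hQ : Integral oQ) (hT : Integral oT)
    (h : MulRel oP oQ oT) : MulRel (redFam oP) (redFam oQ) (redFam oT) := fun i j => by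
  have h1 := mem_red hT (fun l => (integral_mul (hP i) (hQ j) l).1) (h i j)
  simp only [fun l => (integral_mul (D := D) (n := n) (hP i) (hQ j) l).2] at h1
  exact h1

theorem integral_std (n : ℕ) : Integral (std (D := D) (k := kp) n) ∧
    redFam (std (D := D) (k := kp) n) = std n := by
  refine ⟨fun i l => ?_, funext fun i => funext fun l => ?_⟩
  · rcases eq_or_ne l i with rfl | h <;> simp [std, *]
  · rcases eq_or_ne l i with rfl | h
    · simpa [redFam, std] using red_coe (1 : ℤ_[p])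
    · simpa [redFam, std, h] using red_coe (0 : ℤ_[p])

theorem sectOk_red {n d : ℕ} {s : Sect D kp n d} (h : SectOk s) (hu : UnitSect s) :
    SectOk ((redFam s.1, redFam s.2) : Sect D (ZMod p) n d) := by
  have h1 := mulRel_red hu.1.integral (integral_std _).1 hu.2.integral h.2.2
  rw [(integral_std _).2] at h1
  exact ⟨hu.1.li_red, hu.2.li_red, h1⟩

theorem integral_comb {r n : ℕ} {o : Fin r → D.Vec kp n} (ho : Integral o) (e : Fin r → ZMod p)
    (l : Fin (D.dim n)) : ‖(∑ i, ((e i).val : kp) • o i) l‖ ≤ 1 ∧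
      red ((∑ i, ((e i).val : kp) • o i) l) = (∑ i, e i • redFam o i) l := by
  obtain ⟨z, hB, hr⟩ := ho.exists_lift
  subst hB
  have h : (∑ i, ((e i).val : kp) • fun l => (z i l : kp)) l =
      ((∑ i, ((e i).val : ℤ_[p]) * z i l : ℤ_[p]) : kp) := by
    simp [Finset.sum_apply, -ZMod.natCast_val]
  rw [h, red_coe, hr]
  refine ⟨(∑ i, ((e i).val : ℤ_[p]) * z i l : ℤ_[p]).2, ?_⟩
  simp [Finset.sum_apply]

set_option maxHeartbeats 1000000 in
/-- **Triviality at a good place.** -/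
theorem local_good (R : Realisation D kp) (R' : Realisation D (ZMod p))
    (hbig : Big D a b c d₁ d₂ d₃) (hp : d₃ < p) (C : Conf D kp a b c d₁ d₂ d₃)
    (q : Quad D kp a b c d₂ d₁ d₃) (hq : q.Fits C) (hi : q.Indep) : q.val lsize = 0 := by
  classical
  obtain ⟨P, hok, hu, hsp⟩ := exists_unitRaw C
  set P' : Raw D (ZMod p) a b c d₁ d₂ d₃ :=
    ((redFam P.W1.1, redFam P.W1.2), (redFam P.Wc.1, redFam P.Wc.2),
      (redFam P.A'.1, redFam P.A'.2), (redFam P.A2.1, redFam P.A2.2),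
      (redFam P.A2'.1, redFam P.A2'.2), (redFam P.B.1, redFam P.B.2),
      (redFam P.B'.1, redFam P.B'.2), (redFam P.B2.1, redFam P.B2.2),
      (redFam P.B2'.1, redFam P.B2'.2))
  have rs : ∀ {m n r t : ℕ} {oP : Fin r → D.Vec kp m} {oT : Fin t → D.Vec kp n} (q : ℕ),
      Integral oP → Integral oT → MulRel oP (std q) oT →
        MulRel (redFam oP) (std q) (redFam oT) := fun q hP hT h => by
    have h1 := mulRel_red hP (integral_std q).1 hT h
    rwa [(integral_std q).2] at h1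
  have lr : ∀ {n r t : ℕ} {oP : Fin r → D.Vec kp n} {oT : Fin t → D.Vec kp n},
      Integral oP → Integral oT → LeRel oP oT → LeRel (redFam oP) (redFam oT) :=
    fun hP hT h i => mem_red hT (hP i) (h i)
  have I1 := hu.uW1.1.integral
  have I2 := hu.uWc.1.integral
  have I3 := hu.uA'.1.integral
  have I4 := hu.uA2.1.integral
  have I5 := hu.uA2'.1.integral
  have I6 := hu.uB.1.integral
  have I7 := hu.uB'.1.integral
  have I8 := hu.uB2.1.integral
  have I9 := hu.uB2'.1.integral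
  have hok' : P'.Ok :=
    { sW1 := sectOk_red hok.sW1 hu.uW1
      sWc := sectOk_red hok.sWc hu.uWc
      sA' := sectOk_red hok.sA' hu.uA'
      sA2 := sectOk_red hok.sA2 hu.uA2
      sA2' := sectOk_red hok.sA2' hu.uA2'
      sB := sectOk_red hok.sB hu.uB
      sB' := sectOk_red hok.sB' hu.uB'
      sB2 := sectOk_red hok.sB2 hu.uB2
      sB2' := sectOk_red hok.sB2' hu.uB2'
      rB := rs b I1 I6 hok.rB
      rB' := mulRel_red I1 I3 I7 hok.rB'
      rA2 := rs b I2 I4 hok.rA2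
      rA2' := mulRel_red I2 I3 I5 hok.rA2'
      rB2 := mulRel_red I1 I4 I8 hok.rB2
      rB2' := mulRel_red I1 I5 I9 hok.rB2'
      rwB2' := mulRel_red I2 I7 I9 hok.rwB2'
      lB := lr I7 I6 hok.lB
      lA2 := lr I5 I4 hok.lA2
      lB2 := lr I9 I8 hok.lB2 }
  obtain ⟨cu, cw, X, jA, jA2, jB, jB2⟩ := exists_quad R' hok' hbig (by
    rw [ENat.card_eq_coe_fintype_card, ZMod.card]; exact_mod_cast hp)
  set X₀ : Fin d₃ → D.Vec kp b := fun i l => ((X i l).val : kp)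
  have IX : Integral X₀ ∧ redFam X₀ = X := by
    refine ⟨fun i l => ?_, funext fun i => funext fun l => ?_⟩
    · simpa [X₀, -ZMod.natCast_val] using ((((X i l).val : ℕ) : ℤ_[p])).2
    · show red ((((X i l).val : ℕ) : kp)) = X i l
      rw [← PadicInt.coe_natCast, red_coe, map_natCast, ZMod.natCast_rightInverse]
  set Q := P.quad (fun i => ((cu i).val : kp)) (fun i => ((cw i).val : kp)) X₀
  set Q' := P'.quad cu cw X
  have iu : (∀ l, ‖Q.u l‖ ≤ 1) ∧ (fun l => red (Q.u l)) = Q'.u :=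
    ⟨fun l => (integral_comb I1 cu l).1, funext fun l => (integral_comb I1 cu l).2⟩
  have iw : (∀ l, ‖Q.w l‖ ≤ 1) ∧ (fun l => red (Q.w l)) = Q'.w :=
    ⟨fun l => (integral_comb I2 cw l).1, funext fun l => (integral_comb I2 cw l).2⟩
  have im : ∀ {m n q : ℕ} {x : D.Vec kp m} {x' : D.Vec (ZMod p) m} {Y : Fin d₃ → D.Vec kp q},
      ((∀ l, ‖x l‖ ≤ 1) ∧ (fun l => red (x l)) = x') → Integral Y →
      Integral (fun i => D.mul m q n x (Y i)) ∧
        redFam (fun i => D.mul m q n x (Y i)) = fun i => D.mul m q n x' (redFam Y i) :=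
    fun hx hY => ⟨fun i l => (integral_mul hx.1 (hY i) l).1, funext fun i => funext fun l => by
      rw [← hx.2]; exact (integral_mul hx.1 (hY i) l).2⟩
  obtain ⟨iwX, rwX⟩ := im (n := b + c) iw IX.1
  obtain ⟨iuX, ruX⟩ := im (n := a + b) iu IX.1
  obtain ⟨iuwX, ruwX⟩ := im (n := a + b + c) iu iwX
  rw [IX.2] at rwX ruX
  rw [rwX] at ruwX
  obtain ⟨JA, eA⟩ := I3.elim IX.1
  obtain ⟨JA2, eA2⟩ := I5.elim iwX
  obtain ⟨JB, eB⟩ := I7.elim iuX
  obtain ⟨JB2, eB2⟩ := I9.elim iuwX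
  rw [IX.2] at eA
  rw [rwX] at eA2
  rw [ruX] at eB
  rw [ruwX] at eB2
  obtain ⟨zA, kA⟩ := lsize_eq_zero (B := Q.fA) JA (eA ▸ jA)
  obtain ⟨zA2, kA2⟩ := lsize_eq_zero (B := Q.fA2) JA2 (eA2 ▸ jA2)
  obtain ⟨zB, kB⟩ := lsize_eq_zero (B := Q.fB) JB (eB ▸ jB)
  obtain ⟨zB2, kB2⟩ := lsize_eq_zero (B := Q.fB2) JB2 (eB2 ▸ jB2)
  obtain ⟨wA, -⟩ := lsize_eq_zero I3 hu.uA'.1.li_red
  obtain ⟨wA2, -⟩ := lsize_eq_zero I5 hu.uA2'.1.li_red
  obtain ⟨wB, -⟩ := lsize_eq_zero I7 hu.uB'.1.li_red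
  obtain ⟨wB2, -⟩ := lsize_eq_zero I9 hu.uB2'.1.li_red
  obtain ⟨hg1, hg2, -⟩ := hbig.small
  rw [val_eq isSize_lsize R C (by omega) hg2 hbig.2.2.2 hq (hsp.fits _ _ _) hi
    ⟨kA, kA2, kB, kB2⟩]
  show lsize Q.fB2 + lsize Q.oA2 + lsize Q.oB + lsize Q.fA - lsize Q.oB2 - lsize Q.fA2 -
    lsize Q.fB - lsize Q.oA = 0
  rw [zA, zA2, zB, zB2, show lsize Q.oA = 0 from wA, show lsize Q.oA2 = 0 from wA2,
    show lsize Q.oB = 0 from wB, show lsize Q.oB2 = 0 from wB2]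
  ring

end Reduction

end FLTAgent.MW
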