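import Fermat.Agent.MW.Datum

/-!
# Configurations of four divisors and good multipliers
-/

set_option autoImplicit false
set_option linter.unusedSectionVars false
set_option linter.style.haveILetI false

noncomputable section

namespace FLTAgent.MW

open AlgebraicCurve FLTAgent.Curves FLTAgent.Specialization

variable {D : Datum} {k : Type} [Field k]

variable (D) in
/-- Sections of `E₁`, `E₂`, `F` and of their sums in the degrees `a`, `b`, `c` and their sums. -/
structure Conf (k : Type) [Field k] (a b c d₁ d₂ d₃ : ℕ) where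
  W1 : Submodule k (D.Vec k a)
  Wc : Submodule k (D.Vec k c)
  A' : Submodule k (D.Vec k b)
  A2 : Submodule k (D.Vec k (b + c))
  A2' : Submodule k (D.Vec k (b + c))
  B : Submodule k (D.Vec k (a + b))
  B' : Submodule k (D.Vec k (a + b))
  B2 : Submodule k (D.Vec k (a + b + c))
  B2' : Submodule k (D.Vec k (a + b + c))
  hW1 : IsSec D a d₁ W1
  hWc : IsSec D c d₂ Wc
  hA' : IsSec D b d₃ A'
  hA2 : IsSec D (b + c) d₂ A2
  hA2' : IsSec D (b + c) (d₂ + d₃) A2'
  hB : IsSec D (a + b) d₁ B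
  hB' : IsSec D (a + b) (d₁ + d₃) B'
  hB2 : IsSec D (a + b + c) (d₁ + d₂) B2
  hB2' : IsSec D (a + b + c) (d₁ + d₂ + d₃) B2'
  mB : ∀ u ∈ W1, ∀ x, D.mul a b (a + b) u x ∈ B
  mB' : ∀ u ∈ W1, ∀ x ∈ A', D.mul a b (a + b) u x ∈ B'
  mA2 : ∀ w ∈ Wc, ∀ x, D.mul c b (b + c) w x ∈ A2
  mA2' : ∀ w ∈ Wc, ∀ x ∈ A', D.mul c b (b + c) w x ∈ A2'
  mB2 : ∀ u ∈ W1, ∀ x ∈ A2, D.mul a (b + c) (a + b + c) u x ∈ B2
  mB2' : ∀ u ∈ W1, ∀ x ∈ A2', D.mul a (b + c) (a + b + c) u x ∈ B2'
  mwB2' : ∀ w ∈ Wc, ∀ y ∈ B', D.mul c (a + b) (a + b + c) w y ∈ B2'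
  leB : B' ≤ B
  leA2 : A2' ≤ A2
  leB2 : B2' ≤ B2

namespace Conf

variable {a b c d₁ d₂ d₃ : ℕ}

/-- Multipliers that act invertibly on the three quotients. -/
structure Good (C : Conf D k a b c d₁ d₂ d₃) (u : D.Vec k a) (w : D.Vec k c) : Prop where
  memu : u ∈ C.W1
  memw : w ∈ C.Wc
  injA : ∀ x, D.mul a b (a + b) u x ∈ C.B' → x ∈ C.A'
  injw : ∀ x, D.mul c b (b + c) w x ∈ C.A2' → x ∈ C.A'
  injA2 : ∀ x ∈ C.A2, D.mul a (b + c) (a + b + c) u x ∈ C.B2' → x ∈ C.A2'

end Conf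

namespace Realisation

variable (R : Realisation D k)

/-- Divisors of products. -/
theorem le_add_of_mul {p q n : ℕ} (hn : p + q ≤ n) {W : Submodule k (D.Vec k p)}
    {W' : Submodule k (D.Vec k q)} {P : Submodule k (D.Vec k n)} {E E' G : Divisor R.K R.F}
    (hE : R.Belongs W E) (hE' : R.Belongs W' E') (hG : R.Belongs P G)
    (hp : (D.n₀ : ℤ) + 1 ≤ p - Divisor.degree E) (hq : (D.n₀ : ℤ) + 1 ≤ q - Divisor.degree E')
    (hmul : ∀ x ∈ W, ∀ y ∈ W', D.mul p q n x y ∈ P) (hpq : n = p + q) :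
    G ≤ E + E' := by
  have hmem : ∀ f ∈ R.funSpan W, ∀ f' ∈ R.funSpan W', f * f' ∈ R.funSpan P := by
    intro f hf f' hf'
    induction hf using Submodule.span_induction with
    | mem y hy =>
        induction hf' using Submodule.span_induction with
        | mem y' hy' =>
            obtain ⟨x, hx, rfl⟩ := hy
            obtain ⟨x', hx', rfl⟩ := hy'
            rw [← R.phi_mul hn]
            exact Submodule.subset_span ⟨_, hmul x hx x' hx', rfl⟩
        | zero => rw [mul_zero]; exact Submodule.zero_mem _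
        | add y z _ _ hy hz => rw [mul_add]; exact add_mem hy hz
        | smul r y _ hy => rw [mul_smul_comm]; exact Submodule.smul_mem _ _ hy
    | zero => rw [zero_mul]; exact Submodule.zero_mem _
    | add y z _ _ hy hz => rw [add_mul]; exact add_mem hy hz
    | smul r y _ hy => rw [smul_mul_assoc]; exact Submodule.smul_mem _ _ hy
  intro Q
  obtain ⟨f, hf, hfQ⟩ := R.exists_exact_rr (G := Finsupp.single R.O (p : ℤ) - E)
    (by rw [map_sub, degree_single']; omega) Q
  obtain ⟨f', hf', hfQ'⟩ := R.exists_exact_rr (G := Finsupp.single R.O (q : ℤ) - E')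
    (by rw [map_sub, degree_single']; omega) Q
  obtain ⟨hf0, h1⟩ := (exact_iff hf).1 hfQ
  obtain ⟨hf0', h1'⟩ := (exact_iff hf').1 hfQ'
  rw [← hE.span_eq] at hf
  rw [← hE'.span_eq] at hf'
  have h2 := hmem f hf f' hf'
  rw [hG.span_eq] at h2
  have h3 := (mem_rrSpace.1 h2 Q).le_ord (mul_ne_zero hf0 hf0')
  rw [Q.ord_mul hf0 hf0', h1, h1'] at h3
  subst hpq
  simp only [Finsupp.add_apply, Finsupp.sub_apply] at h3 ⊢
  classical
  rw [Finsupp.single_apply, Finsupp.single_apply, Finsupp.single_apply] at h3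
  split_ifs at h3 <;> push_cast at h3 <;> omega

theorem add_of_mul {p q n d d' e : ℕ} (hpq : n = p + q) (he : e = d + d')
    {W : Submodule k (D.Vec k p)} {W' : Submodule k (D.Vec k q)} {P : Submodule k (D.Vec k n)}
    {E E' G : Divisor R.K R.F} (hE : R.Belongs W E) (hE' : R.Belongs W' E') (hG : R.Belongs P G)
    (hd : Divisor.degree E = d) (hd' : Divisor.degree E' = d') (hdG : Divisor.degree G = e)
    (hp : D.n₀ + d + 1 ≤ p) (hq : D.n₀ + d' + 1 ≤ q)
    (hmul : ∀ x ∈ W, ∀ y ∈ W', D.mul p q n x y ∈ P) : G = E + E' := by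
  refine (eq_of_le_of_degree_le (R.le_add_of_mul hpq.ge hE hE' hG (by rw [hd]; omega)
    (by rw [hd']; omega) hmul hpq) ?_)
  rw [map_add, hd, hd', hdG, he]
  omega

theorem mem_of_exact_mul {p q n : ℕ} (hn : p + q = n) {W : Submodule k (D.Vec k q)}
    {P : Submodule k (D.Vec k n)} {E E' F₀ : Divisor R.K R.F}
    (hW : R.Belongs W (E' + F₀)) (hP : R.Belongs P (E + E' + F₀)) {u : D.Vec k p} {x : D.Vec k q}
    (hu : R.phi u ∈ riemannRochSpace (Finsupp.single R.O (p : ℤ) - E))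
    (hx : R.phi x ∈ riemannRochSpace (Finsupp.single R.O (q : ℤ) - E'))
    (hexact : ∀ Q ∈ F₀.support, Exact (Finsupp.single R.O (p : ℤ) - E) Q (R.phi u))
    (h : D.mul p q n u x ∈ P) : x ∈ W := by
  rw [hW.mem_iff, mem_rrSpace]
  intro Q
  rcases eq_or_ne (R.phi x) 0 with h0 | h0
  · exact Or.inl h0
  refine ordGE_of_le ?_
  have h2 := (mem_rrSpace.1 hx Q).le_ord h0
  by_cases hQ : Q ∈ F₀.support
  · obtain ⟨hu0, h1⟩ := (exact_iff hu).1 (hexact Q hQ)
    have h3 := hP.mem_iff.1 h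
    rw [R.phi_mul hn.le] at h3
    have h4 := (mem_rrSpace.1 h3 Q).le_ord (mul_ne_zero hu0 h0)
    rw [Q.ord_mul hu0 h0, h1] at h4
    subst hn
    simp only [Finsupp.sub_apply, Finsupp.add_apply] at h4 ⊢
    classical
    rw [Finsupp.single_apply, Finsupp.single_apply] at h4
    rw [Finsupp.single_apply]
    split_ifs at h4 ⊢ <;> push_cast at h4 <;> omega
  · rw [Finsupp.mem_support_iff, not_not] at hQ
    rw [Finsupp.sub_apply, Finsupp.add_apply, hQ, add_zero]
    rw [Finsupp.sub_apply] at h2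
    exact h2

theorem exists_exact_vec {p : ℕ} {W : Submodule k (D.Vec k p)} {E F₀ : Divisor R.K R.F}
    (hW : R.Belongs W E) (hp : (D.n₀ : ℤ) + 1 ≤ p - Divisor.degree E) (hF : 0 ≤ F₀)
    {d : ℕ} (hd : Divisor.degree F₀ = d) (hk : (d : ℕ∞) < ENat.card k) :
    ∃ u ∈ W, ∀ Q ∈ F₀.support, Exact (Finsupp.single R.O (p : ℤ) - E) Q (R.phi u) := by
  classical
  set G := Finsupp.single R.O (p : ℤ) - E
  let bad : Place R.K R.F → Submodule k W := fun Q =>
    { carrier := {u | OrdGE Q (-G Q + 1) (R.phi (u : D.Vec k p))}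
      zero_mem' := Or.inl R.phi_zero
      add_mem' := fun {u v} hu hv => by
        show OrdGE Q _ (R.phi ((u : D.Vec k p) + (v : D.Vec k p)))
        rw [R.phi_add]; exact OrdGE.add hu hv
      smul_mem' := fun r u hu => by
        show OrdGE Q _ (R.phi (r • (u : D.Vec k p)))
        rw [R.phi_smul]; exact OrdGE.smul hu _ }
  have hcard : F₀.support.card ≤ d := by
    have h1 : (F₀.support.card : ℤ) ≤ ∑ Q ∈ F₀.support, F₀ Q := by
      rw [Finset.card_eq_sum_ones, Nat.cast_sum]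
      refine Finset.sum_le_sum fun Q hQ => ?_
      have := hF Q
      have := Finsupp.mem_support_iff.1 hQ
      simp at *
      omega
    rw [← degree_eq_sum (s := F₀.support) subset_rfl, hd] at h1
    exact_mod_cast h1
  have hne : ∀ Q, bad Q ≠ ⊤ := fun Q htop => by
    obtain ⟨f, hf, hfQ⟩ := R.exists_exact_rr (G := G) (by rw [map_sub, degree_single']; omega) Q
    rw [← hW.span_eq] at hf
    refine hfQ ?_
    clear hfQ
    induction hf using Submodule.span_induction with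
    | mem y hy =>
        obtain ⟨x, hx, rfl⟩ := hy
        exact (htop ▸ Submodule.mem_top : (⟨x, hx⟩ : W) ∈ bad Q)
    | zero => exact Or.inl rfl
    | add y z _ _ hy hz => exact OrdGE.add hy hz
    | smul r y _ hy => exact OrdGE.smul hy r
  obtain ⟨u, -, hu⟩ := Set.exists_of_ssubset
    (Submodule.iUnion_ssubset_of_forall_ne_top_of_card_lt F₀.support bad hne
      (lt_of_le_of_lt (by exact_mod_cast hcard) hk))
  refine ⟨u, u.2, fun Q hQ h => hu ?_⟩
  exact Set.mem_biUnion hQ h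

include R in
/-- Good multipliers exist. -/
theorem exists_good {a b c d₁ d₂ d₃ : ℕ} (C : Conf D k a b c d₁ d₂ d₃)
    (ha : D.n₀ + d₁ + d₂ + d₃ + 1 ≤ a) (hb : D.n₀ + d₁ + d₂ + d₃ + 1 ≤ b)
    (hc : D.n₀ + d₁ + d₂ + d₃ + 1 ≤ c) (hk : (d₃ : ℕ∞) < ENat.card k) :
    ∃ u w, C.Good u w := by
  obtain ⟨E1, hE1, e1⟩ := R.exists_belongs C.hW1 (by omega)
  obtain ⟨E2, hE2, e2⟩ := R.exists_belongs C.hWc (by omega)
  obtain ⟨F0, hF0, e3⟩ := R.exists_belongs C.hA' (by omega)
  obtain ⟨X, hX, eX⟩ := R.exists_belongs C.hA2' (by omega)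
  obtain ⟨Y, hY, eY⟩ := R.exists_belongs C.hA2 (by omega)
  obtain ⟨Z, hZ, eZ⟩ := R.exists_belongs C.hB' (by omega)
  obtain ⟨T, hT, eT⟩ := R.exists_belongs C.hB2' (by omega)
  obtain ⟨O', hO', eO⟩ := R.exists_belongs (n := b) (d := 0) (W := (⊤ : Submodule k (D.Vec k b)))
    ⟨by
      rw [finrank_top, Module.finrank_pi, Fintype.card_fin]
      have h1 := R.rr (Finsupp.single R.O (b : ℤ)) (by rw [degree_single']; omega)
      rw [degree_single', ell] at h1
      have h2 : Module.finrank R.K (riemannRochSpace (Finsupp.single R.O (b : ℤ))) = D.dim b := by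
        rw [le_antisymm (R.span b (by omega)) (Submodule.span_le.2 (by
          rintro _ ⟨i, rfl⟩; exact R.mem b i)), finrank_span_eq_card (R.indep b), Fintype.card_fin]
      rw [h2] at h1
      have := D.g_le
      omega,
    ⊤, by
      rw [finrank_top, Module.finrank_pi, Fintype.card_fin]
      set n := b + (b + D.n₀)
      have h1 := R.rr (Finsupp.single R.O (n : ℤ)) (by rw [degree_single']; omega)
      rw [degree_single', ell] at h1
      have h2 : Module.finrank R.K (riemannRochSpace (Finsupp.single R.O (n : ℤ))) = D.dim n := by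
        rw [le_antisymm (R.span n (by omega)) (Submodule.span_le.2 (by
          rintro _ ⟨i, rfl⟩; exact R.mem n i)), finrank_span_eq_card (R.indep n), Fintype.card_fin]
      rw [h2] at h1
      have := D.g_le
      omega,
    fun _ _ _ => Submodule.mem_top⟩ (by omega)
  have hO0 : O' = 0 := (eq_of_le_of_degree_le hO'.nonneg (by rw [eO]; simp)).symm
  have hEY : Y = E2 + O' := R.add_of_mul (add_comm b c) (by omega) hE2 hO' hY e2 eO eY
    (by omega) (by omega) fun x hx y _ => C.mA2 x hx y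
  have hX' : X = E2 + F0 := R.add_of_mul (add_comm b c) rfl hE2 hF0 hX e2 e3 eX
    (by omega) (by omega) C.mA2'
  have hZ' : Z = E1 + F0 := R.add_of_mul rfl rfl hE1 hF0 hZ e1 e3 eZ (by omega) (by omega) C.mB'
  have hT' : T = E1 + X := R.add_of_mul (by omega) (by omega) hE1 hX hT e1 eX eT
    (by omega) (by omega) C.mB2'
  rw [hO0, add_zero] at hEY
  subst hEY hX' hZ' hT'
  obtain ⟨u, hu, huF⟩ := R.exists_exact_vec hE1 (by rw [e1]; omega) hF0.nonneg e3 hk
  obtain ⟨w, hw, hwF⟩ := R.exists_exact_vec hE2 (by rw [e2]; omega) hF0.nonneg e3 hk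
  refine ⟨u, w, hu, hw, fun x hx => ?_, fun x hx => ?_, fun x hx h => ?_⟩
  · refine R.mem_of_exact_mul (E' := 0) rfl (by rwa [zero_add]) (by rwa [add_zero])
      (hE1.mem_iff.1 hu) (by rw [sub_zero]; exact R.phi_mem x) huF hx
  · refine R.mem_of_exact_mul (E' := 0) (add_comm c b) (by rwa [zero_add]) (by rwa [add_zero])
      (hE2.mem_iff.1 hw) (by rw [sub_zero]; exact R.phi_mem x) hwF hx
  · refine R.mem_of_exact_mul (E' := Y) (by omega) hX (by rw [add_assoc E1 Y F0]; exact hT)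
      (hE1.mem_iff.1 hu) (hY.mem_iff.1 hx) huF h

end Realisation

end FLTAgent.MW
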