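import Fermat.Agent.MW.Minors
import Fermat.Agent.Specialization.Riemann

/-!
# Graded coordinates of the multiples of a point on a curve
-/

set_option autoImplicit false
set_option linter.unusedSectionVars false
set_option linter.style.haveILetI false

noncomputable section

namespace FLTAgent.MW

open AlgebraicCurve FLTAgent.Curves FLTAgent.Specialization

/-- Integral structure constants for the spaces `L(n O)`, `n ≥ 0`. -/
structure Datum where
  g : ℕ
  n₀ : ℕ
  g_le : g ≤ n₀
  dim : ℕ → ℕ
  str : ∀ a b n, Fin (dim a) → Fin (dim b) → Fin (dim n) → ℤ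

namespace Datum

variable (D : Datum) {R : Type*} [CommRing R]

/-- Coordinate vectors in degree `n`. -/
abbrev Vec (R : Type*) (n : ℕ) : Type _ := Fin (D.dim n) → R

/-- The product of coordinate vectors. -/
def mul (a b n : ℕ) : D.Vec R a →ₗ[R] D.Vec R b →ₗ[R] D.Vec R n :=
  LinearMap.mk₂ R (fun x y l => ∑ i, ∑ j, x i * y j * (D.str a b n i j l : R))
    (fun x x' y => funext fun l => by simp [add_mul, Finset.sum_add_distrib])
    (fun c x y => funext fun l => by simp [mul_assoc, Finset.mul_sum])
    (fun x y y' => funext fun l => by simp [mul_add, add_mul, Finset.sum_add_distrib])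
    (fun c x y => funext fun l => by
      simp only [Pi.smul_apply, smul_eq_mul, Finset.mul_sum]
      exact Finset.sum_congr rfl fun i _ => Finset.sum_congr rfl fun j _ => by ring)

theorem mul_apply (a b n : ℕ) (x : D.Vec R a) (y : D.Vec R b) (l : Fin (D.dim n)) :
    D.mul a b n x y l = ∑ i, ∑ j, x i * y j * (D.str a b n i j l : R) := rfl

theorem mul_map {S : Type*} [CommRing S] (φ : R →+* S) (a b n : ℕ) (x : D.Vec R a)
    (y : D.Vec R b) (l : Fin (D.dim n)) :
    φ (D.mul a b n x y l) = D.mul a b n (fun i => φ (x i)) (fun i => φ (y i)) l := by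
  simp [mul_apply]

end Datum

/-- A curve over an algebraically closed extension of `k` with these coordinates. -/
structure Realisation (D : Datum) (k : Type) [Field k] : Type 1 where
  K : Type
  F : Type
  [fieldK : Field K]
  [fieldF : Field F]
  [algKF : Algebra K F]
  [algClosed : IsAlgClosed K]
  [functionField : IsFunctionField K F]
  O : Place K F
  j : k →+* K
  b : ∀ n : ℕ, Fin (D.dim n) → F
  indep : ∀ n, LinearIndependent K (b n)
  mem : ∀ (n : ℕ) (i : Fin (D.dim n)), b n i ∈ riemannRochSpace (Finsupp.single O (n : ℤ))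
  span : ∀ n : ℕ, D.n₀ ≤ n →
    riemannRochSpace (Finsupp.single O (n : ℤ)) ≤ Submodule.span K (Set.range (b n))
  mul_b : ∀ a c n : ℕ, a + c ≤ n → ∀ (i : Fin (D.dim a)) (i' : Fin (D.dim c)),
    b a i * b c i' = ∑ l, algebraMap K F (j (D.str a c n i i' l)) * b n l
  rr : ∀ G : Divisor K F, (D.n₀ : ℤ) ≤ Divisor.degree G →
    ell G = Divisor.degree G + 1 - D.g

attribute [instance] Realisation.fieldK Realisation.fieldF Realisation.algKF Realisation.algClosed
  Realisation.functionField

variable {D : Datum} {k : Type} [Field k]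

namespace Realisation

variable (R : Realisation D k)

/-- The function with given coordinates. -/
def phi {n : ℕ} (x : D.Vec k n) : R.F := ∑ i, R.j (x i) • R.b n i

theorem phi_add {n : ℕ} (x y : D.Vec k n) : R.phi (x + y) = R.phi x + R.phi y := by
  simp [phi, add_smul, Finset.sum_add_distrib]

theorem phi_smul {n : ℕ} (c : k) (x : D.Vec k n) : R.phi (c • x) = R.j c • R.phi x := by
  simp [phi, Finset.smul_sum, smul_smul]

theorem phi_zero {n : ℕ} : R.phi (0 : D.Vec k n) = 0 := by simp [phi]

theorem phi_mem {n : ℕ} (x : D.Vec k n) :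
    R.phi x ∈ riemannRochSpace (Finsupp.single R.O (n : ℤ)) :=
  Submodule.sum_mem _ fun i _ => Submodule.smul_mem _ _ (R.mem n i)

theorem phi_mul {a c n : ℕ} (h : a + c ≤ n) (x : D.Vec k a) (y : D.Vec k c) :
    R.phi (D.mul a c n x y) = R.phi x * R.phi y := by
  simp only [Realisation.phi, Algebra.smul_def, Datum.mul_apply, map_sum, map_mul, Finset.sum_mul,
    Finset.mul_sum]
  conv_lhs => rw [Finset.sum_comm]; arg 2; intro i; rw [Finset.sum_comm]
  conv_rhs => rw [Finset.sum_comm]
  refine Finset.sum_congr rfl fun i _ => Finset.sum_congr rfl fun i' _ => ?_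
  rw [mul_mul_mul_comm, R.mul_b a c n h i i', Finset.mul_sum]
  exact Finset.sum_congr rfl fun l _ => by ring

/-- Independent coordinate vectors give independent functions. -/
theorem linearIndependent_phi {n : ℕ} {r : Type*} [Fintype r] {B : r → D.Vec k n}
    (h : LinearIndependent k B) : LinearIndependent R.K fun i => R.phi (B i) := by
  classical
  exact (linearIndependent_map R.j h).map' (Fintype.linearCombination R.K (R.b n))
    (LinearMap.ker_eq_bot.2
      (linearIndependent_iff_injective_fintypeLinearCombination.1 (R.indep n)))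

theorem phi_injective {n : ℕ} : Function.Injective (R.phi : D.Vec k n → R.F) := by
  intro x y h
  have h1 := linearIndependent_iff_injective_fintypeLinearCombination.1 (R.indep n)
    (a₁ := fun i => R.j (x i)) (a₂ := fun i => R.j (y i)) h
  exact funext fun i => R.j.injective (congrFun h1 i)

include R in
theorem mul_left_comm {a a' c p q n : ℕ} (h1 : a + c ≤ p) (h2 : a' + p ≤ n) (h3 : a' + c ≤ q)
    (h4 : a + q ≤ n) (u : D.Vec k a) (w : D.Vec k a') (x : D.Vec k c) :
    D.mul a' p n w (D.mul a c p u x) = D.mul a q n u (D.mul a' c q w x) :=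
  R.phi_injective (by
    rw [R.phi_mul h2, R.phi_mul h1, R.phi_mul h4, R.phi_mul h3, _root_.mul_left_comm])

/-- The span of the functions of a subspace. -/
def funSpan {n : ℕ} (W : Submodule k (D.Vec k n)) : Submodule R.K R.F :=
  Submodule.span R.K (R.phi '' (W : Set (D.Vec k n)))

theorem funSpan_eq_range {n : ℕ} (W : Submodule k (D.Vec k n)) :
    R.funSpan W = Submodule.span R.K
      (Set.range fun i => R.phi ((Module.finBasis k W i : W) : D.Vec k n)) := by
  refine le_antisymm (Submodule.span_le.2 ?_) (Submodule.span_mono ?_)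
  · rintro _ ⟨x, hx, rfl⟩
    have h := (Module.finBasis k W).sum_repr ⟨x, hx⟩
    have h' := congrArg (fun w : W => R.phi (w : D.Vec k n)) h
    simp only [Submodule.coe_sum, Submodule.coe_smul] at h'
    rw [← h']
    have hsum : ∀ f : Fin (Module.finrank k W) → D.Vec k n, R.phi (∑ i, f i) = ∑ i, R.phi (f i) :=
      fun f => map_sum (AddMonoidHom.mk' (R.phi (n := n)) R.phi_add) f _
    rw [hsum]
    exact Submodule.sum_mem _ fun i _ => by
      rw [R.phi_smul]; exact Submodule.smul_mem _ _ (Submodule.subset_span ⟨i, rfl⟩)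
  · rintro _ ⟨i, rfl⟩
    exact ⟨_, (Module.finBasis k W i).2, rfl⟩

theorem finrank_funSpan {n : ℕ} (W : Submodule k (D.Vec k n)) :
    Module.finrank R.K (R.funSpan W) = Module.finrank k W := by
  rw [funSpan_eq_range, finrank_span_eq_card (R.linearIndependent_phi
    (B := fun i => ((Module.finBasis k W i : W) : D.Vec k n))
      (((Module.finBasis k W).linearIndependent).map' W.subtype W.ker_subtype)), Fintype.card_fin]

theorem finiteDimensional_funSpan {n : ℕ} (W : Submodule k (D.Vec k n)) :
    FiniteDimensional R.K (R.funSpan W) := by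
  rw [funSpan_eq_range]; exact FiniteDimensional.span_of_finite _ (Set.finite_range _)

theorem mem_of_phi_mem {n : ℕ} (W : Submodule k (D.Vec k n)) {x : D.Vec k n}
    (h : R.phi x ∈ R.funSpan W) : x ∈ W := by
  by_contra hx
  set W₁ := W ⊔ Submodule.span k {x}
  have h1 : W < W₁ := lt_of_le_of_ne le_sup_left fun e => hx (e ▸ Submodule.mem_sup_right
    (Submodule.mem_span_singleton_self x))
  have h2 : R.funSpan W₁ ≤ R.funSpan W := by
    refine Submodule.span_le.2 ?_
    rintro _ ⟨y, hy, rfl⟩
    obtain ⟨w, hw, z, hz, rfl⟩ := Submodule.mem_sup.1 hy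
    obtain ⟨c, rfl⟩ := Submodule.mem_span_singleton.1 hz
    rw [R.phi_add, R.phi_smul]
    exact add_mem (Submodule.subset_span ⟨w, hw, rfl⟩) (Submodule.smul_mem _ _ h)
  haveI := R.finiteDimensional_funSpan W
  have h3 := Submodule.finrank_mono h2
  rw [R.finrank_funSpan, R.finrank_funSpan] at h3
  exact absurd (Submodule.finrank_lt_finrank_of_lt h1) (not_lt.2 h3)

end Realisation

variable (D) in
/-- A subspace of the size and behaviour of `L(n O - E)`, `deg E = d`. -/
def IsSec (n d : ℕ) (W : Submodule k (D.Vec k n)) : Prop :=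
  Module.finrank k W + d + D.g = n + 1 ∧
    ∃ W' : Submodule k (D.Vec k (n + (n + D.n₀))),
      Module.finrank k W' + d + D.g = n + (n + D.n₀) + 1 ∧
        ∀ x ∈ W, ∀ y : D.Vec k (n + D.n₀), D.mul n (n + D.n₀) (n + (n + D.n₀)) x y ∈ W'

namespace Realisation

variable (R : Realisation D k)

/-- The divisor `E` belongs to the subspace `W`. -/
structure Belongs {n : ℕ} (W : Submodule k (D.Vec k n)) (E : Divisor R.K R.F) : Prop where
  nonneg : 0 ≤ E
  span_eq : R.funSpan W = riemannRochSpace (Finsupp.single R.O (n : ℤ) - E)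

theorem Belongs.mem_iff {n : ℕ} {W : Submodule k (D.Vec k n)} {E : Divisor R.K R.F}
    (h : R.Belongs W E) {x : D.Vec k n} :
    x ∈ W ↔ R.phi x ∈ riemannRochSpace (Finsupp.single R.O (n : ℤ) - E) := by
  rw [← h.span_eq]
  exact ⟨fun hx => Submodule.subset_span ⟨x, hx, rfl⟩, R.mem_of_phi_mem W⟩

theorem exists_exact_rr {G : Divisor R.K R.F} (h : (D.n₀ : ℤ) + 1 ≤ Divisor.degree G)
    (Q : Place R.K R.F) : ∃ f ∈ riemannRochSpace G, Exact G Q f := by
  by_contra! hn
  have hle : riemannRochSpace G ≤ riemannRochSpace (G - Finsupp.single Q 1) := fun f hf =>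
    mem_rrSpace.2 fun v => by
      classical
      rw [Finsupp.sub_apply, Finsupp.single_apply]
      split_ifs with hv
      · subst hv
        exact (not_not.1 (hn f hf)).mono (by omega)
      · simpa using mem_rrSpace.1 hf v
  have h1 : ell G ≤ ell (G - Finsupp.single Q 1) := Nat.cast_le.2 (Submodule.finrank_mono hle)
  rw [R.rr _ (by omega), R.rr _ (by rw [map_sub, degree_single']; omega), map_sub,
    degree_single'] at h1
  omega

set_option maxHeartbeats 800000 in
/-- The subspaces of this kind come from divisors. -/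
theorem exists_belongs {n d : ℕ} {W : Submodule k (D.Vec k n)} (hW : IsSec D n d W)
    (hn : D.n₀ + d + 1 ≤ n) :
    ∃ E : Divisor R.K R.F, R.Belongs W E ∧ Divisor.degree E = d := by
  classical
  obtain ⟨hdim, hW'⟩ := hW
  have hg := D.g_le
  obtain ⟨n', hn', W', hdim', hmul⟩ : ∃ n', n + D.n₀ = n' ∧
      ∃ W' : Submodule k (D.Vec k (n + n')), Module.finrank k W' + d + D.g = n + n' + 1 ∧
        ∀ x ∈ W, ∀ y : D.Vec k n', D.mul n n' (n + n') x y ∈ W' := ⟨_, rfl, hW'⟩
  set G : Divisor R.K R.F := Finsupp.single R.O (n : ℤ) with hG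
  set V := R.funSpan W with hV
  haveI := R.finiteDimensional_funSpan W
  have hVG : V ≤ riemannRochSpace G := Submodule.span_le.2 (by
    rintro _ ⟨x, -, rfl⟩; exact R.phi_mem x)
  set B : Fin (Module.finrank k W) → D.Vec k n := fun i => (Module.finBasis k W i : W)
  set v : Fin (Module.finrank k W) → R.F := fun i => R.phi (B i) with hv
  have hli : LinearIndependent R.K v := R.linearIndependent_phi
    (((Module.finBasis k W).linearIndependent).map' W.subtype W.ker_subtype)
  have hpos : 0 < Module.finrank k W := by omega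
  let i₀ : Fin (Module.finrank k W) := ⟨0, hpos⟩
  have hv0 : ∀ i, v i ≠ 0 := fun i => hli.ne_zero i
  have hne : (Finset.univ : Finset (Fin (Module.finrank k W))).Nonempty := ⟨i₀, Finset.mem_univ _⟩
  set e : Place R.K R.F → ℤ := fun Q => Finset.univ.inf' hne fun i => Q.ord (v i) + G Q
  have he0 : ∀ Q, 0 ≤ e Q := fun Q => (Finset.le_inf'_iff _ _).2 fun i _ => by
    have := (mem_rrSpace.1 (hVG (Submodule.subset_span ⟨B i, (Module.finBasis k W i).2, rfl⟩)) Q)
      |>.le_ord (hv0 i)
    show 0 ≤ Q.ord (R.phi (B i)) + G Q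
    omega
  have hfin : (Function.support e).Finite := by
    refine ((divOf R.K (v i₀)).support ∪ G.support).finite_toSet.subset fun Q hQ => ?_
    by_contra hmem
    simp only [Finset.coe_union, Set.mem_union, Finset.mem_coe, Finsupp.mem_support_iff, not_or,
      not_not, divOf_apply] at hmem
    have h1 : e Q ≤ Q.ord (v i₀) + G Q := Finset.inf'_le _ (Finset.mem_univ i₀)
    exact hQ (le_antisymm (by omega) (he0 Q))
  set E : Divisor R.K R.F := Finsupp.ofSupportFinite e hfin
  have hE : ∀ Q, E Q = e Q := fun Q => rfl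
  have hVE : V ≤ riemannRochSpace (G - E) := by
    rw [hV, funSpan_eq_range]
    refine Submodule.span_le.2 ?_
    rintro _ ⟨i, rfl⟩
    refine mem_rrSpace.2 fun Q => ordGE_of_le ?_
    have h1 : e Q ≤ Q.ord (v i) + G Q := Finset.inf'_le _ (Finset.mem_univ i)
    rw [Finsupp.sub_apply, hE]
    show -(G Q - e Q) ≤ Q.ord (v i)
    omega
  have hvV : ∀ i, v i ∈ V := fun i => Submodule.subset_span ⟨B i, (Module.finBasis k W i).2, rfl⟩
  have hex : ∀ Q, ∃ f ∈ V, Exact (G - E) Q f := fun Q => by
    obtain ⟨i, -, hi⟩ := Finset.exists_mem_eq_inf' hne fun i => Q.ord (v i) + G Q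
    refine ⟨v i, hvV i, (exact_iff (hVE (hvV i))).2 ⟨hv0 i, ?_⟩⟩
    rw [Finsupp.sub_apply, hE, show e Q = Q.ord (v i) + G Q from hi]
    omega
  obtain ⟨g₂, hg₂, hg₂0, hg₂s⟩ := exists_exact_finset (G := G - E) ⟨(v i₀), hvV i₀, hv0 i₀⟩
    (s := (divOf R.K (v i₀) + (G - E)).support) fun Q _ => hex Q
  have hall : ∀ Q, Exact (G - E) Q (v i₀) ∨ Exact (G - E) Q g₂ := fun Q => by
    by_cases hQ : Q ∈ (divOf R.K (v i₀) + (G - E)).support
    · exact Or.inr (hg₂s Q hQ)
    · rw [Finsupp.mem_support_iff, not_not, Finsupp.add_apply, divOf_apply] at hQ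
      exact Or.inl ((exact_iff (hVE (hvV i₀))).2 ⟨hv0 i₀, by omega⟩)
  set H : Divisor R.K R.F := Finsupp.single R.O (n' : ℤ)
  have hp := pencil (H := H) (hv0 i₀) hg₂0 hall (hVE (hvV i₀)) (hVE hg₂)
  haveI := R.finiteDimensional_funSpan W'
  have hprod : ∀ f ∈ V, (riemannRochSpace H).map (LinearMap.mulLeft R.K f) ≤ R.funSpan W' := by
    intro f hf
    refine Submodule.map_le_iff_le_comap.2 ((R.span n' (by omega)).trans (Submodule.span_le.2 ?_))
    rintro _ ⟨i, rfl⟩
    show f * R.b n' i ∈ R.funSpan W'
    induction hf using Submodule.span_induction with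
    | mem y hy =>
        obtain ⟨x, hx, rfl⟩ := hy
        have hb : R.phi (Pi.single i (1 : k) : D.Vec k n') = R.b n' i := by
          simp [Realisation.phi, Pi.single_apply, apply_ite R.j, ite_smul]
        rw [← hb, ← R.phi_mul (le_refl (n + n')) x]
        exact Submodule.subset_span ⟨_, hmul x hx _, rfl⟩
    | zero => rw [zero_mul]; exact Submodule.zero_mem _
    | add y z _ _ hy hz => rw [add_mul]; exact add_mem hy hz
    | smul c y _ hy => rw [smul_mul_assoc]; exact Submodule.smul_mem _ _ hy
  have hsup : (Module.finrank R.K ↥((riemannRochSpace H).map (LinearMap.mulLeft R.K (v i₀)) ⊔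
      (riemannRochSpace H).map (LinearMap.mulLeft R.K g₂)) : ℤ) ≤ Module.finrank k W' := by
    rw [← R.finrank_funSpan W']
    exact Nat.cast_le.2 (Submodule.finrank_mono (sup_le (hprod _ (hvV i₀)) (hprod _ hg₂)))
  have hdE : 0 ≤ Divisor.degree E := degree_nonneg fun Q => by rw [hE]; exact he0 Q
  have hdG : Divisor.degree G = n := degree_single' _ _
  have hdH : Divisor.degree H = n' := degree_single' _ _
  rw [R.rr H (by omega), R.rr (H - (G - E)) (by rw [map_sub, map_sub]; omega), map_sub, map_sub,
    hdG, hdH] at hp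
  have hge : (d : ℤ) ≤ Divisor.degree E := by omega
  have hfr : (Module.finrank k W : ℤ) ≤ ell (G - E) := by
    rw [← R.finrank_funSpan W]
    exact Nat.cast_le.2 (Submodule.finrank_mono hVE)
  have hle : Divisor.degree E ≤ d := by
    by_cases hbig : (D.n₀ : ℤ) ≤ Divisor.degree (G - E)
    · rw [R.rr _ hbig, map_sub, hdG] at hfr
      omega
    · set t : ℤ := (D.n₀ : ℤ) - Divisor.degree (G - E)
      have h1 : ell (G - E) ≤ ell (G - E + Finsupp.single R.O t) := ell_mono fun Q => by
        have : 0 ≤ (Finsupp.single R.O t : Divisor R.K R.F) Q := by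
          rw [Finsupp.single_apply]; split_ifs <;> omega
        rw [Finsupp.add_apply]; omega
      rw [R.rr (G - E + Finsupp.single R.O t) (by rw [map_add, degree_single']; omega), map_add,
        degree_single'] at h1
      omega
  refine ⟨E, ⟨fun Q => by rw [hE]; exact he0 Q, Submodule.eq_of_le_of_finrank_le hVE ?_⟩,
    le_antisymm hle hge⟩
  show Module.finrank R.K (riemannRochSpace (G - E)) ≤ Module.finrank R.K V
  rw [R.finrank_funSpan W]
  have h1 : ell (G - E) = (n : ℤ) - d + 1 - D.g := by
    rw [R.rr _ (by rw [map_sub, hdG]; omega), map_sub, hdG]; omega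
  rw [ell] at h1
  omega

end Realisation

end FLTAgent.MW
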