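import Fermat.Agent.MW.Quadratic

/-!
# Lower bound, finiteness and descent
-/

set_option autoImplicit false
set_option linter.unusedSectionVars false
set_option linter.style.haveILetI false

noncomputable section

namespace FLTAgent.MW

namespace Sys

variable {D : Datum} (I : Input D) {G : Type} [AddCommGroup G] (S : Sys D G)

/-- The sections moved up one degree. -/
def up (n : ℕ) (E : S.M) : Submodule ℚ (D.Vec ℚ (n + 1)) :=
  (S.sec n E).map (D.mul 0 n (n + 1) S.one)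

theorem ev_up {n : ℕ} {E : S.M} {x : D.Vec ℚ (n + 1)} (hx : x ∈ S.up n E) :
    ∑ l, (S.ev (S.mult E) (n + 1) l : ℚ) * x l = 0 := by
  obtain ⟨y, hy, rfl⟩ := Submodule.mem_map.1 hx
  exact S.ev_shift n E y hy

theorem sec_eq_up {n : ℕ} {E : S.M}
    (h : ∀ x ∈ S.sec (n + 1) E, ∑ l, (S.ev (S.mult E) (n + 1) l : ℚ) * x l = 0) :
    S.sec (n + 1) E = S.up n E :=
  le_antisymm (fun x hx => S.ev_zero n E x hx (h x hx)) (S.shift_mem n E)

theorem sec_eq_sup {n : ℕ} {E : S.M} {x : D.Vec ℚ (n + 1)} (hx : x ∈ S.sec (n + 1) E)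
    (hev : ∑ l, (S.ev (S.mult E) (n + 1) l : ℚ) * x l ≠ 0) :
    S.sec (n + 1) E = S.up n E ⊔ Submodule.span ℚ {x} := by
  refine le_antisymm (fun y hy => ?_)
    (sup_le (S.shift_mem n E) (Submodule.span_le.2 (by simpa using hx)))
  set t := (∑ l, (S.ev (S.mult E) (n + 1) l : ℚ) * y l) / ∑ l, (S.ev (S.mult E) (n + 1) l : ℚ) * x l
  have h1 : y - t • x ∈ S.up n E := by
    refine S.ev_zero n E _ (sub_mem hy (Submodule.smul_mem _ _ hx)) ?_
    simp only [Pi.sub_apply, Pi.smul_apply, smul_eq_mul, mul_sub, Finset.sum_sub_distrib]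
    rw [sub_eq_zero]
    simp only [mul_left_comm _ t, ← Finset.mul_sum]
    rw [div_mul_cancel₀ _ hev]
  rw [← sub_add_cancel y (t • x)]
  exact Submodule.add_mem_sup h1 (Submodule.smul_mem _ _ (Submodule.mem_span_singleton_self x))

include I

theorem mul_injective {a b n : ℕ} (h : a + b ≤ n) {φ : D.Vec ℚ a} (hφ : φ ≠ 0) :
    Function.Injective (D.mul a b n φ) := by
  rw [← LinearMap.ker_eq_bot]
  refine LinearMap.ker_eq_bot'.2 fun x hx => ?_
  have h1 := I.rat.phi_mul h φ x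
  rw [hx, I.rat.phi_zero] at h1
  rcases mul_eq_zero.1 h1.symm with h2 | h2
  · exact absurd (I.rat.phi_injective (h2.trans I.rat.phi_zero.symm)) hφ
  · exact I.rat.phi_injective (h2.trans I.rat.phi_zero.symm)

theorem finrank_up (n : ℕ) (E : S.M) :
    Module.finrank ℚ (S.up n E) = Module.finrank ℚ (S.sec n E) :=
  (Submodule.equivMapOfInjective _ (mul_injective I (by omega) S.one_ne) _).finrank_eq.symm

theorem exists_up (n : ℕ) : ∃ C, ∀ E : S.M, |hW (S.up n E) - S.h n E| ≤ C := by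
  obtain ⟨C, hC⟩ := exists_bound_le (D.dim n)
    (fun r (E : S.M) => Module.finrank ℚ (S.sec n E) = r)
    (fun E => |hW (S.up n E) - S.h n E|) fun r _ => by
      obtain ⟨C, hC⟩ := exists_scale I (a := 0) (b := n) (n := n + 1) (by omega) r
      refine ⟨C + |(r : ℝ) * hgt S.one|, fun E hE => ?_⟩
      have h1 := abs_le.1 (hC S.one S.one_ne (S.sec n E) hE)
      have h3 := neg_abs_le ((r : ℝ) * hgt S.one)
      have h4 := le_abs_self ((r : ℝ) * hgt S.one)
      unfold up h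
      rw [abs_le]
      constructor <;> linarith [h1.1, h1.2]
  exact ⟨C, fun E => hC _ (by simpa using Submodule.finrank_le (S.sec n E)) E rfl⟩

theorem exists_H_big : ∃ C, ∀ E : S.M, S.deg E ≤ 3 * D.g →
    |(S.h (L D + L D + L D) E - S.h (L D + L D + L D - 1) E) - S.H E| ≤ C := by
  obtain ⟨C, hC⟩ := exists_delta_raw I S
  obtain ⟨C', hC'⟩ := exists_bound_le (3 * D.g) (fun i (E : S.M) => S.deg E = i)
    (fun E => |S.h (T D) (E + S.O) - S.h (T D - 1) E| +
      |S.h (L D + L D + L D) (E + S.O) - S.h (L D + L D + L D - 1) E|) fun i hi => by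
      obtain ⟨C₁, h₁⟩ := exists_shift I S (T D - 1) i (by unfold T L; omega)
      obtain ⟨C₂, h₂⟩ := exists_shift I S (L D + L D + L D - 1) i (by unfold L; omega)
      rw [show T D - 1 + 1 = T D by unfold T L; omega] at h₁
      rw [show L D + L D + L D - 1 + 1 = L D + L D + L D by unfold L; omega] at h₂
      exact ⟨C₁ + C₂, fun E hE => add_le_add (h₁ E hE) (h₂ E hE)⟩
  refine ⟨C + C' + |S.h (T D) S.O - S.h (T D) 0 - (S.h (L D) S.O - S.h (L D) 0)|, fun E hE => ?_⟩
  have h1 := hC 0 E S.O (by rw [map_zero, S.deg_O]; omega)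
  rw [zero_add, zero_add] at h1
  have h2 := hC' _ hE E rfl
  have h3 := neg_abs_le (S.h (T D) (E + S.O) - S.h (T D - 1) E)
  have h4 := le_abs_self (S.h (T D) (E + S.O) - S.h (T D - 1) E)
  have h5 := neg_abs_le (S.h (L D + L D + L D) (E + S.O) - S.h (L D + L D + L D - 1) E)
  have h6 := le_abs_self (S.h (L D + L D + L D) (E + S.O) - S.h (L D + L D + L D - 1) E)
  have h7 := neg_abs_le (S.h (T D) S.O - S.h (T D) 0 - (S.h (L D) S.O - S.h (L D) 0))
  have h8 := le_abs_self (S.h (T D) S.O - S.h (T D) 0 - (S.h (L D) S.O - S.h (L D) 0))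
  unfold H
  rw [abs_le] at h1 ⊢
  constructor <;> linarith [h1.1, h1.2]

theorem exists_H_lower : ∃ C, ∀ E : S.M, S.deg E ≤ D.g → -C ≤ S.H E := by
  obtain ⟨n, hn⟩ : ∃ n, T D = n + 1 := ⟨T D - 1, by unfold T L; omega⟩
  obtain ⟨C₁, h₁⟩ := exists_up I S n
  obtain ⟨C₂, h₂⟩ := exists_bound_le D.g (fun j (E : S.M) => S.mult E = j)
    (fun E => hW (S.up n E) - S.h (n + 1) E) fun j _ => by
    obtain ⟨C, hC⟩ := exists_bound_le (D.dim (n + 1))
      (fun r (E : S.M) => S.mult E = j ∧ Module.finrank ℚ (S.up n E) = r)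
      (fun E => hW (S.up n E) - S.h (n + 1) E) fun r _ => by
        obtain ⟨C, hC⟩ := exists_lower r (S.ev j (n + 1))
        refine ⟨max C 0, fun E hE => ?_⟩
        obtain ⟨rfl, hE⟩ := hE
        unfold h
        by_cases hz : ∀ x ∈ S.sec (n + 1) E, ∑ l, (S.ev (S.mult E) (n + 1) l : ℚ) * x l = 0
        · rw [S.sec_eq_up hz, sub_self]; exact le_max_right _ _
        · push Not at hz
          obtain ⟨x, hx, hev⟩ := hz
          have h1 := hC (S.up n E) x hE (fun w hw => S.ev_up hw) hev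
          rw [← S.sec_eq_sup hx hev] at h1
          have := le_max_left C 0
          linarith
    exact ⟨C, fun E hE => hC _ (by simpa using Submodule.finrank_le (S.up n E)) E ⟨hE, rfl⟩⟩
  refine ⟨C₁ + C₂, fun E hE => ?_⟩
  have a := abs_le.1 (h₁ E)
  have b := h₂ _ ((S.mult_le E).trans hE) E rfl
  unfold H
  rw [hn, show n + 1 - 1 = n by omega]
  linarith [a.1, a.2]

/-- Jumps in low degree are at least the variation. -/
theorem exists_jump_lower (n : ℕ) (hn : n + 1 ≤ T D) : ∃ C, ∀ E : S.M, S.deg E ≤ 3 * D.g →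
    ∀ x ∈ S.sec (n + 1) E, ∑ l, (S.ev (S.mult E) (n + 1) l : ℚ) * x l ≠ 0 →
      S.h n E + S.H E - C ≤ S.h (n + 1) E := by
  obtain ⟨N, hN⟩ : ∃ N, L D + L D + L D = N + 1 := ⟨L D + L D + L D - 1, by unfold L; omega⟩
  obtain ⟨a, ha⟩ : ∃ a, a + (n + 1) = N + 1 :=
    ⟨N + 1 - (n + 1), by unfold T at hn; omega⟩
  obtain ⟨s, hs⟩ := S.ev_lead a (by unfold T L at hn; unfold L at hN; omega)
  obtain ⟨C₀, h₀⟩ := exists_H_big I S
  obtain ⟨C₁, h₁⟩ := exists_up I S n
  obtain ⟨C₂, h₂⟩ := exists_up I S N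
  obtain ⟨C₃, h₃⟩ := exists_bound_le (D.dim (n + 1) + D.dim (N + 1))
    (fun i (q : S.M × D.Vec ℚ (n + 1)) =>
      q.2 ∈ S.sec (n + 1) q.1 ∧ ∑ l, (S.ev (S.mult q.1) (n + 1) l : ℚ) * q.2 l ≠ 0 ∧
        Module.finrank ℚ (S.up n q.1) + Module.finrank ℚ (S.up N q.1) = i)
    (fun q => (S.h (N + 1) q.1 - hW (S.up N q.1)) - (S.h (n + 1) q.1 - hW (S.up n q.1)))
    fun i _ => by
      choose C hC using fun r : ℕ × ℕ => exists_jump (n + 1) (N + 1) r.1 r.2 s
      refine ⟨∑ r ∈ Finset.range (i + 1) ×ˢ Finset.range (i + 1), |C r|, fun q hq => ?_⟩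
      obtain ⟨hx, hev, hi⟩ := hq
      have hmul : ∀ y ∈ S.sec (n + 1) q.1, D.mul a (n + 1) (N + 1) s y ∈ S.sec (N + 1) q.1 :=
        fun y hy => by
          have h := S.sec_mul a (n + 1) (N + 1) 0 q.1 ha s (by rw [S.sec_zero]; trivial) y hy
          rwa [zero_add] at h
      have hsx : ∑ l, (S.ev (S.mult q.1) (N + 1) l : ℚ) * D.mul a (n + 1) (N + 1) s q.2 l ≠ 0 := by
        rw [S.ev_mul _ _ _ ha _ _ _ hx]; exact mul_ne_zero hs hev
      have h := hC (Module.finrank ℚ (S.up n q.1), Module.finrank ℚ (S.up N q.1))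
        (S.up n q.1) (S.up N q.1) q.2 rfl rfl (fun h => hev (S.ev_up h)) (fun h => hsx (S.ev_up h))
        fun w hw => S.ev_zero N q.1 _ (hmul w (S.shift_mem n q.1 hw)) (by
          rw [S.ev_mul _ _ _ ha _ _ _ (S.shift_mem n q.1 hw), S.ev_up hw, mul_zero])
      rw [← S.sec_eq_sup hx hev, ← S.sec_eq_sup (hmul _ hx) hsx] at h
      have hle : C (Module.finrank ℚ (S.up n q.1), Module.finrank ℚ (S.up N q.1)) ≤
          ∑ r ∈ Finset.range (i + 1) ×ˢ Finset.range (i + 1), |C r| :=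
        (le_abs_self _).trans (Finset.single_le_sum (f := fun r => |C r|) (fun _ _ => abs_nonneg _)
          (Finset.mem_product.2 ⟨Finset.mem_range.2 (by omega), Finset.mem_range.2 (by omega)⟩))
      unfold Sys.h
      linarith
  refine ⟨C₀ + C₁ + C₂ + C₃, fun E hE x hx hev => ?_⟩
  have a0 := abs_le.1 (h₀ E hE)
  rw [hN, show N + 1 - 1 = N by omega] at a0
  have a1 := abs_le.1 (h₁ E)
  have a2 := abs_le.1 (h₂ E)
  have a3 := h₃ _ (add_le_add (by simpa using Submodule.finrank_le (S.up n E))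
    (by simpa using Submodule.finrank_le (S.up N E))) (E, x) ⟨hx, hev, rfl⟩
  simp only at a3
  linarith [a0.1, a0.2, a1.1, a1.2, a2.1, a2.2]

/-- Climbing from the first section. -/
theorem exists_climb (m : ℕ) : ∀ j : ℕ, m + j ≤ T D → ∃ C, ∀ (E : S.M) (φ : D.Vec ℚ m),
    S.deg E ≤ 3 * D.g → φ ≠ 0 → S.sec m E = Submodule.span ℚ {φ} →
      hgt φ + ((Module.finrank ℚ (S.sec (m + j) E) : ℝ) - 1) * S.H E - C ≤ S.h (m + j) E := by
  intro j
  induction j with
  | zero =>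
      refine fun _ => ⟨0, fun E φ _ hφ hs => ?_⟩
      show hgt φ + ((Module.finrank ℚ (S.sec m E) : ℝ) - 1) * S.H E - 0 ≤ hW (S.sec m E)
      rw [hs, finrank_span_singleton hφ, hW_span_singleton hφ]
      simp
  | succ j ih =>
      intro hle
      obtain ⟨C, hC⟩ := ih (by omega)
      obtain ⟨C₁, h₁⟩ := exists_up I S (m + j)
      obtain ⟨C₂, h₂⟩ := exists_jump_lower I S (m + j) (by omega)
      refine ⟨C + |C₁| + |C₂|, fun E φ hd hφ hs => ?_⟩
      have a := hC E φ hd hφ hs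
      have b := abs_le.1 (h₁ E)
      have c1 := le_abs_self C₁
      have c2 := le_abs_self C₂
      have c3 := abs_nonneg C₁
      have c4 := abs_nonneg C₂
      rw [show m + (j + 1) = m + j + 1 by omega]
      by_cases hz : ∀ x ∈ S.sec (m + j + 1) E, ∑ l, (S.ev (S.mult E) (m + j + 1) l : ℚ) * x l = 0
      · rw [h, S.sec_eq_up hz, finrank_up I S]
        linarith [b.1, b.2]
      · push Not at hz
        obtain ⟨x, hx, hev⟩ := hz
        have d := h₂ E hd x hx hev
        have hr : Module.finrank ℚ (S.sec (m + j + 1) E) =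
            Module.finrank ℚ (S.sec (m + j) E) + 1 := by
          obtain ⟨o, ho, hso⟩ := exists_basis_frame (W := S.up (m + j) E) rfl
          rw [S.sec_eq_sup hx hev, ← sup_span_singleton hso x,
            finrank_span_eq_card (li_of_notMem ho hso fun h => hev (S.ev_up h)), Fintype.card_sum,
            Fintype.card_fin, finrank_up I S, Fintype.card_unit]
        rw [hr, Nat.cast_add, Nat.cast_one]
        linarith

theorem exists_P_lower : ∃ C, ∀ c : G, ∃ E' : S.M, S.deg E' ≤ D.g ∧ S.cls E' = -c ∧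
    S.H E' - C ≤ S.P c := by
  obtain ⟨C₀, h₀⟩ := exists_H_add I S
  have hT : 2 * D.g + D.n₀ + 2 ≤ T D := by unfold T L; omega
  obtain ⟨C, hC⟩ := exists_bound_le (2 * D.g)
    (fun m (q : Σ m, S.M × S.M × D.Vec ℚ m) => q.1 = m ∧ q.2.2.2 ≠ 0 ∧ S.deg q.2.1 = D.g ∧
      S.deg q.2.1 + S.deg q.2.2.1 = q.1 ∧ S.sec q.1 q.2.1 = Submodule.span ℚ {q.2.2.2} ∧
      ∀ n : ℕ, D.n₀ + q.1 + 1 ≤ q.1 + n → S.sec (q.1 + n) (q.2.1 + q.2.2.1) =
        (⊤ : Submodule ℚ (D.Vec ℚ n)).map (D.mul q.1 n (q.1 + n) q.2.2.2))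
    (fun q => S.H q.2.2.1 - S.Inv q.2.1) fun m hm => by
      obtain ⟨j, hj⟩ : ∃ j, m + j = T D := ⟨T D - m, by omega⟩
      obtain ⟨j', hj'⟩ : ∃ j', m + j' = T D - 1 := ⟨T D - 1 - m, by omega⟩
      obtain ⟨C₁, h₁⟩ := exists_climb I S m j hj.le
      obtain ⟨C₂, h₂⟩ := exists_scale I (a := m) (b := j) (n := m + j) le_rfl (D.dim j)
      obtain ⟨C₃, h₃⟩ := exists_scale I (a := m) (b := j') (n := m + j') le_rfl (D.dim j')
      refine ⟨C₀ + C₁ + C₂ + C₃ + |hW (⊤ : Submodule ℚ (D.Vec ℚ j)) -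
        hW (⊤ : Submodule ℚ (D.Vec ℚ j'))| + |S.H 0|, fun q hq => ?_⟩
      obtain ⟨m', E, E', φ⟩ := q
      obtain ⟨hm', hφ, hdE, hdeg, hsec, hprod⟩ := hq
      simp only at hm' hφ hdE hdeg hsec hprod ⊢
      subst hm'
      have a1 := h₁ E φ (by omega) hφ hsec
      rw [hj, (S.isSec (T D) E (by omega)).finrank_eq] at a1
      have a2 := abs_le.1 (h₂ φ hφ ⊤ (by rw [finrank_top, Module.finrank_pi, Fintype.card_fin]))
      have a3 := abs_le.1 (h₃ φ hφ ⊤ (by rw [finrank_top, Module.finrank_pi, Fintype.card_fin]))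
      rw [← hprod j (by omega)] at a2
      rw [← hprod j' (by omega)] at a3
      have e2 : S.h (T D) (E + E') = hW (S.sec (m' + j) (E + E')) := by unfold h; rw [hj]
      have e3 : S.h (T D - 1) (E + E') = hW (S.sec (m' + j') (E + E')) := by unfold h; rw [hj']
      have hdim : (D.dim j : ℝ) = (D.dim j' : ℝ) + 1 := by
        have h1 := I.dim_eq j (by omega)
        have h2 := I.dim_eq j' (by omega)
        exact_mod_cast (show D.dim j = D.dim j' + 1 by omega)
      rw [← e2, hdim] at a2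
      rw [← e3] at a3
      have a0 := h₀ E E' (by omega)
      rw [show S.H (E + E') = S.h (T D) (E + E') - S.h (T D - 1) (E + E') from rfl] at a0
      have a0' := abs_le.1 a0
      have hr : (D.rk (T D) (S.deg E) : ℝ) = (T D : ℝ) + 1 - D.g - S.deg E := by
        have h1 : D.g + S.deg E ≤ T D + 1 := by have := D.g_le; omega
        rw [Datum.rk, Nat.cast_sub (by omega), Nat.cast_sub (by omega)]
        push_cast; ring
      rw [hr] at a1
      have c1 := le_abs_self (hW (⊤ : Submodule ℚ (D.Vec ℚ j)) -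
        hW (⊤ : Submodule ℚ (D.Vec ℚ j')))
      have c1' := neg_abs_le (hW (⊤ : Submodule ℚ (D.Vec ℚ j)) -
        hW (⊤ : Submodule ℚ (D.Vec ℚ j')))
      have c2 := le_abs_self (S.H 0)
      have c2' := neg_abs_le (S.H 0)
      unfold Inv
      linarith [a2.1, a2.2, a3.1, a3.2, a0'.1, a0'.2]
  refine ⟨C, fun c => ?_⟩
  obtain ⟨m, φ, E', hφ, hm, hdeg, hcls, hsec, hprod⟩ := S.first (S.rep c)
  rw [deg_rep] at hm
  have h1 := hC m (by omega) ⟨m, S.rep c, E', φ⟩ ⟨rfl, hφ, deg_rep S c, hdeg, hsec, hprod⟩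
  simp only at h1
  refine ⟨E', by rw [deg_rep] at hdeg; omega, ?_, by unfold P; linarith⟩
  rw [cls_rep] at hcls
  exact eq_neg_of_add_eq_zero_right hcls

theorem exists_Q_lower : ∃ C, ∀ c : G, -C ≤ S.P c := by
  obtain ⟨C, hC⟩ := exists_P_lower I S
  obtain ⟨C', hC'⟩ := exists_H_lower I S
  refine ⟨C + C', fun c => ?_⟩
  obtain ⟨E', hd, -, h⟩ := hC c
  have := hC' E' hd
  linarith

/-- **Finitely many classes of bounded height.** -/
theorem finite_le (B : ℝ) : {c : G | S.Q c ≤ B}.Finite := by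
  obtain ⟨C, hC⟩ := exists_P_lower I S
  obtain ⟨C', hC'⟩ := exists_Q_lower I S
  obtain ⟨C₂, hC₂⟩ := exists_P_eq I S
  obtain ⟨C₃, hC₃⟩ := exists_bound_le D.g (fun i (q : ℕ × S.M) => q.1 = i ∧ S.deg q.2 ≤ D.g)
    (fun q => |S.H (q.2 + q.1 • S.O) - S.H q.2|) fun i hi => by
      obtain ⟨C₃, hC₃⟩ := exists_H_pad_nsmul I S i
      exact ⟨C₃, fun q hq => hq.1 ▸ hC₃ q.2 (by omega)⟩
  set Bh : ℝ := B + C' + C + C₃
  set B' : ℝ := B + C' + C₂ + ((T D : ℝ) + 1) * max Bh 0
  set F := {W : Submodule ℚ (D.Vec ℚ (T D)) |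
    Module.finrank ℚ W = D.rk (T D) D.g ∧ hW W ≤ B'}
  have hex : ∀ c ∈ {c : G | S.Q c ≤ B}, ∃ E : S.M, S.deg E = D.g ∧ S.cls E = c ∧
      S.sec (T D) E ∈ F := fun c hc => by
    obtain ⟨E₀, hd, hcls, hH⟩ := hC (-c)
    rw [neg_neg] at hcls
    obtain ⟨j, hj⟩ := Nat.exists_eq_add_of_le hd
    set E := E₀ + j • S.O
    have hdE : S.deg E = D.g := by rw [map_add, map_nsmul, S.deg_O, smul_eq_mul, mul_one, hj]
    have hcE : S.cls E = c := by rw [map_add, map_nsmul, S.cls_O, smul_zero, add_zero, hcls]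
    have p1 := hC' c
    have p2 := hC' (-c)
    have hQ : S.P c + S.P (-c) ≤ B := hc
    have a1 := abs_le.1 (hC₂ E hdE.ge (by omega))
    rw [hcE] at a1
    have a2 := abs_le.1 (hC₃ j (by omega) (j, E₀) ⟨rfl, hd⟩)
    refine ⟨E, hdE, hcE, hdE ▸ (S.isSec (T D) E (by unfold T L; omega)).finrank_eq, ?_⟩
    have hH' : S.H E ≤ Bh := by simp only at a2; linarith [a2.1, a2.2]
    have hr1 : (0 : ℝ) ≤ (T D : ℝ) + 1 - D.g - S.deg E := by
      have h3 : D.g + S.deg E ≤ T D + 1 := by unfold T L; omega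
      have : ((D.g + S.deg E : ℕ) : ℝ) ≤ ((T D + 1 : ℕ) : ℝ) := Nat.cast_le.2 h3
      push_cast at this
      linarith
    have hr2 : (T D : ℝ) + 1 - D.g - S.deg E ≤ (T D : ℝ) + 1 := by
      have h1 : (0 : ℝ) ≤ (D.g : ℝ) := Nat.cast_nonneg _
      have h2 : (0 : ℝ) ≤ (S.deg E : ℝ) := Nat.cast_nonneg _
      linarith
    have hmul : ((T D : ℝ) + 1 - D.g - S.deg E) * S.H E ≤ ((T D : ℝ) + 1) * max Bh 0 :=
      (mul_le_mul_of_nonneg_left (hH'.trans (le_max_left _ _)) hr1).trans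
        (mul_le_mul_of_nonneg_right hr2 (le_max_right _ _))
    have e : S.Inv E = hW (S.sec (T D) E) - ((T D : ℝ) + 1 - D.g - S.deg E) * S.H E := rfl
    show hW (S.sec (T D) E) ≤ B'
    linarith [a1.1, a1.2]
  choose! E hd hcl hF using hex
  refine Set.Finite.of_finite_image (f := fun c => S.sec (T D) (E c))
    ((finite_subspaces (T D) (D.rk (T D) D.g) B').subset ?_) ?_
  · rintro _ ⟨c, hc, rfl⟩; exact hF c hc
  · intro c hc c' hc' h
    rw [← hcl c hc, ← hcl c' hc']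
    exact S.sec_inj _ _ _ (by rw [hd c hc]; unfold T L; omega)
      ((hd c hc).trans (hd c' hc').symm) h

include S in
/-- **Descent.** -/
theorem fg_of_weak (hweak : ∃ R : Finset G, ∀ z : G, ∃ r ∈ R, ∃ w : G, z = r + 2 • w) :
    AddGroup.FG G := by
  classical
  obtain ⟨R, hR⟩ := hweak
  obtain ⟨C, hC⟩ := exists_parallelogram I S
  obtain ⟨C', hC'⟩ := exists_Q_lower I S
  set K : ℝ := ∑ r ∈ R, |2 * S.Q r| + |C| + |S.Q 0| + |2 * C'| + |C|
  have hstep : ∀ z w r : G, r ∈ R → z = r + 2 • w → S.Q w ≤ S.Q z / 2 + K / 4 := by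
    intro z w r hr hz
    have a := abs_le.1 (hC z r)
    have b := abs_le.1 (hC w w)
    rw [sub_self] at b
    rw [show z - r = w + w by rw [hz, two_nsmul]; abel] at a
    have h1 : |2 * S.Q r| ≤ ∑ r ∈ R, |2 * S.Q r| :=
      Finset.single_le_sum (f := fun r => |2 * S.Q r|) (fun _ _ => abs_nonneg _) hr
    have l : -(2 * C') ≤ S.Q (z + r) := by
      have := hC' (z + r)
      have := hC' (-(z + r))
      unfold Q
      linarith
    have := le_abs_self (2 * S.Q r)
    have := le_abs_self C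
    have := le_abs_self (S.Q 0)
    have := le_abs_self (2 * C')
    linarith [a.1, a.2, b.1, b.2]
  set B₀ : ℝ := max (K / 2 + 1) 1
  set gens : Finset G := R ∪ (finite_le I S B₀).toFinset
  have main : ∀ (n : ℕ) (z : G), S.Q z ≤ B₀ + (n : ℝ) / 2 →
      z ∈ AddSubgroup.closure (gens : Set G) := by
    intro n
    induction n with
    | zero =>
        intro z hz
        exact AddSubgroup.subset_closure (Finset.mem_coe.2 (Finset.mem_union_right _
          ((Set.Finite.mem_toFinset _).2 (by simpa using hz))))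
    | succ n ih =>
        intro z hz
        obtain ⟨r, hr, w, hw⟩ := hR z
        have hw1 := hstep z w r hr hw
        have hwmem : w ∈ AddSubgroup.closure (gens : Set G) := ih w (by
          push_cast at hz
          have := le_max_left (K / 2 + 1) 1
          have : (0 : ℝ) ≤ (n : ℝ) := Nat.cast_nonneg _
          linarith)
        rw [hw]
        exact add_mem (AddSubgroup.subset_closure (Finset.mem_coe.2 (Finset.mem_union_left _ hr)))
          (nsmul_mem hwmem 2)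
  refine ⟨⟨gens, eq_top_iff.2 fun z _ => ?_⟩⟩
  obtain ⟨n, hn⟩ := exists_nat_ge (2 * (S.Q z - B₀))
  exact main n z (by linarith)

end Sys

end FLTAgent.MW
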