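import Fermat.Agent.MW.Config

/-!
# Frames of a configuration and the ratio of their sizes
-/

set_option autoImplicit false
set_option linter.unusedSectionVars false
set_option linter.style.haveILetI false

noncomputable section

namespace FLTAgent.MW

section Matrix

variable {k : Type*} [Field k] {V : Type*} [AddCommGroup V] [Module k V] {r s : Type*} [Fintype r]
  [Fintype s]

theorem exists_matrix {s : Type*} {ω : r → V} {y : s → V}
    (h : ∀ i, y i ∈ Submodule.span k (Set.range ω)) :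
    ∃ M : Matrix s r k, y = fun i => ∑ l, M i l • ω l := by
  choose c hc using fun i => Submodule.mem_span_range_iff_exists_fun k |>.1 (h i)
  exact ⟨Matrix.of c, funext fun i => (hc i).symm⟩

theorem exists_matrix₂ {t : Type*} {ω : r → V} {Y : s → V} {y : t → V}
    (h : ∀ i, y i ∈ Submodule.span k (Set.range (Sum.elim ω Y))) :
    ∃ (N : Matrix t s k) (Z : Matrix t r k),
      y = fun i => ∑ l, N i l • Y l + ∑ l, Z i l • ω l := by
  obtain ⟨M, hM⟩ := exists_matrix h
  refine ⟨Matrix.of fun i l => M i (Sum.inr l), Matrix.of fun i l => M i (Sum.inl l), hM.trans ?_⟩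
  funext i
  simp [Fintype.sum_sum_type, add_comm]

theorem det_ne_zero_of_li [DecidableEq r] {ω : r → V} {M : Matrix r r k}
    (h : LinearIndependent k fun i => ∑ l, M i l • ω l) : M.det ≠ 0 := by
  intro h0
  obtain ⟨v, hv, hv0⟩ := Matrix.exists_vecMul_eq_zero_iff.2 h0
  refine hv (funext fun i => Fintype.linearIndependent_iff.1 h v ?_ i)
  simp only [Finset.smul_sum, smul_smul]
  rw [Finset.sum_comm]
  refine Finset.sum_eq_zero fun l _ => ?_
  rw [← Finset.sum_smul]
  have := congrFun hv0 l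
  simp only [Matrix.vecMul, dotProduct, Pi.zero_apply] at this
  rw [this, zero_smul]

end Matrix

variable {D : Datum} {k : Type} [Field k] {a b c d₁ d₂ d₃ : ℕ}

/-- The number of sections. -/
def Datum.rk (D : Datum) (n d : ℕ) : ℕ := n + 1 - D.g - d

/-- A choice of frames and multipliers for the quotients of a configuration. -/
structure Quad (D : Datum) (k : Type) (a b c d₂ d₁ d₃ : ℕ) where
  oA : Fin (D.rk b d₃) → D.Vec k b
  oA2 : Fin (D.rk (b + c) (d₂ + d₃)) → D.Vec k (b + c)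
  oB : Fin (D.rk (a + b) (d₁ + d₃)) → D.Vec k (a + b)
  oB2 : Fin (D.rk (a + b + c) (d₁ + d₂ + d₃)) → D.Vec k (a + b + c)
  X : Fin d₃ → D.Vec k b
  u : D.Vec k a
  w : D.Vec k c

namespace Quad

variable (q : Quad D k a b c d₂ d₁ d₃)

/-- `A'` completed. -/
def fA : Fin (D.rk b d₃) ⊕ Fin d₃ → D.Vec k b := Sum.elim q.oA q.X

/-- `A₂'` completed by `w X`. -/
def fA2 : Fin (D.rk (b + c) (d₂ + d₃)) ⊕ Fin d₃ → D.Vec k (b + c) :=
  Sum.elim q.oA2 fun i => D.mul c b (b + c) q.w (q.X i)

/-- `B'` completed by `u X`. -/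
def fB : Fin (D.rk (a + b) (d₁ + d₃)) ⊕ Fin d₃ → D.Vec k (a + b) :=
  Sum.elim q.oB fun i => D.mul a b (a + b) q.u (q.X i)

/-- `B₂'` completed by `u (w X)`. -/
def fB2 : Fin (D.rk (a + b + c) (d₁ + d₂ + d₃)) ⊕ Fin d₃ → D.Vec k (a + b + c) :=
  Sum.elim q.oB2 fun i => D.mul a (b + c) (a + b + c) q.u (D.mul c b (b + c) q.w (q.X i))

/-- The completed families are independent. -/
def Indep : Prop :=
  LinearIndependent k q.fA ∧ LinearIndependent k q.fA2 ∧ LinearIndependent k q.fB ∧
    LinearIndependent k q.fB2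

/-- The frames belong to the configuration. -/
structure Fits (C : Conf D k a b c d₁ d₂ d₃) : Prop where
  spanA : Submodule.span k (Set.range q.oA) = C.A'
  spanA2 : Submodule.span k (Set.range q.oA2) = C.A2'
  spanB : Submodule.span k (Set.range q.oB) = C.B'
  spanB2 : Submodule.span k (Set.range q.oB2) = C.B2'
  memu : q.u ∈ C.W1
  memw : q.w ∈ C.Wc

/-- The ratio of sizes, logarithmically, for a given size function. -/
def val (N : ∀ {r : Type} [Fintype r] [DecidableEq r] {ι : Type} [Fintype ι] [DecidableEq ι],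
    (r → ι → k) → ℝ) : ℝ :=
  N q.fB2 + N q.oA2 + N q.oB + N q.fA - N q.oB2 - N q.fA2 - N q.fB - N q.oA

end Quad

theorem IsSec.finrank_eq {n d : ℕ} {W : Submodule k (D.Vec k n)} (h : IsSec D n d W) :
    Module.finrank k W = D.rk n d := by
  have := h.1
  rw [Datum.rk]
  omega

theorem span_elim_eq {V : Type*} [AddCommGroup V] [Module k V] [FiniteDimensional k V] {r s : Type}
    [Fintype r] [Fintype s] {ω : r → V} {Y : s → V} {W : Submodule k V}
    (hli : LinearIndependent k (Sum.elim ω Y)) (hω : ∀ i, ω i ∈ W) (hY : ∀ i, Y i ∈ W)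
    (hW : Module.finrank k W = Fintype.card r + Fintype.card s) :
    Submodule.span k (Set.range (Sum.elim ω Y)) = W := by
  refine Submodule.eq_of_le_of_finrank_le (Submodule.span_le.2 ?_) ?_
  · rintro _ ⟨i | i, rfl⟩
    exacts [hω i, hY i]
  · rw [finrank_span_eq_card hli, Fintype.card_sum, hW]

/-- A size function on families, changing by a character of the determinant. -/
structure IsSize (N : ∀ {r : Type} [Fintype r] [DecidableEq r] {ι : Type} [Fintype ι]
    [DecidableEq ι], (r → ι → k) → ℝ) (χ : k → ℝ) : Prop where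
  scale : ∀ {r ι : Type} [Fintype r] [DecidableEq r] [Fintype ι] [DecidableEq ι]
    (B B' : r → ι → k) (δ : k), δ ≠ 0 → LinearIndependent k B →
      minors B' = δ • minors B → N B' = χ δ + N B
  chi_mul : ∀ x y : k, x ≠ 0 → y ≠ 0 → χ (x * y) = χ x + χ y

set_option maxHeartbeats 800000 in
/-- **The ratio depends only on the configuration.** -/
theorem val_eq {N : ∀ {r : Type} [Fintype r] [DecidableEq r] {ι : Type} [Fintype ι]
    [DecidableEq ι], (r → ι → k) → ℝ} {χ : k → ℝ} (hN : IsSize N χ) (R : Realisation D k)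
    (C : Conf D k a b c d₁ d₂ d₃) (hab : D.g + d₁ + d₂ + d₃ ≤ a + b)
    (hb : D.g + d₁ + d₂ + d₃ ≤ b) (hdim : D.dim b + D.g = b + 1)
    {q q' : Quad D k a b c d₂ d₁ d₃} (hq : q.Fits C) (hq' : q'.Fits C) (hi : q.Indep)
    (hi' : q'.Indep) : q.val N = q'.val N := by
  classical
  obtain ⟨liA, liA2, liB, liB2⟩ := hi
  obtain ⟨liA', liA2', liB', liB2'⟩ := hi'
  have rA : Module.finrank k (⊤ : Submodule k (D.Vec k b)) = D.rk b d₃ + d₃ := by
    rw [finrank_top, Module.finrank_pi, Fintype.card_fin, Datum.rk]; omega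
  have spA : Submodule.span k (Set.range q.fA) = ⊤ :=
    span_elim_eq liA (fun _ => Submodule.mem_top) (fun _ => Submodule.mem_top)
      (by simpa using rA)
  -- the frames of the subspaces
  have mo : ∀ {r n : ℕ} {W : Submodule k (D.Vec k n)} {o o' : Fin r → D.Vec k n},
      Submodule.span k (Set.range o) = W → Submodule.span k (Set.range o') = W →
        ∃ M : Matrix (Fin r) (Fin r) k, o' = fun i => ∑ l, M i l • o l := fun h h' =>
    exists_matrix fun i => h.symm ▸ h' ▸ Submodule.subset_span ⟨i, rfl⟩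
  obtain ⟨MA, eA⟩ := mo hq.spanA hq'.spanA
  obtain ⟨MA2, eA2⟩ := mo hq.spanA2 hq'.spanA2
  obtain ⟨MB, eB⟩ := mo hq.spanB hq'.spanB
  obtain ⟨MB2, eB2⟩ := mo hq.spanB2 hq'.spanB2
  obtain ⟨N₀, Z₀, eX⟩ := exists_matrix₂ (ω := q.oA) (Y := q.X) (y := q'.X) (k := k) fun i => by
    show q'.X i ∈ Submodule.span k (Set.range q.fA)
    rw [spA]; exact Submodule.mem_top
  have memA : ∀ i, q.oA i ∈ C.A' := fun i => hq.spanA ▸ Submodule.subset_span ⟨i, rfl⟩
  have memB : ∀ i, q.oB i ∈ C.B' := fun i => hq.spanB ▸ Submodule.subset_span ⟨i, rfl⟩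
  have memA2 : ∀ i, q.oA2 i ∈ C.A2' := fun i => hq.spanA2 ▸ Submodule.subset_span ⟨i, rfl⟩
  -- u' X in terms of u X
  have spB : Submodule.span k (Set.range q.fB) = C.B :=
    span_elim_eq liB (fun i => C.leB (memB i)) (fun i => C.mB _ hq.memu _)
      (by rw [C.hB.finrank_eq, Fintype.card_fin, Fintype.card_fin, Datum.rk, Datum.rk]; omega)
  obtain ⟨N₁, Z₁, eu⟩ := exists_matrix₂ (ω := q.oB)
    (Y := fun i => D.mul a b (a + b) q.u (q.X i))
    (y := fun i => D.mul a b (a + b) q'.u (q.X i)) (k := k) fun i => by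
    show _ ∈ Submodule.span k (Set.range q.fB)
    rw [spB]; exact C.mB _ hq'.memu _
  have spA2 : Submodule.span k (Set.range q.fA2) = C.A2 :=
    span_elim_eq liA2 (fun i => C.leA2 (memA2 i)) (fun i => C.mA2 _ hq.memw _)
      (by rw [C.hA2.finrank_eq, Fintype.card_fin, Fintype.card_fin, Datum.rk, Datum.rk]; omega)
  obtain ⟨N₂, Z₂, ew⟩ := exists_matrix₂ (ω := q.oA2)
    (Y := fun i => D.mul c b (b + c) q.w (q.X i))
    (y := fun i => D.mul c b (b + c) q'.w (q.X i)) (k := k) fun i => by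
    show _ ∈ Submodule.span k (Set.range q.fA2)
    rw [spA2]; exact C.mA2 _ hq'.memw _
  -- the images modulo the smaller spaces
  have kA2 : ∀ i, D.mul c b (b + c) q'.w (q'.X i) -
      ∑ l, (N₀ * N₂) i l • D.mul c b (b + c) q.w (q.X l) ∈ C.A2' := fun i => by
    have h1 : D.mul c b (b + c) q'.w (q'.X i) - ∑ l, (N₀ * N₂) i l • D.mul c b (b + c) q.w (q.X l) =
        ∑ l, Z₀ i l • D.mul c b (b + c) q'.w (q.oA l) + ∑ l, ∑ m, (N₀ i l * Z₂ l m) • q.oA2 m := by
      rw [congrFun eX i, map_add, map_sum, map_sum]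
      simp only [map_smul]
      conv_lhs => enter [1, 1, 2, l]; rw [congrFun ew l, smul_add, Finset.smul_sum, Finset.smul_sum]
      simp only [Finset.sum_add_distrib, smul_smul, Matrix.mul_apply, Finset.sum_smul]
      rw [Finset.sum_comm (f := fun x l => (N₀ i x * N₂ x l) • D.mul c b (b + c) q.w (q.X l))]
      abel
    rw [h1]
    exact add_mem (Submodule.sum_mem _ fun l _ => Submodule.smul_mem _ _
      (C.mA2' _ hq'.memw _ (memA l))) (Submodule.sum_mem _ fun l _ => Submodule.sum_mem _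
        fun m _ => Submodule.smul_mem _ _ (memA2 m))
  have kB : ∀ i, D.mul a b (a + b) q'.u (q'.X i) -
      ∑ l, (N₀ * N₁) i l • D.mul a b (a + b) q.u (q.X l) ∈ C.B' := fun i => by
    have h1 : D.mul a b (a + b) q'.u (q'.X i) - ∑ l, (N₀ * N₁) i l • D.mul a b (a + b) q.u (q.X l) =
        ∑ l, Z₀ i l • D.mul a b (a + b) q'.u (q.oA l) + ∑ l, ∑ m, (N₀ i l * Z₁ l m) • q.oB m := by
      rw [congrFun eX i, map_add, map_sum, map_sum]
      simp only [map_smul]
      conv_lhs => enter [1, 1, 2, l]; rw [congrFun eu l, smul_add, Finset.smul_sum, Finset.smul_sum]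
      simp only [Finset.sum_add_distrib, smul_smul, Matrix.mul_apply, Finset.sum_smul]
      rw [Finset.sum_comm (f := fun x l => (N₀ i x * N₁ x l) • D.mul a b (a + b) q.u (q.X l))]
      abel
    rw [h1]
    exact add_mem (Submodule.sum_mem _ fun l _ => Submodule.smul_mem _ _
      (C.mB' _ hq'.memu _ (memA l))) (Submodule.sum_mem _ fun l _ => Submodule.sum_mem _
        fun m _ => Submodule.smul_mem _ _ (memB m))
  have comm : ∀ (u : D.Vec k a) (w : D.Vec k c) (x : D.Vec k b),
      D.mul c (a + b) (a + b + c) w (D.mul a b (a + b) u x) =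
        D.mul a (b + c) (a + b + c) u (D.mul c b (b + c) w x) := fun u w x =>
    R.mul_left_comm le_rfl (by omega) (by omega) (by omega) u w x
  have kB2 : ∀ i, D.mul a (b + c) (a + b + c) q'.u (D.mul c b (b + c) q'.w (q'.X i)) -
      ∑ l, (N₀ * N₂ * N₁) i l •
        D.mul a (b + c) (a + b + c) q.u (D.mul c b (b + c) q.w (q.X l)) ∈ C.B2' := fun i => by
    have h1 := C.mB2' _ hq'.memu _ (kA2 i)
    rw [map_sub, map_sum] at h1
    simp only [map_smul] at h1
    have h2 : ∀ l, D.mul a (b + c) (a + b + c) q'.u (D.mul c b (b + c) q.w (q.X l)) -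
        ∑ m, N₁ l m • D.mul a (b + c) (a + b + c) q.u (D.mul c b (b + c) q.w (q.X m)) ∈ C.B2' := by
      intro l
      have h3 : D.mul c (a + b) (a + b + c) q.w
          (∑ m, Z₁ l m • q.oB m) ∈ C.B2' :=
        C.mwB2' _ hq.memw _ (Submodule.sum_mem _ fun m _ => Submodule.smul_mem _ _ (memB m))
      have h4 := congrArg (D.mul c (a + b) (a + b + c) q.w) (congrFun eu l)
      rw [map_add, comm, map_sum] at h4
      simp only [map_smul, comm] at h4
      rwa [h4, add_sub_cancel_left]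
    have h5 := add_mem h1 (Submodule.sum_mem C.B2' fun l (_ : l ∈ Finset.univ) =>
      Submodule.smul_mem C.B2' ((N₀ * N₂) i l) (h2 l))
    convert h5 using 1
    simp only [smul_sub, Finset.sum_sub_distrib, Finset.smul_sum, smul_smul,
      Matrix.mul_apply (M := N₀ * N₂), Finset.sum_smul]
    rw [Finset.sum_comm (f := fun x y => ((N₀ * N₂) i y * N₁ y x) •
      D.mul a (b + c) (a + b + c) q.u (D.mul c b (b + c) q.w (q.X x)))]
    abel
  -- the determinants
  have step : ∀ {r s : ℕ} {n : ℕ} {W : Submodule k (D.Vec k n)} {o o' : Fin r → D.Vec k n}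
      {Y Y' : Fin s → D.Vec k n} {M : Matrix (Fin r) (Fin r) k} {P : Matrix (Fin s) (Fin s) k},
      Submodule.span k (Set.range o) = W → o' = (fun i => ∑ l, M i l • o l) →
      (∀ i, Y' i - ∑ l, P i l • Y l ∈ W) → LinearIndependent k (Sum.elim o Y) →
      LinearIndependent k (Sum.elim o' Y') →
      M.det ≠ 0 ∧ P.det ≠ 0 ∧ N o' = χ M.det + N o ∧
        N (Sum.elim o' Y') = χ M.det + χ P.det + N (Sum.elim o Y) := by
    intro r s n W o o' Y Y' M P ho ho' hY li li'
    obtain ⟨Z, hZ⟩ := exists_matrix (ω := o) fun i => ho.symm ▸ hY i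
    have hY' : Y' = fun i => ∑ l, P i l • Y l + ∑ l, Z i l • o l := funext fun i => by
      rw [← sub_eq_iff_eq_add']; exact congrFun hZ i
    have hm : minors (Sum.elim o' Y') = (M.det * P.det) • minors (Sum.elim o Y) := by
      rw [ho', hY']; exact minors_elim M P Z o Y
    have hne : M.det * P.det ≠ 0 := fun h0 => minors_ne_zero_iff.2 li' (by rw [hm, h0, zero_smul])
    obtain ⟨hM, hP⟩ := mul_ne_zero_iff.1 hne
    refine ⟨hM, hP, hN.scale o o' M.det hM (li.comp Sum.inl Sum.inl_injective)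
      (by rw [ho', minors_mul]), ?_⟩
    rw [hN.scale (Sum.elim o Y) (Sum.elim o' Y') _ hne li hm, hN.chi_mul _ _ hM hP]
  obtain ⟨-, hN₀, e1, e2⟩ := step (Y := q.X) (Y' := q'.X) (P := N₀) hq.spanA eA
    (fun i => by
      rw [congrFun eX i, add_sub_cancel_left]
      exact Submodule.sum_mem _ fun l _ => Submodule.smul_mem _ _ (memA l)) liA liA'
  obtain ⟨-, hN₂, e3, e4⟩ := step hq.spanA2 eA2 kA2 liA2 liA2'
  obtain ⟨-, hN₁, e5, e6⟩ := step hq.spanB eB kB liB liB'
  obtain ⟨-, -, e7, e8⟩ := step hq.spanB2 eB2 kB2 liB2 liB2'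
  rw [Matrix.det_mul] at hN₁ hN₂ e4 e6
  rw [Matrix.det_mul, Matrix.det_mul] at e8
  have c0 := mul_ne_zero_iff.1 hN₁
  have c2 := mul_ne_zero_iff.1 hN₂
  rw [hN.chi_mul _ _ hN₀ c2.2] at e4
  rw [hN.chi_mul _ _ hN₀ c0.2] at e6
  rw [hN.chi_mul _ _ hN₂ c0.2, hN.chi_mul _ _ hN₀ c2.2] at e8
  unfold Quad.val
  unfold Quad.fA Quad.fA2 Quad.fB Quad.fB2
  beta_reduce
  linarith

end FLTAgent.MW
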