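import Fermat.Agent.MW.Bounds

/-!
# Global inequalities between the heights of subspaces
-/

set_option autoImplicit false
set_option linter.unusedSectionVars false
set_option linter.style.haveILetI false

noncomputable section

namespace FLTAgent.MW

/-- Realisations of a datum over `ℚ`, its completions and almost all of its residue fields. -/
structure Input (D : Datum) : Type 1 where
  rat : Realisation D ℚ
  real : Realisation D ℝ
  padic : ∀ p : ℕ, ∀ [Fact p.Prime], Realisation D ℚ_[p]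
  bad : Finset Nat.Primes
  good : ∀ p : ℕ, ∀ [hp : Fact p.Prime], (⟨p, hp.out⟩ : Nat.Primes) ∉ bad → Realisation D (ZMod p)
  dim_eq : ∀ n, D.n₀ ≤ n → D.dim n + D.g = n + 1

variable {D : Datum}

section Cast

variable (k : Type) [Field k] [CharZero k]

/-- A rational vector in a larger field. -/
def castV {ι : Type} (x : ι → ℚ) : ι → k := fun l => (x l : k)

/-- A rational family in a larger field. -/
def castFam {r ι : Type} (B : r → ι → ℚ) : r → ι → k := fun i => castV k (B i)

theorem minors_castFam {r ι : Type} [Fintype r] [DecidableEq r] (B : r → ι → ℚ) :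
    minors (castFam k B) = castV k (minors B) :=
  minors_map (Rat.castHom k) B

theorem linearIndependent_castFam {r ι : Type} [Fintype r] [Fintype ι] [DecidableEq r]
    [DecidableEq ι] {B : r → ι → ℚ} (h : LinearIndependent ℚ B) :
    LinearIndependent k (castFam k B) :=
  linearIndependent_map (Rat.castHom k) h

theorem castV_mul (a b n : ℕ) (x : D.Vec ℚ a) (y : D.Vec ℚ b) :
    castV k (D.mul a b n x y) = D.mul a b n (castV k x) (castV k y) :=
  funext fun l => Datum.mul_map D (Rat.castHom k) a b n x y l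

theorem castV_add {ι : Type} (x y : ι → ℚ) : castV k (x + y) = castV k x + castV k y :=
  funext fun l => Rat.cast_add (x l) (y l)

theorem castV_smul {ι : Type} (c : ℚ) (x : ι → ℚ) : castV k (c • x) = (c : k) • castV k x :=
  funext fun l => Rat.cast_mul c (x l)

theorem castV_zero {ι : Type} : castV k (0 : ι → ℚ) = 0 := funext fun _ => Rat.cast_zero

/-- The extended subspace. -/
def castSpan {n : ℕ} (W : Submodule ℚ (D.Vec ℚ n)) : Submodule k (D.Vec k n) :=
  Submodule.span k (castV k '' (W : Set (D.Vec ℚ n)))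

variable {k}

theorem castV_mem {n : ℕ} {W : Submodule ℚ (D.Vec ℚ n)} {x : D.Vec ℚ n} (hx : x ∈ W) :
    castV k x ∈ castSpan k W := Submodule.subset_span ⟨x, hx, rfl⟩

theorem span_castFam {n : ℕ} {r : Type} {B : r → D.Vec ℚ n} {W : Submodule ℚ (D.Vec ℚ n)}
    (hB : Submodule.span ℚ (Set.range B) = W) :
    Submodule.span k (Set.range (castFam k B)) = castSpan k W := by
  refine le_antisymm (Submodule.span_le.2 ?_) (Submodule.span_le.2 ?_)
  · rintro _ ⟨i, rfl⟩
    exact castV_mem (hB ▸ Submodule.subset_span ⟨i, rfl⟩)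
  · rintro _ ⟨x, hx, rfl⟩
    subst hB
    induction hx using Submodule.span_induction with
    | mem y hy => obtain ⟨i, rfl⟩ := hy; exact Submodule.subset_span ⟨i, rfl⟩
    | zero => rw [castV_zero]; exact Submodule.zero_mem _
    | add y z _ _ hy hz => rw [castV_add]; exact add_mem hy hz
    | smul c y _ hy => rw [castV_smul]; exact Submodule.smul_mem _ _ hy

theorem finrank_castSpan {n : ℕ} (W : Submodule ℚ (D.Vec ℚ n)) :
    Module.finrank k (castSpan k W) = Module.finrank ℚ W := by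
  set B : Fin (Module.finrank ℚ W) → D.Vec ℚ n := fun i => (Module.finBasis ℚ W i : W)
  have hli : LinearIndependent ℚ B :=
    (Module.finBasis ℚ W).linearIndependent.map' W.subtype W.ker_subtype
  have hsp : Submodule.span ℚ (Set.range B) = W := by
    have h := (Module.finBasis ℚ W).span_eq
    apply_fun Submodule.map W.subtype at h
    rw [Submodule.map_span, Submodule.map_top, Submodule.range_subtype, ← Set.range_comp] at h
    exact h
  rw [← span_castFam hsp, finrank_span_eq_card (linearIndependent_castFam k hli), Fintype.card_fin]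

theorem mul_castSpan {p q n : ℕ} {W : Submodule ℚ (D.Vec ℚ p)} {W' : Submodule ℚ (D.Vec ℚ q)}
    {T : Submodule ℚ (D.Vec ℚ n)} (h : ∀ x ∈ W, ∀ y ∈ W', D.mul p q n x y ∈ T) {x : D.Vec k p}
    (hx : x ∈ castSpan k W) {y : D.Vec k q} (hy : y ∈ castSpan k W') :
    D.mul p q n x y ∈ castSpan k T := by
  induction hx using Submodule.span_induction with
  | mem x hx =>
      obtain ⟨x₀, hx₀, rfl⟩ := hx
      induction hy using Submodule.span_induction with
      | mem y hy =>
          obtain ⟨y₀, hy₀, rfl⟩ := hy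
          rw [← castV_mul]
          exact castV_mem (h x₀ hx₀ y₀ hy₀)
      | zero => rw [map_zero]; exact Submodule.zero_mem _
      | add y z _ _ hy hz => rw [map_add]; exact add_mem hy hz
      | smul r y _ hy => rw [map_smul]; exact Submodule.smul_mem _ _ hy
  | zero => rw [map_zero, LinearMap.zero_apply]; exact Submodule.zero_mem _
  | add x z _ _ hx hz => rw [map_add, LinearMap.add_apply]; exact add_mem hx hz
  | smul r x _ hx => rw [map_smul, LinearMap.smul_apply]; exact Submodule.smul_mem _ _ hx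

theorem castSpan_top (n : ℕ) : castSpan k (⊤ : Submodule ℚ (D.Vec ℚ n)) = ⊤ := by
  rw [← span_castFam (span_std (D := D) (k := ℚ) n), ← span_std (D := D) (k := k) n]
  congr 2
  funext j l
  simp [castFam, castV, std, Pi.single_apply, apply_ite (fun q : ℚ => (q : k))]

theorem castSpan_mono {n : ℕ} {W W' : Submodule ℚ (D.Vec ℚ n)} (h : W ≤ W') :
    castSpan k W ≤ castSpan k W' := Submodule.span_mono (Set.image_mono h)

theorem isSec_cast {n d : ℕ} {W : Submodule ℚ (D.Vec ℚ n)} (h : IsSec D n d W) :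
    IsSec D n d (castSpan k W) := by
  obtain ⟨h1, W', h2, h3⟩ := h
  refine ⟨by rwa [finrank_castSpan], castSpan k W', by rwa [finrank_castSpan], fun x hx y => ?_⟩
  exact mul_castSpan (W' := ⊤) (fun x hx y _ => h3 x hx y) hx (castSpan_top (k := k) _ ▸ trivial)

variable {a b c d₁ d₂ d₃ : ℕ}

variable (k) in
/-- The extended configuration. -/
def Conf.cast (C : Conf D ℚ a b c d₁ d₂ d₃) : Conf D k a b c d₁ d₂ d₃ where
  W1 := castSpan k C.W1
  Wc := castSpan k C.Wc
  A' := castSpan k C.A'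
  A2 := castSpan k C.A2
  A2' := castSpan k C.A2'
  B := castSpan k C.B
  B' := castSpan k C.B'
  B2 := castSpan k C.B2
  B2' := castSpan k C.B2'
  hW1 := isSec_cast C.hW1
  hWc := isSec_cast C.hWc
  hA' := isSec_cast C.hA'
  hA2 := isSec_cast C.hA2
  hA2' := isSec_cast C.hA2'
  hB := isSec_cast C.hB
  hB' := isSec_cast C.hB'
  hB2 := isSec_cast C.hB2
  hB2' := isSec_cast C.hB2'
  mB := fun _ hu x => mul_castSpan (W' := ⊤) (fun x hx y _ => C.mB x hx y) hu
    (castSpan_top (k := k) b ▸ trivial)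
  mB' := fun _ hu _ hx => mul_castSpan C.mB' hu hx
  mA2 := fun _ hu x => mul_castSpan (W' := ⊤) (fun x hx y _ => C.mA2 x hx y) hu
    (castSpan_top (k := k) b ▸ trivial)
  mA2' := fun _ hu _ hx => mul_castSpan C.mA2' hu hx
  mB2 := fun _ hu _ hx => mul_castSpan C.mB2 hu hx
  mB2' := fun _ hu _ hx => mul_castSpan C.mB2' hu hx
  mwB2' := fun _ hu _ hx => mul_castSpan C.mwB2' hu hx
  leB := castSpan_mono C.leB
  leA2 := castSpan_mono C.leA2
  leB2 := castSpan_mono C.leB2

variable (k) in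
/-- The extended frames. -/
def Quad.cast (q : Quad D ℚ a b c d₂ d₁ d₃) : Quad D k a b c d₂ d₁ d₃ :=
  ⟨castFam k q.oA, castFam k q.oA2, castFam k q.oB, castFam k q.oB2, castFam k q.X,
    castV k q.u, castV k q.w⟩

theorem Quad.Fits.cast {q : Quad D ℚ a b c d₂ d₁ d₃} {C : Conf D ℚ a b c d₁ d₂ d₃}
    (h : q.Fits C) : (q.cast k).Fits (C.cast k) :=
  ⟨span_castFam h.spanA, span_castFam h.spanA2, span_castFam h.spanB, span_castFam h.spanB2,
    castV_mem h.memu, castV_mem h.memw⟩

theorem castFam_elim {r s ι : Type} (o : r → ι → ℚ) (Y : s → ι → ℚ) :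
    castFam k (Sum.elim o Y) = Sum.elim (castFam k o) (castFam k Y) :=
  funext fun i => by cases i <;> rfl

theorem Quad.cast_fs (q : Quad D ℚ a b c d₂ d₁ d₃) : (q.cast k).fA = castFam k q.fA ∧
    (q.cast k).fA2 = castFam k q.fA2 ∧ (q.cast k).fB = castFam k q.fB ∧
      (q.cast k).fB2 = castFam k q.fB2 := by
  simp only [Quad.fA, Quad.fA2, Quad.fB, Quad.fB2, castFam_elim]
  refine ⟨rfl, ?_, ?_, ?_⟩ <;> congr 1 <;> funext i <;> simp [castFam, Quad.cast, castV_mul]

theorem Quad.Indep.cast {q : Quad D ℚ a b c d₂ d₁ d₃} (h : q.Indep) : (q.cast k).Indep := by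
  obtain ⟨e1, e2, e3, e4⟩ := q.cast_fs (k := k)
  rw [Quad.Indep, e1, e2, e3, e4]
  exact ⟨linearIndependent_castFam k h.1, linearIndependent_castFam k h.2.1,
    linearIndependent_castFam k h.2.2.1, linearIndependent_castFam k h.2.2.2⟩

end Cast

/-- The height of a subspace. -/
def hW {n : ℕ} (W : Submodule ℚ (D.Vec ℚ n)) : ℝ :=
  hgt (minors fun i => ((Module.finBasis ℚ W i : W) : D.Vec ℚ n))

theorem hgt_comp_equiv {ι κ : Type} [Fintype ι] [Fintype κ] (e : ι ≃ κ) (x : κ → ℚ) :
    hgt (x ∘ e) = hgt x := by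
  have key : ∀ {k : Type} [NormedField k] (y : κ → k), ‖y ∘ e‖ = ‖y‖ := fun y =>
    le_antisymm ((pi_norm_le_iff_of_nonneg (norm_nonneg _)).2 fun i => norm_le_pi_norm y (e i))
      ((pi_norm_le_iff_of_nonneg (norm_nonneg _)).2 fun j => by
        simpa using norm_le_pi_norm (y ∘ e) (e.symm j))
  refine congrArg total (Finsupp.ext fun v => ?_)
  rcases v with - | ⟨p, hp⟩
  · exact congrArg Real.log (key fun j => ((x j : ℚ) : ℝ))
  · haveI := Fact.mk hp
    exact congrArg Real.log (key fun j => ((x j : ℚ) : ℚ_[p]))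

theorem hW_eq {n : ℕ} {r : Type} [Fintype r] [DecidableEq r] {B : r → D.Vec ℚ n}
    (hB : LinearIndependent ℚ B) {W : Submodule ℚ (D.Vec ℚ n)}
    (hs : Submodule.span ℚ (Set.range B) = W) : hgt (minors B) = hW W := by
  classical
  have hc : Fintype.card r = Module.finrank ℚ W := by rw [← hs, finrank_span_eq_card hB]
  let e : r ≃ Fin (Module.finrank ℚ W) := Fintype.equivFinOfCardEq hc
  set B₀ : Fin (Module.finrank ℚ W) → D.Vec ℚ n := fun i => (Module.finBasis ℚ W i : W)
  have h0 : LinearIndependent ℚ B₀ :=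
    (Module.finBasis ℚ W).linearIndependent.map' W.subtype W.ker_subtype
  obtain ⟨M, hM⟩ := exists_matrix (ω := B₀ ∘ e) (y := B) (k := ℚ) fun i => by
    have h1 : B i ∈ W := hs ▸ Submodule.subset_span ⟨i, rfl⟩
    rw [Set.range_comp, e.range_eq_univ, Set.image_univ]
    have h2 := (Module.finBasis ℚ W).sum_repr ⟨B i, h1⟩
    have h3 := congrArg (fun w : W => (w : D.Vec ℚ n)) h2
    simp only [Submodule.coe_sum, Submodule.coe_smul] at h3
    rw [← h3]
    exact Submodule.sum_mem _ fun l _ => Submodule.smul_mem _ _ (Submodule.subset_span ⟨l, rfl⟩)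
  have hd : M.det ≠ 0 := det_ne_zero_of_li (ω := B₀ ∘ e) (by rw [← hM]; exact hB)
  rw [hM, minors_mul, hgt_smul hd, hW]
  rw [show minors (B₀ ∘ e) = minors B₀ ∘ (Equiv.arrowCongr e (Equiv.refl _)) from funext fun f => by
    have := minors_reindex e B₀ (f ∘ e.symm)
    simpa [Function.comp_assoc, Equiv.arrowCongr] using this]
  exact hgt_comp_equiv _ _

theorem loc_minors_none {r : Type} [Fintype r] [DecidableEq r] {n : ℕ} (B : r → D.Vec ℚ n) :
    loc (minors B) none = lsize (castFam ℝ B) := by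
  rw [loc_none, lsize, minors_castFam]; rfl

theorem loc_minors_some {r : Type} [Fintype r] [DecidableEq r] {n : ℕ} (B : r → D.Vec ℚ n)
    (p : ℕ) [hp : Fact p.Prime] :
    loc (minors B) (some ⟨p, hp.out⟩) = lsize (castFam ℚ_[p] B) := by
  rw [loc_some, lsize, minors_castFam]; rfl

/-- Bounds at the places give a bound on the sum. -/
theorem exists_total_bound {T : Type*} (F : T → Plc →₀ ℝ) (bad : Finset Nat.Primes)
    (hinf : ∃ C, ∀ t, |F t none| ≤ C) (hp : ∀ p : Nat.Primes, ∃ C, ∀ t, |F t (some p)| ≤ C)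
    (hgood : ∀ p : Nat.Primes, p ∉ bad → ∀ t, F t (some p) = 0) :
    ∃ C, ∀ t, |total (F t)| ≤ C := by
  classical
  obtain ⟨C0, h0⟩ := hinf
  choose C hC using hp
  refine ⟨∑ v ∈ insert none (bad.image some), v.elim C0 C, fun t => abs_total_le _ (fun v _ => ?_)
    fun v hv => ?_⟩
  · rcases v with - | p
    exacts [h0 t, hC p t]
  · rcases v with - | p
    · simp at hv
    · exact hgood p (by simpa using hv) t

theorem exists_total_upper {T : Type*} (F : T → Plc →₀ ℝ) (bad : Finset Nat.Primes)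
    (hinf : ∃ C, ∀ t, F t none ≤ C) (hp : ∀ p : Nat.Primes, ∃ C, ∀ t, F t (some p) ≤ C)
    (hgood : ∀ p : Nat.Primes, p ∉ bad → ∀ t, F t (some p) ≤ 0) :
    ∃ C, ∀ t, total (F t) ≤ C := by
  classical
  obtain ⟨C0, h0⟩ := hinf
  choose C hC using hp
  refine ⟨∑ v ∈ insert none (bad.image some), v.elim C0 C, fun t => total_le _ (fun v _ => ?_)
    fun v hv => ?_⟩
  · rcases v with - | p
    exacts [h0 t, hC p t]
  · rcases v with - | p
    · simp at hv
    · exact hgood p (by simpa using hv) t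

section Key

variable (I : Input D) {a b c d₁ d₂ d₃ : ℕ}

include I in
theorem exists_quad_rat (C : Conf D ℚ a b c d₁ d₂ d₃) (hbig : Big D a b c d₁ d₂ d₃) :
    ∃ q : Quad D ℚ a b c d₂ d₁ d₃, q.Fits C ∧ q.Indep ∧ LinearIndependent ℚ q.oA ∧
      LinearIndependent ℚ q.oA2 ∧ LinearIndependent ℚ q.oB ∧ LinearIndependent ℚ q.oB2 := by
  obtain ⟨ha, hb, hc, hdim⟩ := hbig
  obtain ⟨u, w, hg⟩ := I.rat.exists_good C ha hb hc (by simp)
  have bas : ∀ {n r : ℕ} {W : Submodule ℚ (D.Vec ℚ n)}, Module.finrank ℚ W = r →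
      ∃ o : Fin r → D.Vec ℚ n, LinearIndependent ℚ o ∧ Submodule.span ℚ (Set.range o) = W := by
    intro n r W hr
    refine ⟨fun i => (Module.finBasisOfFinrankEq ℚ W hr i : W),
      (Module.finBasisOfFinrankEq ℚ W hr).linearIndependent.map' W.subtype W.ker_subtype, ?_⟩
    have h := (Module.finBasisOfFinrankEq ℚ W hr).span_eq
    apply_fun Submodule.map W.subtype at h
    rw [Submodule.map_span, Submodule.map_top, Submodule.range_subtype, ← Set.range_comp] at h
    exact h
  obtain ⟨oA, iA, sA⟩ := bas C.hA'.finrank_eq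
  obtain ⟨oA2, iA2, sA2⟩ := bas C.hA2'.finrank_eq
  obtain ⟨oB, iB, sB⟩ := bas C.hB'.finrank_eq
  obtain ⟨oB2, iB2, sB2⟩ := bas C.hB2'.finrank_eq
  have := D.g_le
  obtain ⟨X, hX⟩ := exists_completion iA (d := d₃) (by rw [Datum.rk]; omega)
  set q : Quad D ℚ a b c d₂ d₁ d₃ := ⟨oA, oA2, oB, oB2, X, u, w⟩
  have hq : q.Fits C := ⟨sA, sA2, sB, sB2, hg.memu, hg.memw⟩
  exact ⟨q, hq, indep_of_good hq hX iA2 iB iB2 hg, iA, iA2, iB, iB2⟩

set_option maxHeartbeats 1000000 in
include I in
/-- **Quasi-biadditivity.** -/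
theorem exists_key (hbig : Big D a b c d₁ d₂ d₃) :
    ∃ M : ℝ, ∀ C : Conf D ℚ a b c d₁ d₂ d₃,
      |hW C.B2 + hW C.A2' + hW C.B' + hW (⊤ : Submodule ℚ (D.Vec ℚ b))
        - hW C.B2' - hW C.A2 - hW C.B - hW C.A'| ≤ M := by
  classical
  choose q hq hind iA iA2 iB iB2 using fun C : Conf D ℚ a b c d₁ d₂ d₃ => exists_quad_rat I C hbig
  set F : Conf D ℚ a b c d₁ d₂ d₃ → Plc →₀ ℝ := fun C =>
    loc (minors (q C).fB2) + loc (minors (q C).oA2) + loc (minors (q C).oB) + loc (minors (q C).fA)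
      - loc (minors (q C).oB2) - loc (minors (q C).fA2) - loc (minors (q C).fB)
      - loc (minors (q C).oA) with hF
  have hnone : ∀ C, F C none = ((q C).cast ℝ).val lsize := fun C => by
    obtain ⟨e1, e2, e3, e4⟩ := (q C).cast_fs (k := ℝ)
    simp only [hF, Finsupp.sub_apply, Finsupp.add_apply, loc_minors_none, Quad.val, e1, e2, e3, e4]
    rfl
  have hsome : ∀ (p : ℕ) [hp : Fact p.Prime] (C), F C (some ⟨p, hp.out⟩) =
      ((q C).cast ℚ_[p]).val lsize := fun p _ C => by
    obtain ⟨e1, e2, e3, e4⟩ := (q C).cast_fs (k := ℚ_[p])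
    simp only [hF, Finsupp.sub_apply, Finsupp.add_apply, loc_minors_some, Quad.val, e1, e2, e3, e4]
    rfl
  have hsmall : ((Finset.Iic d₃).filter Nat.Prime).card < (Finset.Iic d₃).card + 1 :=
    Nat.lt_succ_of_le (Finset.card_filter_le _ _)
  set low : Finset Nat.Primes := (Finset.Iic d₃).subtype Nat.Prime
  obtain ⟨M, hM⟩ := exists_total_bound F (I.bad ∪ low) (by
      obtain ⟨M, hM⟩ := exists_local_bound I.real hbig
      exact ⟨M, fun C => hnone C ▸ hM _ _ (hq C).cast (hind C).cast⟩)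
    (fun ⟨p, hp⟩ => by
      haveI := Fact.mk hp
      obtain ⟨M, hM⟩ := exists_local_bound (I.padic p) hbig
      exact ⟨M, fun C => hsome p C ▸ hM _ _ (hq C).cast (hind C).cast⟩)
    fun ⟨p, hp⟩ hnot C => by
      haveI := Fact.mk hp
      rw [Finset.mem_union, not_or] at hnot
      rw [hsome p C]
      exact local_good (I.padic p) (I.good p hnot.1) hbig
        (lt_of_not_ge fun h => hnot.2 (Finset.mem_subtype.2 (Finset.mem_Iic.2 h))) _ _ (hq C).cast (hind C).cast
  refine ⟨M, fun C => ?_⟩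
  obtain ⟨jA, jA2, jB, jB2⟩ := hind C
  obtain ⟨hg1, hg2, -⟩ := hbig.small
  have hb' := hbig.2.2.2
  have full : ∀ {n r : ℕ} {o : Fin r → D.Vec ℚ n} {Y : Fin d₃ → D.Vec ℚ n}
      {W : Submodule ℚ (D.Vec ℚ n)}, LinearIndependent ℚ (Sum.elim o Y) → (∀ i, o i ∈ W) →
      (∀ i, Y i ∈ W) → Module.finrank ℚ W = r + d₃ →
        hgt (minors (Sum.elim o Y)) = hW W := fun li ho hY hr =>
    hW_eq li (span_elim_eq li ho hY (by simpa using hr))
  have mA2' : ∀ i, (q C).oA2 i ∈ C.A2' := fun i => (hq C).spanA2 ▸ Submodule.subset_span ⟨i, rfl⟩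
  have mB' : ∀ i, (q C).oB i ∈ C.B' := fun i => (hq C).spanB ▸ Submodule.subset_span ⟨i, rfl⟩
  have mB2' : ∀ i, (q C).oB2 i ∈ C.B2' := fun i => (hq C).spanB2 ▸ Submodule.subset_span ⟨i, rfl⟩
  have gA : hgt (minors (q C).fA) = hW (⊤ : Submodule ℚ (D.Vec ℚ b)) :=
    full jA (fun _ => trivial) (fun _ => trivial)
      (by rw [finrank_top, Module.finrank_pi, Fintype.card_fin, Datum.rk]; omega)
  have gA2 : hgt (minors (q C).fA2) = hW C.A2 :=
    full jA2 (fun i => C.leA2 (mA2' i)) (fun i => C.mA2 _ (hq C).memw _)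
      (by rw [C.hA2.finrank_eq, Datum.rk, Datum.rk]; omega)
  have gB : hgt (minors (q C).fB) = hW C.B :=
    full jB (fun i => C.leB (mB' i)) (fun i => C.mB _ (hq C).memu _)
      (by rw [C.hB.finrank_eq, Datum.rk, Datum.rk]; omega)
  have gB2 : hgt (minors (q C).fB2) = hW C.B2 :=
    full jB2 (fun i => C.leB2 (mB2' i))
      (fun i => C.mB2 _ (hq C).memu _ (C.mA2 _ (hq C).memw _))
      (by rw [C.hB2.finrank_eq, Datum.rk, Datum.rk]; omega)
  rw [← gA, ← gA2, ← gB, ← gB2, ← hW_eq (iA C) (hq C).spanA, ← hW_eq (iA2 C) (hq C).spanA2,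
    ← hW_eq (iB C) (hq C).spanB, ← hW_eq (iB2 C) (hq C).spanB2]
  have h := hM C
  simp only [hF, map_sub, map_add] at h
  exact h

end Key

end FLTAgent.MW
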