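import Fermat.Agent.MW.Minors

/-!
# Heights of rational vectors from their local sup norms
-/

set_option autoImplicit false
set_option linter.unusedSectionVars false

noncomputable section

namespace FLTAgent.MW

open Real

variable {ι : Type*} [Fintype ι]

/-- The places of `ℚ`: `none` is the archimedean one. -/
abbrev Plc : Type := Option Nat.Primes

/-- The logarithm of the sup norm at a place. -/
def locNorm (x : ι → ℚ) : Plc → ℝ
  | none => log ‖fun i => ((x i : ℚ) : ℝ)‖
  | some p =>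
      haveI := Fact.mk p.2
      log ‖fun i => ((x i : ℚ) : ℚ_[(p : ℕ)])‖

theorem norm_cast_padic {p : ℕ} [Fact p.Prime] (q : ℚ) :
    ‖((q : ℚ) : ℚ_[p])‖ = ((padicNorm p q : ℚ) : ℝ) := Padic.eq_padicNorm q

theorem padic_norm_rat_eq_one {p : ℕ} [Fact p.Prime] {q : ℚ} (hq : q ≠ 0)
    (h : ¬ p ∣ q.num.natAbs * q.den) : ‖((q : ℚ) : ℚ_[p])‖ = 1 := by
  have hp : p.Prime := Fact.out
  rw [norm_cast_padic]
  conv_lhs => rw [← Rat.num_div_den q]
  rw [padicNorm.div, (padicNorm.int_eq_one_iff _).2 fun hd => h (dvd_mul_of_dvd_left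
    (Int.natCast_dvd.1 hd) _), show ((q.den : ℕ) : ℚ) = ((q.den : ℤ) : ℚ) by norm_num,
    (padicNorm.int_eq_one_iff _).2 fun hd => h (dvd_mul_of_dvd_right
      (Int.natCast_dvd_natCast.1 hd) _)]
  norm_num

theorem norm_eq_one_of_forall {k : Type*} [NormedField k] {x : ι → k}
    (h : ∀ i, ‖x i‖ ≤ 1) (h1 : ∃ i, ‖x i‖ = 1) : ‖x‖ = 1 := by
  obtain ⟨i, hi⟩ := h1
  exact le_antisymm ((pi_norm_le_iff_of_nonneg zero_le_one).2 h) (hi ▸ norm_le_pi_norm x i)

theorem finite_locNorm (x : ι → ℚ) : (Function.support (locNorm x)).Finite := by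
  classical
  rcases eq_or_ne x 0 with rfl | hx
  · refine Set.finite_empty.subset fun v hv => hv ?_
    rcases v with - | p
    · simp [locNorm, Pi.norm_def]
    · simp [locNorm, Pi.norm_def]
  set D : ℕ := ∏ i ∈ Finset.univ.filter (fun i => x i ≠ 0), (x i).num.natAbs * (x i).den
  have hD : D ≠ 0 := Finset.prod_ne_zero_iff.2 fun i hi => by
    simp [(Finset.mem_filter.1 hi).2]
  have hfin : {p : Nat.Primes | (p : ℕ) ∣ D}.Finite :=
    Set.Finite.of_finite_image ((Set.finite_Iic D).subset (by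
      rintro _ ⟨p, hp, rfl⟩
      exact Nat.le_of_dvd (Nat.pos_of_ne_zero hD) hp)) Nat.Primes.coe_nat_injective.injOn
  refine ((hfin.image some).insert none).subset fun v hv => ?_
  rcases v with - | p
  · exact Set.mem_insert _ _
  refine Set.mem_insert_of_mem _ ⟨p, by_contra fun hp => hv ?_, rfl⟩
  haveI := Fact.mk p.2
  show log _ = 0
  rw [norm_eq_one_of_forall]
  · exact log_one
  · intro i
    rcases eq_or_ne (x i) 0 with h | h
    · simp [h]
    · exact (padic_norm_rat_eq_one h fun hd => hp (hd.trans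
        (Finset.dvd_prod_of_mem (fun i => (x i).num.natAbs * (x i).den) (by simp [h])))).le
  · obtain ⟨i, hi⟩ := Function.ne_iff.1 hx
    exact ⟨i, padic_norm_rat_eq_one hi fun hd => hp (hd.trans
      (Finset.dvd_prod_of_mem (fun i => (x i).num.natAbs * (x i).den) (by simpa using hi)))⟩

theorem norm_intCast_padic_le {p : ℕ} [Fact p.Prime] (m : ℤ) : ‖(m : ℚ_[p])‖ ≤ 1 := by
  rw [← PadicInt.norm_intCast_eq_padic_norm]
  exact PadicInt.norm_le_one _

/-- The local sup norms of a vector. -/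
def loc (x : ι → ℚ) : Plc →₀ ℝ := Finsupp.ofSupportFinite (locNorm x) (finite_locNorm x)

theorem loc_apply (x : ι → ℚ) (v : Plc) : loc x v = locNorm x v := rfl

theorem loc_none (x : ι → ℚ) : loc x none = log ‖fun i => ((x i : ℚ) : ℝ)‖ := rfl

theorem loc_some (x : ι → ℚ) (p : ℕ) [hp : Fact p.Prime] :
    loc x (some ⟨p, hp.out⟩) = log ‖fun i => ((x i : ℚ) : ℚ_[p])‖ := rfl

/-- The sum over all places. -/
def total : (Plc →₀ ℝ) →+ ℝ := Finsupp.liftAddHom fun _ => AddMonoidHom.id ℝ

theorem total_eq_sum {f : Plc →₀ ℝ} {s : Finset Plc} (hs : f.support ⊆ s) :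
    total f = ∑ v ∈ s, f v := by
  rw [total, Finsupp.liftAddHom_apply, Finsupp.sum_of_support_subset f hs _ fun _ _ => by simp]
  simp

theorem abs_total_le {f : Plc →₀ ℝ} {s : Finset Plc} (C : Plc → ℝ)
    (h : ∀ v ∈ s, |f v| ≤ C v) (h0 : ∀ v ∉ s, f v = 0) : |total f| ≤ ∑ v ∈ s, C v := by
  rw [total_eq_sum (s := s) fun v hv => by_contra fun h' => Finsupp.mem_support_iff.1 hv (h0 v h')]
  exact (Finset.abs_sum_le_sum_abs _ _).trans (Finset.sum_le_sum h)

theorem total_le {f : Plc →₀ ℝ} {s : Finset Plc} (C : Plc → ℝ)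
    (h : ∀ v ∈ s, f v ≤ C v) (h0 : ∀ v ∉ s, f v ≤ 0) : total f ≤ ∑ v ∈ s, C v := by
  classical
  rw [total_eq_sum (s := s ∪ f.support) Finset.subset_union_right,
    ← Finset.sum_sdiff (Finset.subset_union_left (s₁ := s) (s₂ := f.support))]
  have h1 : ∑ v ∈ (s ∪ f.support) \ s, f v ≤ 0 :=
    Finset.sum_nonpos fun v hv => h0 v (Finset.mem_sdiff.1 hv).2
  have h2 := Finset.sum_le_sum h
  linarith

/-- The logarithmic height. -/
def hgt (x : ι → ℚ) : ℝ := total (loc x)

/-- The logarithms of the absolute values of a number. -/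
def locC (c : ℚ) : Plc →₀ ℝ := loc (fun _ : Unit => c)

theorem loc_smul {c : ℚ} (hc : c ≠ 0) {x : ι → ℚ} (hx : x ≠ 0) :
    loc (c • x) = locC c + loc x := by
  have key : ∀ {k : Type} [NormedField k] [CharZero k],
      log ‖fun i => (((c • x) i : ℚ) : k)‖ =
        log ‖fun _ : Unit => (c : k)‖ + log ‖fun i => ((x i : ℚ) : k)‖ := by
    intro k _ _
    have h1 : (fun i => (((c • x) i : ℚ) : k)) = (c : k) • fun i => ((x i : ℚ) : k) :=
      funext fun i => by simp
    have hc' : (c : k) ≠ 0 := Rat.cast_ne_zero.2 hc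
    obtain ⟨i, hi⟩ := Function.ne_iff.1 hx
    have hx' : (fun i => ((x i : ℚ) : k)) ≠ 0 := fun h0 => hi (by
      simpa using congrFun h0 i)
    rw [h1, norm_smul, log_mul (norm_ne_zero_iff.2 hc') (norm_ne_zero_iff.2 hx')]
    simp [Pi.norm_def]
  refine Finsupp.ext fun v => ?_
  rw [Finsupp.add_apply]
  rcases v with - | ⟨p, hp⟩
  · exact key (k := ℝ)
  · haveI := Fact.mk hp
    exact key (k := ℚ_[p])

theorem locC_mul {a b : ℚ} (ha : a ≠ 0) (hb : b ≠ 0) : locC (a * b) = locC a + locC b :=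
  loc_smul (ι := Unit) ha (x := fun _ => b) (fun h => hb (congrFun h ()))

theorem total_locC_nat {n : ℕ} (hn : n ≠ 0) : total (locC n) = 0 := by
  revert hn
  induction n using Nat.recOnMul with
  | zero => simp
  | one =>
      intro _
      have h := congrArg total (locC_mul (a := 1) (b := 1) one_ne_zero one_ne_zero)
      rw [mul_one, map_add] at h
      simpa using h
  | prime q hq =>
      intro _
      haveI := Fact.mk hq
      classical
      rw [total_eq_sum (s := {none, some ⟨q, hq⟩})]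
      · rw [Finset.sum_insert (by simp), Finset.sum_singleton]
        show log _ + log _ = 0
        rw [pi_norm_const, pi_norm_const]
        simp [log_inv]
      · intro v hv
        rcases v with - | ⟨p, hp⟩
        · simp
        · by_contra hne
          refine Finsupp.mem_support_iff.1 hv ?_
          haveI := Fact.mk hp
          show log _ = 0
          rw [pi_norm_const, padic_norm_rat_eq_one (Nat.cast_ne_zero.2 hq.ne_zero), log_one]
          simp only [Rat.num_natCast, Int.natAbs_natCast, Rat.den_natCast, mul_one]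
          intro hd
          exact hne (by simp [(Nat.prime_dvd_prime_iff_eq hp hq).1 hd])
  | mul a b iha ihb =>
      intro hab
      obtain ⟨ha, hb⟩ := Nat.mul_ne_zero_iff.1 hab
      rw [Nat.cast_mul, locC_mul (Nat.cast_ne_zero.2 ha) (Nat.cast_ne_zero.2 hb), map_add, iha ha,
        ihb hb, add_zero]

/-- **Product formula.** -/
theorem total_locC {c : ℚ} (hc : c ≠ 0) : total (locC c) = 0 := by
  have hneg : ∀ a : ℚ, locC (-a) = locC a := fun a => Finsupp.ext fun v => by
    rcases v with - | ⟨p, hp⟩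
    · show log _ = log _
      simp [Pi.norm_def]
    · haveI := Fact.mk hp
      show log _ = log _
      simp [Pi.norm_def]
  have hden : ((c.den : ℕ) : ℚ) ≠ 0 := Nat.cast_ne_zero.2 c.den_nz
  have hn : c.num.natAbs ≠ 0 := Int.natAbs_ne_zero.2 (Rat.num_ne_zero.2 hc)
  have hmul : locC (c * c.den) = locC ((c.num.natAbs : ℕ) : ℚ) := by
    rw [Rat.mul_den_eq_num]
    rcases Int.natAbs_eq c.num with h | h
    · conv_lhs => rw [h]
      norm_num
    · conv_lhs => rw [h, Int.cast_neg, hneg]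
      norm_num
  have h := congrArg total (locC_mul hc hden)
  rw [hmul, map_add, total_locC_nat hn, total_locC_nat c.den_nz, add_zero] at h
  exact h.symm

theorem hgt_smul {c : ℚ} (hc : c ≠ 0) (x : ι → ℚ) : hgt (c • x) = hgt x := by
  rcases eq_or_ne x 0 with rfl | hx
  · rw [smul_zero]
  · rw [hgt, hgt, loc_smul hc hx, map_add, total_locC hc, zero_add]

/-- Every nonzero vector is proportional to a primitive integral one. -/
theorem exists_primitive_vec {x : ι → ℚ} (hx : x ≠ 0) :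
    ∃ (z : ι → ℤ) (c : ℚ), c ≠ 0 ∧ x = c • (fun i => (z i : ℚ)) ∧
      hgt x = log ‖fun i => (z i : ℝ)‖ ∧ ∃ i, z i ≠ 0 := by
  classical
  set D : ℕ := ∏ i, (x i).den
  have hD : D ≠ 0 := Finset.prod_ne_zero_iff.2 fun i _ => (x i).den_nz
  have hint : ∀ i, ∃ m : ℤ, (D : ℚ) * x i = m := fun i => by
    obtain ⟨e, he⟩ : (x i).den ∣ D := Finset.dvd_prod_of_mem (fun i => (x i).den) (Finset.mem_univ i)
    refine ⟨(x i).num * e, ?_⟩
    rw [he, Nat.cast_mul, mul_right_comm, Rat.den_mul_eq_num]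
    push_cast; ring
  choose w hw using hint
  obtain ⟨i₀, hi₀⟩ := Function.ne_iff.1 hx
  obtain ⟨z, hz, hgcd⟩ := Finset.extract_gcd (s := Finset.univ) w ⟨i₀, Finset.mem_univ _⟩
  set G : ℤ := Finset.univ.gcd w
  have hw0 : w i₀ ≠ 0 := fun h0 => hi₀ (by
    have := hw i₀
    rw [h0, Int.cast_zero, mul_eq_zero, Nat.cast_eq_zero] at this
    exact this.resolve_left hD)
  have hG : G ≠ 0 := fun h0 => hw0 (by rw [hz i₀ (Finset.mem_univ _), h0, zero_mul])
  have hc : (G : ℚ) / D ≠ 0 := div_ne_zero (Int.cast_ne_zero.2 hG) (Nat.cast_ne_zero.2 hD)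
  have hxz : x = ((G : ℚ) / D) • fun i => (z i : ℚ) := funext fun i => by
    rw [Pi.smul_apply, smul_eq_mul, div_mul_eq_mul_div, eq_div_iff (Nat.cast_ne_zero.2 hD),
      mul_comm, hw i, hz i (Finset.mem_univ _), Int.cast_mul]
  have hz0 : ∃ i, z i ≠ 0 := ⟨i₀, fun h0 => hw0 (by rw [hz i₀ (Finset.mem_univ _), h0, mul_zero])⟩
  refine ⟨z, _, hc, hxz, ?_, hz0⟩
  conv_lhs => rw [hxz, hgt_smul hc]
  rw [hgt, total_eq_sum (s := {none}), Finset.sum_singleton]
  · show log _ = _
    simp
  · intro v hv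
    rcases v with - | ⟨p, hp⟩
    · simp
    · exfalso
      refine Finsupp.mem_support_iff.1 hv ?_
      haveI := Fact.mk hp
      show log _ = 0
      rw [norm_eq_one_of_forall, log_one]
      · intro i; simpa using norm_intCast_padic_le (z i)
      · by_contra hne
        push Not at hne
        have hdvd : (p : ℤ) ∣ Finset.univ.gcd z := Finset.dvd_gcd fun i _ => by
          rw [← Padic.norm_intCast_lt_one_iff]
          refine lt_of_le_of_ne (norm_intCast_padic_le (z i)) ?_
          simpa using hne i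
        rw [hgcd] at hdvd
        exact hp.not_dvd_one (by exact_mod_cast hdvd)

theorem one_le_norm_int {z : ι → ℤ} (h : ∃ i, z i ≠ 0) : 1 ≤ ‖fun i => (z i : ℝ)‖ := by
  obtain ⟨i, hi⟩ := h
  refine le_trans ?_ (norm_le_pi_norm _ i)
  rw [Real.norm_eq_abs, ← Int.cast_abs]
  exact_mod_cast Int.one_le_abs hi

theorem hgt_nonneg (x : ι → ℚ) : 0 ≤ hgt x := by
  rcases eq_or_ne x 0 with rfl | hx
  · have : loc (0 : ι → ℚ) = 0 := Finsupp.ext fun v => by
      rcases v with - | p
      · simp [loc_apply, locNorm, Pi.norm_def]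
      · simp [loc_apply, locNorm, Pi.norm_def]
    rw [hgt, this, map_zero]
  · obtain ⟨z, c, -, -, h, hz⟩ := exists_primitive_vec hx
    rw [h]
    exact log_nonneg (one_le_norm_int hz)

/-- **Northcott.** Finitely many lines have bounded height. -/
theorem finite_lines (B : ℝ) :
    ∃ S : Finset (ι → ℚ), ∀ x : ι → ℚ, x ≠ 0 → hgt x ≤ B →
      ∃ y ∈ S, ∃ c : ℚ, c ≠ 0 ∧ x = c • y := by
  classical
  set M : ℤ := ⌈exp B⌉
  refine ⟨(Fintype.piFinset fun _ : ι => Finset.Icc (-M) M).image fun z i => (z i : ℚ),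
    fun x hx hB => ?_⟩
  obtain ⟨z, c, hc, hxz, h, hz⟩ := exists_primitive_vec hx
  refine ⟨_, Finset.mem_image.2 ⟨z, ?_, rfl⟩, c, hc, hxz⟩
  rw [Fintype.mem_piFinset]
  intro i
  have h1 : |(z i : ℝ)| ≤ exp B := by
    refine (norm_le_pi_norm (fun i => (z i : ℝ)) i).trans ?_
    rw [← exp_log (zero_lt_one.trans_le (one_le_norm_int hz)), ← h]
    exact exp_le_exp.2 hB
  have h2 : |z i| ≤ M := by
    have : ((|z i| : ℤ) : ℝ) ≤ (M : ℝ) := by
      rw [Int.cast_abs]; exact h1.trans (Int.le_ceil _)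
    exact_mod_cast this
  exact Finset.mem_Icc.2 (abs_le.1 h2)

end FLTAgent.MW
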