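import Fermat.Agent.MW.Frames
import Fermat.Agent.MW.Height

/-!
# Unit frames, compactness and reduction at one place
-/

set_option autoImplicit false
set_option linter.unusedSectionVars false
set_option linter.style.haveILetI false

noncomputable section

namespace FLTAgent.MW

open Filter Topology

variable {D : Datum}

section Algebra

variable {k : Type} [Field k] {a b c d₁ d₂ d₃ : ℕ}

/-- Membership in the span as vanishing of minors. -/
def Mem {r ι : Type} [Fintype r] [DecidableEq r] (o : r → ι → k) (x : ι → k) : Prop :=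
  minors (Sum.elim o fun _ : Unit => x) = 0

/-- The coordinate vectors. -/
def std (n : ℕ) : Fin (D.dim n) → D.Vec k n := fun j => Pi.single j 1

/-- Products of two families lie in a third. -/
def MulRel {p q n r s t : ℕ} (oP : Fin r → D.Vec k p) (oQ : Fin s → D.Vec k q)
    (oT : Fin t → D.Vec k n) : Prop :=
  ∀ i j, Mem oT (D.mul p q n (oP i) (oQ j))

/-- One family lies in another. -/
def LeRel {n r t : ℕ} (oP : Fin r → D.Vec k n) (oT : Fin t → D.Vec k n) : Prop :=
  ∀ i, Mem oT (oP i)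

variable (D k) in
/-- A frame of sections with the frame of its companion. -/
abbrev Sect (n d : ℕ) : Type :=
  (Fin (D.rk n d) → D.Vec k n) × (Fin (D.rk (n + (n + D.n₀)) d) → D.Vec k (n + (n + D.n₀)))

/-- The conditions on a frame of sections. -/
def SectOk {n d : ℕ} (s : Sect D k n d) : Prop :=
  LinearIndependent k s.1 ∧ LinearIndependent k s.2 ∧ MulRel s.1 (std (n + D.n₀)) s.2

variable (D k) in
/-- Frames for a configuration. -/
abbrev Raw (a b c d₁ d₂ d₃ : ℕ) : Type :=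
  Sect D k a d₁ × Sect D k c d₂ × Sect D k b d₃ × Sect D k (b + c) d₂ ×
    Sect D k (b + c) (d₂ + d₃) × Sect D k (a + b) d₁ × Sect D k (a + b) (d₁ + d₃) ×
      Sect D k (a + b + c) (d₁ + d₂) × Sect D k (a + b + c) (d₁ + d₂ + d₃)

namespace Raw

variable (P : Raw D k a b c d₁ d₂ d₃)

abbrev W1 := P.1
abbrev Wc := P.2.1
abbrev A' := P.2.2.1
abbrev A2 := P.2.2.2.1
abbrev A2' := P.2.2.2.2.1
abbrev B := P.2.2.2.2.2.1
abbrev B' := P.2.2.2.2.2.2.1
abbrev B2 := P.2.2.2.2.2.2.2.1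
abbrev B2' := P.2.2.2.2.2.2.2.2

/-- The conditions of a configuration. -/
structure Ok : Prop where
  sW1 : SectOk P.W1
  sWc : SectOk P.Wc
  sA' : SectOk P.A'
  sA2 : SectOk P.A2
  sA2' : SectOk P.A2'
  sB : SectOk P.B
  sB' : SectOk P.B'
  sB2 : SectOk P.B2
  sB2' : SectOk P.B2'
  rB : MulRel P.W1.1 (std b) P.B.1
  rB' : MulRel P.W1.1 P.A'.1 P.B'.1
  rA2 : MulRel P.Wc.1 (std b) P.A2.1
  rA2' : MulRel P.Wc.1 P.A'.1 P.A2'.1
  rB2 : MulRel P.W1.1 P.A2.1 P.B2.1
  rB2' : MulRel P.W1.1 P.A2'.1 P.B2'.1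
  rwB2' : MulRel P.Wc.1 P.B'.1 P.B2'.1
  lB : LeRel P.B'.1 P.B.1
  lA2 : LeRel P.A2'.1 P.A2.1
  lB2 : LeRel P.B2'.1 P.B2.1

end Raw

theorem mem_span_of_mem {n r : ℕ} {o : Fin r → D.Vec k n} (ho : LinearIndependent k o)
    {x : D.Vec k n} (h : Mem o x) : x ∈ Submodule.span k (Set.range o) :=
  (mem_span_iff_minors ho).2 h

theorem mem_of_mem_span {n r : ℕ} {o : Fin r → D.Vec k n} (ho : LinearIndependent k o)
    {x : D.Vec k n} (h : x ∈ Submodule.span k (Set.range o)) : Mem o x :=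
  (mem_span_iff_minors ho).1 h

theorem MulRel.mem {p q n r s t : ℕ} {oP : Fin r → D.Vec k p} {oQ : Fin s → D.Vec k q}
    {oT : Fin t → D.Vec k n} (h : MulRel oP oQ oT) (hT : LinearIndependent k oT) {x : D.Vec k p}
    (hx : x ∈ Submodule.span k (Set.range oP)) {y : D.Vec k q}
    (hy : y ∈ Submodule.span k (Set.range oQ)) :
    D.mul p q n x y ∈ Submodule.span k (Set.range oT) := by
  induction hx using Submodule.span_induction with
  | mem x hx =>
      obtain ⟨i, rfl⟩ := hx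
      induction hy using Submodule.span_induction with
      | mem y hy => obtain ⟨j, rfl⟩ := hy; exact mem_span_of_mem hT (h i j)
      | zero => rw [map_zero]; exact Submodule.zero_mem _
      | add y z _ _ hy hz => rw [map_add]; exact add_mem hy hz
      | smul r y _ hy => rw [map_smul]; exact Submodule.smul_mem _ _ hy
  | zero => rw [map_zero, LinearMap.zero_apply]; exact Submodule.zero_mem _
  | add x z _ _ hx hz => rw [map_add, LinearMap.add_apply]; exact add_mem hx hz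
  | smul r x _ hx => rw [map_smul, LinearMap.smul_apply]; exact Submodule.smul_mem _ _ hx

theorem span_std (n : ℕ) : Submodule.span k (Set.range (std (D := D) (k := k) n)) = ⊤ := by
  have : (std (D := D) (k := k) n) = Pi.basisFun k (Fin (D.dim n)) := by
    funext j; simp [std, Pi.basisFun_apply]
  rw [this, Module.Basis.span_eq]

theorem mem_span_std (n : ℕ) (x : D.Vec k n) :
    x ∈ Submodule.span k (Set.range (std (D := D) (k := k) n)) := by
  rw [span_std]; exact Submodule.mem_top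

theorem LeRel.le {n r t : ℕ} {oP : Fin r → D.Vec k n} {oT : Fin t → D.Vec k n}
    (h : LeRel oP oT) (hT : LinearIndependent k oT) :
    Submodule.span k (Set.range oP) ≤ Submodule.span k (Set.range oT) :=
  Submodule.span_le.2 fun _ ⟨i, hi⟩ => hi ▸ mem_span_of_mem hT (h i)

theorem SectOk.isSec {n d : ℕ} {s : Sect D k n d} (h : SectOk s) (hn : d + D.g ≤ n + 1) :
    IsSec D n d (Submodule.span k (Set.range s.1)) := by
  refine ⟨?_, Submodule.span k (Set.range s.2), ?_, fun x hx y =>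
    h.2.2.mem h.2.1 hx (mem_span_std _ y)⟩
  · rw [finrank_span_eq_card h.1, Fintype.card_fin, Datum.rk]; omega
  · rw [finrank_span_eq_card h.2.1, Fintype.card_fin, Datum.rk]; omega

variable {P : Raw D k a b c d₁ d₂ d₃}

/-- The configuration of good frames. -/
def Raw.Ok.conf (h : P.Ok) (hn : D.g + d₁ + d₂ + d₃ ≤ a ∧ D.g + d₁ + d₂ + d₃ ≤ b ∧
    D.g + d₁ + d₂ + d₃ ≤ c) : Conf D k a b c d₁ d₂ d₃ where
  W1 := Submodule.span k (Set.range P.W1.1)
  Wc := Submodule.span k (Set.range P.Wc.1)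
  A' := Submodule.span k (Set.range P.A'.1)
  A2 := Submodule.span k (Set.range P.A2.1)
  A2' := Submodule.span k (Set.range P.A2'.1)
  B := Submodule.span k (Set.range P.B.1)
  B' := Submodule.span k (Set.range P.B'.1)
  B2 := Submodule.span k (Set.range P.B2.1)
  B2' := Submodule.span k (Set.range P.B2'.1)
  hW1 := h.sW1.isSec (by omega)
  hWc := h.sWc.isSec (by omega)
  hA' := h.sA'.isSec (by omega)
  hA2 := h.sA2.isSec (by omega)
  hA2' := h.sA2'.isSec (by omega)
  hB := h.sB.isSec (by omega)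
  hB' := h.sB'.isSec (by omega)
  hB2 := h.sB2.isSec (by omega)
  hB2' := h.sB2'.isSec (by omega)
  mB := fun _ hu x => h.rB.mem h.sB.1 hu (mem_span_std _ x)
  mB' := fun _ hu _ hx => h.rB'.mem h.sB'.1 hu hx
  mA2 := fun _ hu x => h.rA2.mem h.sA2.1 hu (mem_span_std _ x)
  mA2' := fun _ hu _ hx => h.rA2'.mem h.sA2'.1 hu hx
  mB2 := fun _ hu _ hx => h.rB2.mem h.sB2.1 hu hx
  mB2' := fun _ hu _ hx => h.rB2'.mem h.sB2'.1 hu hx
  mwB2' := fun _ hu _ hx => h.rwB2'.mem h.sB2'.1 hu hx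
  leB := h.lB.le h.sB.1
  leA2 := h.lA2.le h.sA2.1
  leB2 := h.lB2.le h.sB2.1

/-- The frames used for the ratio, with given coefficients of the multipliers. -/
def Raw.quad (P : Raw D k a b c d₁ d₂ d₃) (cu : Fin (D.rk a d₁) → k) (cw : Fin (D.rk c d₂) → k)
    (X : Fin d₃ → D.Vec k b) : Quad D k a b c d₂ d₁ d₃ :=
  ⟨P.A'.1, P.A2'.1, P.B'.1, P.B2'.1, X, ∑ i, cu i • P.W1.1 i, ∑ i, cw i • P.Wc.1 i⟩

theorem indep_of_good {C : Conf D k a b c d₁ d₂ d₃} {q : Quad D k a b c d₂ d₁ d₃} (hq : q.Fits C)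
    (hA : LinearIndependent k q.fA) (hA2 : LinearIndependent k q.oA2)
    (hB : LinearIndependent k q.oB) (hB2 : LinearIndependent k q.oB2)
    (hg : C.Good q.u q.w) : q.Indep := by
  have hX : ∀ cX : Fin d₃ → k, (∑ i, cX i • q.X i) ∈ C.A' → cX = 0 := by
    intro cX h
    rw [← hq.spanA, Submodule.mem_span_range_iff_exists_fun] at h
    obtain ⟨e, he⟩ := h
    funext i
    simpa using Fintype.linearIndependent_iff.1 hA (Sum.elim (-e) cX) (by
      simp [Quad.fA, Fintype.sum_sum_type, neg_smul, he]) (Sum.inr i)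
  have main : ∀ {n r : ℕ} {o : Fin r → D.Vec k n} {W : Submodule k (D.Vec k n)}
      {Y : Fin d₃ → D.Vec k n}, LinearIndependent k o → Submodule.span k (Set.range o) = W →
      (∀ cX : Fin d₃ → k, (∑ i, cX i • Y i) ∈ W → cX = 0) →
        LinearIndependent k (Sum.elim o Y) := by
    intro n r o W Y ho hW hY
    rw [Fintype.linearIndependent_iff]
    intro e he
    simp only [Fintype.sum_sum_type, Sum.elim_inl, Sum.elim_inr] at he
    have h1 : (fun i => e (Sum.inr i)) = 0 := hY _ (by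
      rw [eq_neg_of_add_eq_zero_right he, ← hW]
      exact neg_mem (Submodule.sum_mem _ fun i _ =>
        Submodule.smul_mem _ _ (Submodule.subset_span ⟨i, rfl⟩)))
    have h2 := fun i => congrFun h1 i
    rintro (i | i)
    · refine Fintype.linearIndependent_iff.1 ho (fun i => e (Sum.inl i)) ?_ i
      simpa [fun i => (h2 i : e (Sum.inr i) = 0)] using he
    · exact h2 i
  refine ⟨hA, main hA2 hq.spanA2 fun cX h => hX cX (hg.injw _ ?_),
    main hB hq.spanB fun cX h => hX cX (hg.injA _ ?_),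
    main hB2 hq.spanB2 fun cX h => hX cX (hg.injw _ (hg.injA2 _ ?_ ?_))⟩
  · simpa [map_sum] using h
  · simpa [map_sum] using h
  · exact C.mA2 _ hg.memw _
  · simpa [map_sum] using h

theorem exists_completion {n r : ℕ} {o : Fin r → D.Vec k n} (ho : LinearIndependent k o) {d : ℕ}
    (hd : r + d = D.dim n) : ∃ X : Fin d → D.Vec k n, LinearIndependent k (Sum.elim o X) := by
  obtain ⟨S, hS⟩ := Submodule.exists_isCompl (Submodule.span k (Set.range o))
  have hd' : Module.finrank k S = d := by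
    have h1 := Submodule.finrank_add_eq_of_isCompl hS
    rw [finrank_span_eq_card ho, Fintype.card_fin, Module.finrank_pi, Fintype.card_fin] at h1
    omega
  let e := Module.finBasisOfFinrankEq k S hd'
  refine ⟨fun i => (e i : D.Vec k n), LinearIndependent.sum_type ho
    (e.linearIndependent.map' S.subtype S.ker_subtype) (hS.disjoint.mono le_rfl ?_)⟩
  exact Submodule.span_le.2 fun _ ⟨i, hi⟩ => hi ▸ (e i).2

end Algebra

section Normed

variable {k : Type} [NormedField k] {a b c d₁ d₂ d₃ : ℕ}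

/-- The size of a family. -/
def lsize {r : Type} [Fintype r] [DecidableEq r] {ι : Type} [Fintype ι] [DecidableEq ι]
    (B : r → ι → k) : ℝ := Real.log ‖minors B‖

theorem isSize_lsize : IsSize (k := k) lsize fun δ => Real.log ‖δ‖ where
  scale := fun B B' δ hδ hB h => by
    rw [lsize, lsize, h, norm_smul,
      Real.log_mul (norm_ne_zero_iff.2 hδ) (norm_ne_zero_iff.2 (minors_ne_zero_iff.2 hB))]
  chi_mul := fun x y hx hy => by
    rw [norm_mul, Real.log_mul (norm_ne_zero_iff.2 hx) (norm_ne_zero_iff.2 hy)]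

/-- Entries at most one and size exactly one. -/
def UnitFrame {r ι : Type} [Fintype r] [DecidableEq r] [Fintype ι] [DecidableEq ι]
    (B : r → ι → k) : Prop := ‖B‖ ≤ 1 ∧ ‖minors B‖ = 1

theorem UnitFrame.li {r ι : Type} [Fintype r] [DecidableEq r] [Fintype ι] [DecidableEq ι]
    {B : r → ι → k} (h : UnitFrame B) : LinearIndependent k B :=
  minors_ne_zero_iff.1 fun h0 => by simpa [h0] using h.2

/-- Every subspace has a unit frame with an identity minor. -/
theorem exists_idFrame {n r : ℕ} {W : Submodule k (D.Vec k n)} (hr : Module.finrank k W = r) :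
    ∃ (o : Fin r → D.Vec k n) (f : Fin r → Fin (D.dim n)), UnitFrame o ∧
      Submodule.span k (Set.range o) = W ∧ ∀ i j, o i (f j) = if i = j then 1 else 0 := by
  classical
  set B : Fin r → D.Vec k n := fun i => (Module.finBasisOfFinrankEq k W hr i : W)
  have hB : LinearIndependent k B :=
    (Module.finBasisOfFinrankEq k W hr).linearIndependent.map' W.subtype W.ker_subtype
  obtain ⟨f₀, hf₀⟩ := exists_minor_ne_zero hB
  obtain ⟨f, -, hf⟩ := Finset.exists_max_image Finset.univ (fun f => ‖minors B f‖)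
    ⟨f₀, Finset.mem_univ _⟩
  have hf0 : minors B f ≠ 0 := fun h => hf₀ (norm_le_zero_iff.1 (by
    simpa [h] using hf f₀ (Finset.mem_univ _)))
  obtain ⟨M, hM, hid, hent⟩ := exists_normalised hf0
  set o : Fin r → D.Vec k n := fun i => ∑ l, M i l • B l
  have hm : minors o = (minors B f)⁻¹ • minors B := by
    rw [← hM]; exact minors_mul M B
  have hle : ∀ g, ‖minors o g‖ ≤ 1 := fun g => by
    rw [hm, Pi.smul_apply, smul_eq_mul, norm_mul, norm_inv,
      inv_mul_le_iff₀ (norm_pos_iff.2 hf0), mul_one]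
    exact hf g (Finset.mem_univ _)
  refine ⟨o, f, ⟨?_, ?_⟩, ?_, hid⟩
  · refine (pi_norm_le_iff_of_nonneg zero_le_one).2 fun i =>
      (pi_norm_le_iff_of_nonneg zero_le_one).2 fun x => ?_
    show ‖(∑ l, M i l • B l) x‖ ≤ 1
    rw [hent i x, norm_mul, norm_inv, ← div_eq_mul_inv, div_le_one (norm_pos_iff.2 hf0)]
    exact hf _ (Finset.mem_univ _)
  · exact norm_eq_one_of_forall hle ⟨f, by
      rw [hm, Pi.smul_apply, smul_eq_mul, inv_mul_cancel₀ hf0, norm_one]⟩
  · have hmem : ∀ i, o i ∈ W := fun i => Submodule.sum_mem _ fun l _ =>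
      Submodule.smul_mem _ _ (Module.finBasisOfFinrankEq k W hr l).2
    refine Submodule.eq_of_le_of_finrank_le (Submodule.span_le.2 fun _ ⟨i, hi⟩ => hi ▸ hmem i) ?_
    rw [hr, finrank_span_eq_card (linearIndependent_of_minor (f := f) (by
      rw [hm, Pi.smul_apply, smul_eq_mul, inv_mul_cancel₀ hf0]; exact one_ne_zero)),
      Fintype.card_fin]

/-- Every subspace has a unit frame. -/
theorem exists_unitFrame {n r : ℕ} {W : Submodule k (D.Vec k n)} (hr : Module.finrank k W = r) :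
    ∃ o : Fin r → D.Vec k n, UnitFrame o ∧ Submodule.span k (Set.range o) = W :=
  let ⟨o, _, h1, h2, _⟩ := exists_idFrame hr
  ⟨o, h1, h2⟩

/-- Unit frames of a sections space and its companion. -/
theorem exists_unitSect {n d : ℕ} {W : Submodule k (D.Vec k n)} (h : IsSec D n d W) :
    ∃ s : Sect D k n d, SectOk s ∧ UnitFrame s.1 ∧ UnitFrame s.2 ∧
      Submodule.span k (Set.range s.1) = W := by
  obtain ⟨hdim, W', hdim', hmul⟩ := id h
  obtain ⟨o, ho, hoW⟩ := exists_unitFrame (W := W) (r := D.rk n d) h.finrank_eq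
  obtain ⟨o', ho', hoW'⟩ := exists_unitFrame (W := W') (r := D.rk (n + (n + D.n₀)) d)
    (by rw [Datum.rk]; omega)
  exact ⟨⟨o, o'⟩, ⟨ho.li, ho'.li, fun i j => mem_of_mem_span ho'.li (hoW' ▸ hmul _
    (hoW ▸ Submodule.subset_span ⟨i, rfl⟩) _)⟩, ho, ho', hoW⟩

/-- Both frames are unit. -/
def UnitSect {n d : ℕ} (s : Sect D k n d) : Prop := UnitFrame s.1 ∧ UnitFrame s.2

/-- All frames are unit. -/
structure Raw.Unit (P : Raw D k a b c d₁ d₂ d₃) : Prop where
  uW1 : UnitSect P.W1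
  uWc : UnitSect P.Wc
  uA' : UnitSect P.A'
  uA2 : UnitSect P.A2
  uA2' : UnitSect P.A2'
  uB : UnitSect P.B
  uB' : UnitSect P.B'
  uB2 : UnitSect P.B2
  uB2' : UnitSect P.B2'

/-- The frames belong to a configuration. -/
def Raw.Spans (P : Raw D k a b c d₁ d₂ d₃) (C : Conf D k a b c d₁ d₂ d₃) : Prop :=
  Submodule.span k (Set.range P.W1.1) = C.W1 ∧ Submodule.span k (Set.range P.Wc.1) = C.Wc ∧
    Submodule.span k (Set.range P.A'.1) = C.A' ∧ Submodule.span k (Set.range P.A2'.1) = C.A2' ∧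
      Submodule.span k (Set.range P.B'.1) = C.B' ∧ Submodule.span k (Set.range P.B2'.1) = C.B2'

theorem exists_unitRaw (C : Conf D k a b c d₁ d₂ d₃) :
    ∃ P : Raw D k a b c d₁ d₂ d₃, P.Ok ∧ P.Unit ∧ P.Spans C := by
  obtain ⟨s1, o1, u1, v1, e1⟩ := exists_unitSect C.hW1
  obtain ⟨s2, o2, u2, v2, e2⟩ := exists_unitSect C.hWc
  obtain ⟨s3, o3, u3, v3, e3⟩ := exists_unitSect C.hA'
  obtain ⟨s4, o4, u4, v4, e4⟩ := exists_unitSect C.hA2
  obtain ⟨s5, o5, u5, v5, e5⟩ := exists_unitSect C.hA2'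
  obtain ⟨s6, o6, u6, v6, e6⟩ := exists_unitSect C.hB
  obtain ⟨s7, o7, u7, v7, e7⟩ := exists_unitSect C.hB'
  obtain ⟨s8, o8, u8, v8, e8⟩ := exists_unitSect C.hB2
  obtain ⟨s9, o9, u9, v9, e9⟩ := exists_unitSect C.hB2'
  have mr : ∀ {p q n r s t : ℕ} {W : Submodule k (D.Vec k p)} {W' : Submodule k (D.Vec k q)}
      {T : Submodule k (D.Vec k n)} {oP : Fin r → D.Vec k p} {oQ : Fin s → D.Vec k q}
      {oT : Fin t → D.Vec k n}, LinearIndependent k oT → Submodule.span k (Set.range oP) = W →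
      Submodule.span k (Set.range oQ) ≤ W' → Submodule.span k (Set.range oT) = T →
      (∀ x ∈ W, ∀ y ∈ W', D.mul p q n x y ∈ T) → MulRel oP oQ oT := by
    intro p q n r s t W W' T oP oQ oT li hP hQ hT hm i j
    exact mem_of_mem_span li (hT ▸ hm _ (hP ▸ Submodule.subset_span ⟨i, rfl⟩) _
      (hQ (Submodule.subset_span ⟨j, rfl⟩)))
  have lr : ∀ {n r t : ℕ} {W T : Submodule k (D.Vec k n)} {oP : Fin r → D.Vec k n}
      {oT : Fin t → D.Vec k n}, LinearIndependent k oT → Submodule.span k (Set.range oP) = W →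
      Submodule.span k (Set.range oT) = T → W ≤ T → LeRel oP oT := by
    intro n r t W T oP oT li hP hT hle i
    exact mem_of_mem_span li (hT ▸ hle (hP ▸ Submodule.subset_span ⟨i, rfl⟩))
  exact ⟨(s1, s2, s3, s4, s5, s6, s7, s8, s9), ⟨o1, o2, o3, o4, o5, o6, o7, o8, o9,
    mr (W' := ⊤) o6.1 e1 le_top e6 fun x hx y _ => C.mB x hx y,
    mr o7.1 e1 e3.le e7 C.mB',
    mr (W' := ⊤) o4.1 e2 le_top e4 fun x hx y _ => C.mA2 x hx y,
    mr o5.1 e2 e3.le e5 C.mA2',
    mr o8.1 e1 e4.le e8 C.mB2,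
    mr o9.1 e1 e5.le e9 C.mB2',
    mr o9.1 e2 e7.le e9 C.mwB2',
    lr o6.1 e7 e6 C.leB, lr o4.1 e5 e4 C.leA2, lr o8.1 e9 e8 C.leB2⟩,
    ⟨⟨u1, v1⟩, ⟨u2, v2⟩, ⟨u3, v3⟩, ⟨u4, v4⟩, ⟨u5, v5⟩, ⟨u6, v6⟩, ⟨u7, v7⟩, ⟨u8, v8⟩, ⟨u9, v9⟩⟩,
    e1, e2, e3, e5, e7, e9⟩

theorem Raw.Spans.fits {P : Raw D k a b c d₁ d₂ d₃} {C : Conf D k a b c d₁ d₂ d₃}
    (h : P.Spans C) (cu : Fin (D.rk a d₁) → k) (cw : Fin (D.rk c d₂) → k)
    (X : Fin d₃ → D.Vec k b) : (P.quad cu cw X).Fits C :=
  ⟨h.2.2.1, h.2.2.2.1, h.2.2.2.2.1, h.2.2.2.2.2,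
    (by rw [← h.1]; show ∑ i, cu i • P.W1.1 i ∈ _; exact Submodule.sum_mem _ fun i _ =>
      Submodule.smul_mem _ _ (Submodule.subset_span (Set.mem_range_self i))),
    (by rw [← h.2.1]; show ∑ i, cw i • P.Wc.1 i ∈ _; exact Submodule.sum_mem _ fun i _ =>
      Submodule.smul_mem _ _ (Submodule.subset_span (Set.mem_range_self i)))⟩

end Normed

end FLTAgent.MW
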