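import Mathlib

/-!
# Maximal minors of families of coordinate vectors
-/

set_option autoImplicit false
set_option linter.unusedSectionVars false

noncomputable section

namespace FLTAgent.MW

open Matrix

variable {R : Type*} [CommRing R] {r s ι : Type*} [Fintype r] [DecidableEq r] [Fintype s]
  [DecidableEq s]

/-- The maximal minors of a family of vectors. -/
def minors (B : r → ι → R) : (r → ι) → R := fun f => (Matrix.of fun i j => B i (f j)).det

theorem minors_apply (B : r → ι → R) (f : r → ι) :
    minors B f = (Matrix.of fun i j => B i (f j)).det := rfl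

theorem minors_mul (M : Matrix r r R) (B : r → ι → R) :
    minors (fun i => ∑ k, M i k • B k) = M.det • minors B := by
  funext f
  rw [Pi.smul_apply, smul_eq_mul, minors_apply, minors_apply, ← Matrix.det_mul]
  refine congrArg Matrix.det (Matrix.ext fun i j => ?_)
  simp [Matrix.mul_apply, Finset.sum_apply]

theorem minors_map {S : Type*} [CommRing S] (φ : R →+* S) (B : r → ι → R) :
    minors (fun i l => φ (B i l)) = fun f => φ (minors B f) := by
  funext f
  rw [minors_apply, minors_apply, RingHom.map_det]
  rfl

theorem minors_reindex (e : s ≃ r) (B : r → ι → R) (f : r → ι) :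
    minors (B ∘ e) (f ∘ e) = minors B f := by
  rw [minors_apply, minors_apply, ← Matrix.det_submatrix_equiv_self e (Matrix.of fun i j => B i (f j))]
  rfl

/-- A triangular change of a joined family multiplies the minors by the block determinants. -/
theorem minors_elim (M : Matrix r r R) (N : Matrix s s R) (Z : Matrix s r R) (B : r → ι → R)
    (X : s → ι → R) :
    minors (Sum.elim (fun i => ∑ k, M i k • B k)
      (fun i => ∑ k, N i k • X k + ∑ k, Z i k • B k)) =
        (M.det * N.det) • minors (Sum.elim B X) := by
  rw [← Matrix.det_fromBlocks_zero₁₂ M Z N, ← minors_mul]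
  congr 1
  funext i
  cases i <;> simp [Fintype.sum_sum_type, add_comm]

/-- Expansion along a functional that kills the first family. -/
theorem minors_mul_eval [Fintype ι] (B : r → ι → R) (x : ι → R) (ev : ι → R)
    (hB : ∀ i, ∑ l, ev l * B i l = 0) (f : r → ι) :
    minors B f * ∑ l, ev l * x l =
      ∑ l, ev l * minors (Sum.elim B fun _ : Unit => x) (Sum.elim f fun _ => l) := by
  classical
  set A : Matrix (r ⊕ Unit) (r ⊕ Unit) R := Matrix.of fun i j =>
    Sum.elim (fun j => Sum.elim B (fun _ => x) i (f j))
      (fun _ => ∑ l, ev l * Sum.elim B (fun _ => x) i l) j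
  have h1 : A.det = minors B f * ∑ l, ev l * x l := by
    have hA : A = Matrix.fromBlocks (Matrix.of fun i j => B i (f j)) 0
        (Matrix.of fun _ j => x (f j)) (Matrix.of fun _ _ => ∑ l, ev l * x l) := by
      refine Matrix.ext fun i j => ?_
      rcases i with i | i <;> rcases j with j | j <;> simp [A, hB]
    rw [hA, Matrix.det_fromBlocks_zero₁₂, minors_apply]
    simp
  have h2 : ∀ c : ι → R, (Matrix.of fun i j => Sum.elim (fun j => Sum.elim B (fun _ => x) i (f j))
      (fun _ : Unit => ∑ l, c l * Sum.elim B (fun _ => x) i l) j : Matrix (r ⊕ Unit) (r ⊕ Unit) R).det =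
      ∑ l, c l * minors (Sum.elim B fun _ : Unit => x) (Sum.elim f fun _ => l) := by
    intro c
    have hlin : ∀ t : Finset ι, (Matrix.of fun i j =>
        Sum.elim (fun j => Sum.elim B (fun _ => x) i (f j))
          (fun _ : Unit => ∑ l ∈ t, c l * Sum.elim B (fun _ => x) i l) j :
            Matrix (r ⊕ Unit) (r ⊕ Unit) R).det =
        ∑ l ∈ t, c l * minors (Sum.elim B fun _ : Unit => x) (Sum.elim f fun _ => l) := by
      intro t
      induction t using Finset.induction with
      | empty =>
          rw [Finset.sum_empty]
          exact Matrix.det_eq_zero_of_column_eq_zero (Sum.inr ()) fun i => by simp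
      | insert a t ha ih =>
          rw [Finset.sum_insert ha, ← ih]
          set M₀ : Matrix (r ⊕ Unit) (r ⊕ Unit) R := Matrix.of fun i j =>
            Sum.elim (fun j => Sum.elim B (fun _ => x) i (f j))
              (fun _ : Unit => ∑ l ∈ t, c l * Sum.elim B (fun _ => x) i l) j
          have e1 : (Matrix.of fun i j => Sum.elim (fun j => Sum.elim B (fun _ => x) i (f j))
              (fun _ : Unit => ∑ l ∈ insert a t, c l * Sum.elim B (fun _ => x) i l) j :
                Matrix (r ⊕ Unit) (r ⊕ Unit) R) =
              M₀.updateCol (Sum.inr ())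
                ((c a • fun i => Sum.elim B (fun _ => x) i a) + fun i => M₀ i (Sum.inr ())) := by
            refine Matrix.ext fun i j => ?_
            rcases j with j | j <;> simp [M₀, Finset.sum_insert ha]
          rw [e1, Matrix.det_updateCol_add, Matrix.det_updateCol_smul (M := M₀), minors_apply]
          congr 1
          · congr 1
            refine congrArg Matrix.det (Matrix.ext fun i j => ?_)
            rcases j with j | j <;> simp [M₀]
          · rw [Matrix.updateCol_eq_self]
    exact hlin Finset.univ
  rw [← h1, ← h2]

section Field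

variable {k : Type*} [Field k] [Fintype ι] [DecidableEq ι]

theorem exists_minor_ne_zero {B : r → ι → k} (h : LinearIndependent k B) :
    ∃ f : r → ι, minors B f ≠ 0 := by
  classical
  -- the rows span the whole space of columns
  have hr : (Matrix.of B).rank = Fintype.card r :=
    LinearIndependent.rank_matrix (M := Matrix.of B) h
  set C : ι → r → k := fun j i => B i j
  have hspan : Submodule.span k (Set.range C) = ⊤ :=
    Submodule.eq_top_of_finrank_eq (by
      rw [Matrix.rank_eq_finrank_span_cols] at hr
      rw [Module.finrank_pi, ← hr]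
      rfl)
  obtain ⟨t, ht, hst, hli⟩ := exists_linearIndependent k (Set.range C)
  haveI : Finite t := ((Set.finite_range C).subset ht).to_subtype
  haveI : Fintype t := Fintype.ofFinite t
  have hb := Module.Basis.mk hli (by rw [Subtype.range_coe, hst, hspan])
  have e : r ≃ t := (Pi.basisFun k r).indexEquiv hb
  choose f hf using fun j : r => ht (e j).2
  refine ⟨f, fun h0 => ?_⟩
  have hcols : LinearIndependent k (fun j => (Matrix.of fun i j => B i (f j)).col j) := by
    have : (fun j => (Matrix.of fun i j => B i (f j)).col j) = (fun x : t => (x : r → k)) ∘ e :=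
      funext fun j => (hf j)
    rw [this]
    exact hli.comp _ e.injective
  exact Matrix.linearIndependent_cols_iff_isUnit.1 hcols |> (Matrix.isUnit_iff_isUnit_det _).1
    |>.ne_zero h0

theorem linearIndependent_of_minor {B : r → ι → k} {f : r → ι} (h : minors B f ≠ 0) :
    LinearIndependent k B := by
  have hrows : LinearIndependent k (fun i => (Matrix.of fun i j => B i (f j)).row i) :=
    Matrix.linearIndependent_rows_iff_isUnit.2 ((Matrix.isUnit_iff_isUnit_det _).2 (Ne.isUnit h))
  exact LinearIndependent.of_comp (LinearMap.funLeft k k f) hrows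

theorem minors_ne_zero_iff {B : r → ι → k} : minors B ≠ 0 ↔ LinearIndependent k B := by
  refine ⟨fun h => ?_, fun h h0 => ?_⟩
  · obtain ⟨f, hf⟩ := Function.ne_iff.1 h
    exact linearIndependent_of_minor hf
  · obtain ⟨f, hf⟩ := exists_minor_ne_zero h
    exact hf (congrFun h0 f)

theorem linearIndependent_map {K : Type*} [Field K] (φ : k →+* K) {B : r → ι → k}
    (h : LinearIndependent k B) : LinearIndependent K fun i l => φ (B i l) := by
  obtain ⟨f, hf⟩ := exists_minor_ne_zero h
  exact linearIndependent_of_minor (f := f) (by rw [minors_map]; exact (map_ne_zero φ).2 hf)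

/-- Membership in the span is a closed condition on the minors. -/
theorem mem_span_iff_minors {B : r → ι → k} (h : LinearIndependent k B) {x : ι → k} :
    x ∈ Submodule.span k (Set.range B) ↔ minors (Sum.elim B fun _ : Unit => x) = 0 := by
  rw [← not_iff_not, ← ne_eq, minors_ne_zero_iff]
  refine ⟨fun hx => ?_, fun hli hx => ?_⟩
  · refine LinearIndependent.sum_type h ((linearIndependent_unique_iff (v := fun _ : Unit => x)).2 fun h0 => hx ?_) ?_
    · rw [show x = 0 from h0]; exact Submodule.zero_mem _
    · rw [Submodule.disjoint_def]
      intro y hy1 hy2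
      rw [Set.range_const, Submodule.mem_span_singleton] at hy2
      obtain ⟨a, rfl⟩ := hy2
      rcases eq_or_ne a 0 with rfl | ha
      · rw [zero_smul]
      · exact absurd ((Submodule.smul_mem_iff _ ha).1 hy1) hx
  · refine hli.notMem_span_image (s := Set.range Sum.inl) (x := Sum.inr ()) (by simp) ?_
    rw [← Set.range_comp]
    exact hx

/-- A family with a unit leading minor and the same span. -/
theorem exists_normalised {B : r → ι → k} {f : r → ι} (hf : minors B f ≠ 0) :
    ∃ (M : Matrix r r k), M.det = (minors B f)⁻¹ ∧
      (∀ i j, (∑ l, M i l • B l) (f j) = if i = j then 1 else 0) ∧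
      ∀ i x, (∑ l, M i l • B l) x = minors B (Function.update f i x) * (minors B f)⁻¹ := by
  set A : Matrix r r k := Matrix.of fun i j => B i (f j)
  have hA : IsUnit A.det := Ne.isUnit hf
  refine ⟨A⁻¹, ?_, fun i j => ?_, fun i x => ?_⟩
  · rw [Matrix.det_nonsing_inv, Ring.inverse_eq_inv]; rfl
  · have := congrFun (congrFun (Matrix.nonsing_inv_mul A hA) i) j
    rw [Matrix.mul_apply, Matrix.one_apply] at this
    simpa [Finset.sum_apply, A] using this
  · set B' : r → ι → k := fun i => ∑ l, A⁻¹ i l • B l
    have hid : ∀ i j, B' i (f j) = if i = j then 1 else 0 := fun i j => by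
      have := congrFun (congrFun (Matrix.nonsing_inv_mul A hA) i) j
      rw [Matrix.mul_apply, Matrix.one_apply] at this
      simpa [B', Finset.sum_apply, A] using this
    have h1 : minors B' (Function.update f i x) = B' i x := by
      have hm : (Matrix.of fun a j => B' a (Function.update f i x j)) =
          (1 : Matrix r r k).updateCol i (fun a => B' a x) := by
        refine Matrix.ext fun a j => ?_
        rcases eq_or_ne j i with rfl | hj
        · simp
        · simp [hj, hid, Matrix.one_apply]
      rw [minors_apply, hm, ← Matrix.cramer_apply, Matrix.cramer_one]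
      rfl
    have h2 := congrFun (minors_mul A⁻¹ B) (Function.update f i x)
    rw [Pi.smul_apply, smul_eq_mul, Matrix.det_nonsing_inv, Ring.inverse_eq_inv] at h2
    show B' i x = _
    rw [← h1]
    exact h2.trans (mul_comm _ _)

end Field

end FLTAgent.MW
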