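import Fermat.Agent.MW.Weak
import Mathlib.GroupTheory.Descent
import Mathlib.Algebra.Ring.Action.Submonoid

/-!
# Descent: a height with the quadratic properties makes `J₀(N)(ℚ)` finitely generated
-/

set_option autoImplicit false
set_option linter.style.haveILetI false

noncomputable section

namespace FLTAgent.MW

open ModularCurve

local notation "GG" => (AlgebraicClosure ℚ ≃ₐ[ℚ] AlgebraicClosure ℚ)

/-- The group of rational classes. -/
abbrev RatJac (N : ℕ) [NeZero N] : AddSubgroup (JZero N) := FixedPoints.addSubgroup GG (JZero N)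

theorem finiteIndex_two (N : ℕ) [NeZero N] :
    (nsmulAddMonoidHom (α := RatJac N) 2).range.FiniteIndex := by
  classical
  obtain ⟨R, hR, h⟩ := exists_finset_mod_two N
  haveI : Finite (RatJac N ⧸ (nsmulAddMonoidHom (α := RatJac N) 2).range) := by
    refine Finite.of_surjective (fun r : R =>
      QuotientAddGroup.mk (⟨r.1, hR r.1 r.2⟩ : RatJac N)) fun q => ?_
    obtain ⟨⟨z, hz⟩, rfl⟩ := QuotientAddGroup.mk_surjective q
    obtain ⟨r, hr, w, hw, e⟩ := h z hz
    refine ⟨⟨r, hr⟩, QuotientAddGroup.eq.2 ⟨⟨w, hw⟩, Subtype.ext ?_⟩⟩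
    show 2 • w = -r + z
    rw [e, neg_add_cancel_left]
  exact AddSubgroup.finiteIndex_iff_finite_quotient.2 inferInstance

/-- **Descent**, from the approximate parallelogram law. -/
theorem fg_of_height (N : ℕ) [NeZero N] {h : RatJac N → ℝ} {C : ℝ} (h0 : ∀ x, 0 ≤ h x)
    (hq : ∀ x y, |h (x + y) + h (x - y) - 2 * (h x + h y)| ≤ C)
    (hfin : ∀ B : ℝ, {x | h x ≤ B}.Finite) : AddGroup.FG (RatJac N) := by
  haveI : Northcott h := ⟨fun {B} => hfin B⟩
  exact AddCommGroup.fg_of_descent' (finiteIndex_two N) h0 hq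

/-- **Descent**, from one sided bounds. -/
theorem fg_of_height' (N : ℕ) [NeZero N] {h : RatJac N → ℝ} {a b c₀ : ℝ} {c : RatJac N → ℝ}
    (ha : 0 ≤ a) (hab : a < b) (h1 : ∀ g x, h x ≤ a * h (g + x) + c g)
    (h2 : ∀ x, b * h x - c₀ ≤ h (2 • x)) (hfin : ∀ B : ℝ, {x | h x ≤ B}.Finite) :
    AddGroup.FG (RatJac N) := by
  haveI : Northcott h := ⟨fun {B} => hfin B⟩
  exact AddCommGroup.fg_of_descent ha hab (finiteIndex_two N) h1 h2

end FLTAgent.MW
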