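import Fermat.Agent.MW.Scale

/-!
# The height of rational divisor classes

An abstract system of rational effective divisors with their spaces of sections gives a function on
classes that is bounded below, nearly quadratic and has finite sublevel sets.
-/

set_option autoImplicit false
set_option linter.unusedSectionVars false
set_option linter.style.haveILetI false

noncomputable section

namespace FLTAgent.MW

/-- Rational effective divisors, their classes relative to a rational point `O` and their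
spaces of sections. -/
structure Sys (D : Datum) (G : Type) [AddCommGroup G] : Type 1 where
  M : Type
  [acmM : AddCommMonoid M]
  deg : M →+ ℕ
  cls : M →+ G
  O : M
  deg_O : deg O = 1
  cls_O : cls O = 0
  sec : ∀ n : ℕ, M → Submodule ℚ (D.Vec ℚ n)
  one : D.Vec ℚ 0
  mult : M → ℕ
  mult_le : ∀ E : M, mult E ≤ deg E
  ev : ℕ → ∀ n : ℕ, Fin (D.dim n) → ℤ
  one_ne : one ≠ 0
  isSec : ∀ (n : ℕ) (E : M), D.n₀ + deg E + 1 ≤ n → IsSec D n (deg E) (sec n E)
  sec_zero : ∀ n, sec n 0 = ⊤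
  sec_mul : ∀ (a b n : ℕ) (E E' : M), a + b = n → ∀ x ∈ sec a E, ∀ y ∈ sec b E',
    D.mul a b n x y ∈ sec n (E + E')
  sec_anti : ∀ (n : ℕ) (E F : M), sec n (E + F) ≤ sec n E
  sec_add_O : ∀ (n : ℕ) (E : M), sec (n + 1) (E + O) = (sec n E).map (D.mul 0 n (n + 1) one)
  sec_inj : ∀ (n : ℕ) (E E' : M), D.n₀ + deg E + 1 ≤ n → deg E = deg E' → sec n E = sec n E' →
    cls E = cls E'
  equiv : ∀ d : ℕ, ∃ m : ℕ, ∀ E E' : M, deg E = d → deg E' = d → cls E = cls E' →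
    ∃ φ ψ : D.Vec ℚ m, φ ≠ 0 ∧ ψ ≠ 0 ∧ ∀ n : ℕ, D.n₀ + d + 1 ≤ n →
      (sec n E).map (D.mul m n (m + n) ψ) = (sec n E').map (D.mul m n (m + n) φ)
  exists_rep : ∀ c : G, ∃ E : M, deg E = D.g ∧ cls E = c
  ev_mul : ∀ (a b n : ℕ), a + b = n → ∀ (E : M) (x : D.Vec ℚ a), ∀ y ∈ sec b E,
    ∑ l, (ev (mult E) n l : ℚ) * D.mul a b n x y l =
      (∑ l, (ev 0 a l : ℚ) * x l) * ∑ l, (ev (mult E) b l : ℚ) * y l
  ev_lead : ∀ m, D.n₀ + 1 ≤ m → ∃ s : D.Vec ℚ m, ∑ l, (ev 0 m l : ℚ) * s l ≠ 0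
  ev_shift : ∀ (n : ℕ) (E : M), ∀ x ∈ sec n E,
    ∑ l, (ev (mult E) (n + 1) l : ℚ) * D.mul 0 n (n + 1) one x l = 0
  ev_zero : ∀ (n : ℕ) (E : M), ∀ x ∈ sec (n + 1) E,
    ∑ l, (ev (mult E) (n + 1) l : ℚ) * x l = 0 →
    x ∈ (sec n E).map (D.mul 0 n (n + 1) one)
  shift_mem : ∀ (n : ℕ) (E : M), (sec n E).map (D.mul 0 n (n + 1) one) ≤ sec (n + 1) E
  first : ∀ E : M, ∃ (m : ℕ) (φ : D.Vec ℚ m) (E' : M), φ ≠ 0 ∧ m ≤ deg E + D.g ∧
    deg E + deg E' = m ∧ cls E + cls E' = 0 ∧ sec m E = Submodule.span ℚ {φ} ∧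
    ∀ n : ℕ, D.n₀ + m + 1 ≤ m + n →
      sec (m + n) (E + E') = (⊤ : Submodule ℚ (D.Vec ℚ n)).map (D.mul m n (m + n) φ)

attribute [instance] Sys.acmM

theorem exists_bound_le {β : Type*} (N : ℕ) (P : ℕ → β → Prop) (f : β → ℝ)
    (h : ∀ i ≤ N, ∃ C, ∀ x, P i x → f x ≤ C) : ∃ C, ∀ i ≤ N, ∀ x, P i x → f x ≤ C := by
  classical
  induction N with
  | zero =>
      obtain ⟨C, hC⟩ := h 0 le_rfl
      exact ⟨C, fun i hi x hx => hC x (Nat.le_zero.1 hi ▸ hx)⟩
  | succ N ih =>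
      obtain ⟨C, hC⟩ := ih fun i hi => h i (hi.trans N.le_succ)
      obtain ⟨C', hC'⟩ := h (N + 1) le_rfl
      refine ⟨max C C', fun i hi x hx => ?_⟩
      rcases Nat.lt_or_eq_of_le hi with h1 | rfl
      · exact (hC i (Nat.lt_succ_iff.1 h1) x hx).trans (le_max_left _ _)
      · exact (hC' x hx).trans (le_max_right _ _)

namespace Sys

variable {D : Datum} (I : Input D) {G : Type} [AddCommGroup G] (S : Sys D G)

/-- The height of a space of sections. -/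
def h (n : ℕ) (E : S.M) : ℝ := hW (S.sec n E)

/-- The working threshold. -/
def L (D : Datum) : ℕ := D.n₀ + 4 * D.g + 4

/-- The working degree. -/
def T (D : Datum) : ℕ := L D + L D

/-- The variation of the height in the degree. -/
def H (E : S.M) : ℝ := S.h (T D) E - S.h (T D - 1) E

/-- The class invariant. -/
def Inv (E : S.M) : ℝ := S.h (T D) E - ((T D : ℝ) + 1 - D.g - (S.deg E : ℝ)) * S.H E

include I

/-- The raw form of quasi-biadditivity. -/
theorem exists_delta_raw : ∃ C, ∀ E1 E2 F : S.M,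
    S.deg E1 + S.deg E2 + S.deg F ≤ 3 * D.g + 2 →
      |S.h (T D) (E1 + F) - S.h (T D) E1 + (S.h (T D) (E2 + F) - S.h (T D) E2)
        - (S.h (L D + L D + L D) (E1 + E2 + F) - S.h (L D + L D + L D) (E1 + E2))
        - (S.h (L D) F - S.h (L D) 0)| ≤ C := by
  classical
  have key : ∀ d₁ d₂ d₃ : ℕ, ∃ C, ∀ E1 E2 F : S.M, S.deg E1 = d₁ → S.deg E2 = d₂ → S.deg F = d₃ →
      d₁ + d₂ + d₃ ≤ 3 * D.g + 2 →
      |S.h (T D) (E1 + F) - S.h (T D) E1 + (S.h (T D) (E2 + F) - S.h (T D) E2)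
        - (S.h (L D + L D + L D) (E1 + E2 + F) - S.h (L D + L D + L D) (E1 + E2))
        - (S.h (L D) F - S.h (L D) 0)| ≤ C := by
    intro d₁ d₂ d₃
    by_cases hd : d₁ + d₂ + d₃ ≤ 3 * D.g + 2
    swap
    · exact ⟨0, fun _ _ _ _ _ _ h => absurd h hd⟩
    have := D.g_le
    have hbig : Big D (L D) (L D) (L D) d₁ d₂ d₃ :=
      ⟨by unfold L; omega, by unfold L; omega, by unfold L; omega,
        I.dim_eq _ (by unfold L; omega)⟩
    obtain ⟨C, hC⟩ := exists_key I hbig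
    refine ⟨C, fun E1 E2 F e1 e2 e3 _ => ?_⟩
    have sec : ∀ (n : ℕ) (E : S.M) (d : ℕ), S.deg E = d → d ≤ 3 * D.g + 2 → L D ≤ n →
        IsSec D n d (S.sec n E) := fun n E d he hle hn =>
      he ▸ S.isSec n E (by rw [he]; unfold L at hn; omega)
    have ze : ∀ {n m : ℕ} (E : S.M) (y : D.Vec ℚ m), n + 0 = n → y ∈ S.sec m 0 := fun _ y _ => by
      rw [S.sec_zero]; trivial
    let C₀ : Conf D ℚ (L D) (L D) (L D) d₁ d₂ d₃ :=
      { W1 := S.sec _ E1
        Wc := S.sec _ E2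
        A' := S.sec _ F
        A2 := S.sec _ E2
        A2' := S.sec _ (E2 + F)
        B := S.sec _ E1
        B' := S.sec _ (E1 + F)
        B2 := S.sec _ (E1 + E2)
        B2' := S.sec _ (E1 + E2 + F)
        hW1 := sec _ E1 _ e1 (by omega) le_rfl
        hWc := sec _ E2 _ e2 (by omega) le_rfl
        hA' := sec _ F _ e3 (by omega) le_rfl
        hA2 := sec _ E2 _ e2 (by omega) (by omega)
        hA2' := sec _ _ _ (by rw [map_add, e2, e3]) (by omega) (by omega)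
        hB := sec _ E1 _ e1 (by omega) (by omega)
        hB' := sec _ _ _ (by rw [map_add, e1, e3]) (by omega) (by omega)
        hB2 := sec _ _ _ (by rw [map_add, e1, e2]) (by omega) (by omega)
        hB2' := sec _ _ _ (by rw [map_add, map_add, e1, e2, e3]) (by omega) (by omega)
        mB := fun u hu x => by
          have h1 := S.sec_mul _ _ _ E1 0 rfl u hu x (ze (n := 0) E1 x rfl)
          rwa [add_zero] at h1
        mB' := fun u hu x hx => S.sec_mul _ _ _ E1 F rfl u hu x hx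
        mA2 := fun u hu x => by
          have h1 := S.sec_mul _ _ _ E2 0 rfl u hu x (ze (n := 0) E2 x rfl)
          rwa [add_zero] at h1
        mA2' := fun u hu x hx => S.sec_mul _ _ _ E2 F rfl u hu x hx
        mB2 := fun u hu x hx => S.sec_mul _ _ _ E1 E2 (add_assoc _ _ _).symm u hu x hx
        mB2' := fun u hu x hx => by
          rw [add_assoc E1 E2 F]
          exact S.sec_mul _ _ _ E1 (E2 + F) (add_assoc _ _ _).symm u hu x hx
        mwB2' := fun w hw y hy => by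
          rw [show E1 + E2 + F = E2 + (E1 + F) by abel]
          exact S.sec_mul _ _ _ E2 (E1 + F) (by omega) w hw y hy
        leB := S.sec_anti _ _ _
        leA2 := S.sec_anti _ _ _
        leB2 := S.sec_anti _ _ _ }
    have h1 := hC C₀
    simp only [C₀, h, T] at h1 ⊢
    rw [← S.sec_zero] at h1
    refine (le_of_eq ?_).trans h1
    congr 1
    ring
  choose C hC using key
  refine ⟨∑ i ∈ Finset.range (3 * D.g + 3), ∑ j ∈ Finset.range (3 * D.g + 3),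
    ∑ l ∈ Finset.range (3 * D.g + 3), |C i j l|, fun E1 E2 F hd => ?_⟩
  refine (hC _ _ _ E1 E2 F rfl rfl rfl hd).trans ((le_abs_self _).trans ?_)
  refine le_trans ?_ (Finset.single_le_sum (fun i _ => Finset.sum_nonneg fun j _ =>
    Finset.sum_nonneg fun l _ => abs_nonneg _)
    (Finset.mem_range.2 (show S.deg E1 < 3 * D.g + 3 by omega)))
  refine le_trans ?_ (Finset.single_le_sum (fun j _ => Finset.sum_nonneg fun l _ => abs_nonneg _)
    (Finset.mem_range.2 (show S.deg E2 < 3 * D.g + 3 by omega)))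
  exact Finset.single_le_sum (f := fun l => |C (S.deg E1) (S.deg E2) l|)
    (fun l _ => abs_nonneg _) (Finset.mem_range.2 (show S.deg F < 3 * D.g + 3 by omega))

/-- **Quasi-biadditivity** in one degree. -/
theorem exists_delta : ∃ C, ∀ E1 E2 F : S.M, S.deg E1 + S.deg E2 + S.deg F ≤ 3 * D.g + 2 →
    |S.h (T D) (E1 + E2 + F) - S.h (T D) (E1 + E2) - S.h (T D) (E1 + F) - S.h (T D) (E2 + F)
      + S.h (T D) E1 + S.h (T D) E2 + S.h (T D) F - S.h (T D) 0| ≤ C := by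
  obtain ⟨C, hC⟩ := exists_delta_raw I S
  refine ⟨C + C, fun E1 E2 F hd => ?_⟩
  have h1 := hC E1 E2 F hd
  have h2 := hC 0 (E1 + E2) F (by rw [map_zero, map_add]; omega)
  rw [zero_add, zero_add] at h2
  rw [abs_le] at h1 h2 ⊢
  constructor <;> linarith

/-- Comparison across one shift. -/
theorem exists_shift (n d : ℕ) (hn : D.n₀ + d + 1 ≤ n) :
    ∃ C, ∀ E : S.M, S.deg E = d → |S.h (n + 1) (E + S.O) - S.h n E| ≤ C := by
  obtain ⟨C, hC⟩ := exists_scale I (a := 0) (b := n) (n := n + 1) (by omega) (D.rk n d)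
  refine ⟨C + |(D.rk n d : ℝ) * hgt S.one|, fun E hE => ?_⟩
  have h1 := hC S.one S.one_ne (S.sec n E) (hE ▸ (S.isSec n E (by omega)).finrank_eq)
  rw [h, h, S.sec_add_O]
  have h2 := abs_le.1 h1
  have h3 := neg_abs_le ((D.rk n d : ℝ) * hgt S.one)
  have h4 := le_abs_self ((D.rk n d : ℝ) * hgt S.one)
  rw [abs_le]
  constructor <;> linarith [h2.1, h2.2]

/-- The variation of the height is additive. -/
theorem exists_H_add : ∃ C, ∀ E1 E2 : S.M, S.deg E1 + S.deg E2 ≤ 3 * D.g + 1 →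
    |S.H (E1 + E2) - S.H E1 - S.H E2 + S.H 0| ≤ C := by
  obtain ⟨C, hC⟩ := exists_delta I S
  have hsh : ∃ C', ∀ E : S.M, S.deg E ≤ 3 * D.g + 1 →
      |S.h (T D) (E + S.O) - S.h (T D - 1) E| ≤ C' := by
    obtain ⟨C', hC'⟩ := exists_bound_le (3 * D.g + 1) (fun i (E : S.M) => S.deg E = i)
      (fun E => |S.h (T D) (E + S.O) - S.h (T D - 1) E|) fun i hi => by
        obtain ⟨C', hC'⟩ := exists_shift I S (T D - 1) i (by unfold T L; omega)
        rw [show T D - 1 + 1 = T D by unfold T L; omega] at hC'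
        exact ⟨C', hC'⟩
    exact ⟨C', fun E hE => hC' _ hE E rfl⟩
  obtain ⟨C', hC'⟩ := hsh
  refine ⟨C + (C' + C' + C' + C'), fun E1 E2 hd => ?_⟩
  have h1 := hC E1 E2 S.O (by rw [S.deg_O]; omega)
  have a0 := hC' 0 (by simp)
  have a1 := hC' E1 (by omega)
  have a2 := hC' E2 (by omega)
  have a12 := hC' (E1 + E2) (by rw [map_add]; omega)
  rw [zero_add] at a0
  unfold H
  rw [abs_le] at h1 a0 a1 a2 a12 ⊢
  constructor <;> linarith

/-- Padding by the base point. -/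
theorem exists_H_pad : ∃ C, ∀ E : S.M, S.deg E ≤ 3 * D.g → |S.H (E + S.O) - S.H E| ≤ C := by
  obtain ⟨C, hC⟩ := exists_H_add I S
  refine ⟨C + |S.H S.O - S.H 0|, fun E hE => ?_⟩
  have h1 := abs_le.1 (hC E S.O (by rw [S.deg_O]; omega))
  have h3 := neg_abs_le (S.H S.O - S.H 0)
  have h4 := le_abs_self (S.H S.O - S.H 0)
  rw [abs_le]
  constructor <;> linarith [h1.1, h1.2]

theorem exists_H_pad_nsmul (j : ℕ) : ∃ C, ∀ E : S.M, S.deg E + j ≤ 3 * D.g + 1 →
    |S.H (E + j • S.O) - S.H E| ≤ C := by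
  induction j with
  | zero => exact ⟨0, fun E _ => by simp⟩
  | succ j ih =>
      obtain ⟨C, hC⟩ := ih
      obtain ⟨C', hC'⟩ := exists_H_pad I S
      refine ⟨C + C', fun E hE => ?_⟩
      have h1 := abs_le.1 (hC E (by omega))
      have h2 := abs_le.1 (hC' (E + j • S.O)
        (by rw [map_add, map_nsmul, S.deg_O, smul_eq_mul, mul_one]; omega))
      rw [succ_nsmul, ← add_assoc, abs_le]
      constructor <;> linarith [h1.1, h1.2, h2.1, h2.2]

theorem exists_inv_pad : ∃ C, ∀ E : S.M, S.deg E ≤ 3 * D.g →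
    |S.Inv (E + S.O) - S.Inv E| ≤ C := by
  obtain ⟨C, hC⟩ := exists_H_pad I S
  have hsh : ∃ C', ∀ E : S.M, S.deg E ≤ 3 * D.g →
      |S.h (T D) (E + S.O) - S.h (T D - 1) E| ≤ C' := by
    obtain ⟨C', hC'⟩ := exists_bound_le (3 * D.g) (fun i (E : S.M) => S.deg E = i)
      (fun E => |S.h (T D) (E + S.O) - S.h (T D - 1) E|) fun i hi => by
        obtain ⟨C', hC'⟩ := exists_shift I S (T D - 1) i (by unfold T L; omega)
        rw [show T D - 1 + 1 = T D by unfold T L; omega] at hC'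
        exact ⟨C', hC'⟩
    exact ⟨C', fun E hE => hC' _ hE E rfl⟩
  obtain ⟨C', hC'⟩ := hsh
  refine ⟨C' + ((T D : ℝ) + 1) * C, fun E hE => ?_⟩
  have hg := D.g_le
  have hr0 : (0 : ℝ) ≤ (T D : ℝ) + 1 - D.g - S.deg E - 1 := by
    have h3 : D.g + S.deg E + 1 ≤ T D + 1 := by unfold T L; omega
    have : ((D.g + S.deg E + 1 : ℕ) : ℝ) ≤ ((T D + 1 : ℕ) : ℝ) := Nat.cast_le.2 h3
    push_cast at this
    linarith
  have hr1 : (T D : ℝ) + 1 - D.g - S.deg E - 1 ≤ (T D : ℝ) + 1 := by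
    have h1 : (0 : ℝ) ≤ (D.g : ℝ) := Nat.cast_nonneg _
    have h2 : (0 : ℝ) ≤ (S.deg E : ℝ) := Nat.cast_nonneg _
    linarith
  have h1 : |((T D : ℝ) + 1 - D.g - S.deg E - 1) * (S.H (E + S.O) - S.H E)| ≤
      ((T D : ℝ) + 1) * C := by
    rw [abs_mul, abs_of_nonneg hr0]
    exact mul_le_mul hr1 (hC E hE) (abs_nonneg _) (by positivity)
  have h2 := hC' E hE
  have e : S.Inv (E + S.O) - S.Inv E = (S.h (T D) (E + S.O) - S.h (T D - 1) E) -
      ((T D : ℝ) + 1 - D.g - S.deg E - 1) * (S.H (E + S.O) - S.H E) := by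
    simp only [Inv, H, map_add, S.deg_O]
    push_cast
    ring
  rw [e]
  exact (abs_sub _ _).trans (add_le_add h2 h1)

theorem exists_inv_pad_nsmul (j : ℕ) : ∃ C, ∀ E : S.M, S.deg E + j ≤ 3 * D.g + 1 →
    |S.Inv (E + j • S.O) - S.Inv E| ≤ C := by
  induction j with
  | zero => exact ⟨0, fun E _ => by simp⟩
  | succ j ih =>
      obtain ⟨C, hC⟩ := ih
      obtain ⟨C', hC'⟩ := exists_inv_pad I S
      refine ⟨C + C', fun E hE => ?_⟩
      have h1 := abs_le.1 (hC E (by omega))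
      have h2 := abs_le.1 (hC' (E + j • S.O)
        (by rw [map_add, map_nsmul, S.deg_O, smul_eq_mul, mul_one]; omega))
      rw [succ_nsmul, ← add_assoc, abs_le]
      constructor <;> linarith [h1.1, h1.2, h2.1, h2.2]

/-- **Class invariance.** -/
theorem exists_inv_class (d : ℕ) (hd : d ≤ 3 * D.g) : ∃ C, ∀ E E' : S.M, S.deg E = d →
    S.deg E' = d → S.cls E = S.cls E' → |S.Inv E - S.Inv E'| ≤ C := by
  obtain ⟨m, hm⟩ := S.equiv d
  have hg := D.g_le
  obtain ⟨C₁, hC₁⟩ := exists_scale I (a := m) (b := T D) (n := m + T D) le_rfl (D.rk (T D) d)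
  obtain ⟨C₂, hC₂⟩ := exists_scale I (a := m) (b := T D - 1) (n := m + (T D - 1)) le_rfl
    (D.rk (T D - 1) d)
  have hn1 : D.n₀ + d + 1 ≤ T D := by unfold T L; omega
  have hn2 : D.n₀ + d + 1 ≤ T D - 1 := by unfold T L; omega
  refine ⟨((D.rk (T D) d : ℕ) : ℝ) * (C₂ + C₂) + ((D.rk (T D - 1) d : ℕ) : ℝ) * (C₁ + C₁),
    fun E E' he he' hc => ?_⟩
  obtain ⟨φ, ψ, hφ, hψ, heq⟩ := hm E E' he he' hc
  have a1 := hC₁ ψ hψ _ (he ▸ (S.isSec (T D) E (by omega)).finrank_eq)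
  have a2 := hC₁ φ hφ _ (he' ▸ (S.isSec (T D) E' (by omega)).finrank_eq)
  have b1 := hC₂ ψ hψ _ (he ▸ (S.isSec (T D - 1) E (by omega)).finrank_eq)
  have b2 := hC₂ φ hφ _ (he' ▸ (S.isSec (T D - 1) E' (by omega)).finrank_eq)
  rw [heq _ hn1] at a1
  rw [heq _ hn2] at b1
  have hr : ((D.rk (T D) d : ℕ) : ℝ) = (T D : ℝ) + 1 - D.g - d := by
    rw [Datum.rk, Nat.cast_sub (by unfold T L; omega), Nat.cast_sub (by unfold T L; omega)]
    push_cast; ring
  have hr' : ((D.rk (T D - 1) d : ℕ) : ℝ) = ((D.rk (T D) d : ℕ) : ℝ) - 1 := by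
    have h1 : D.rk (T D - 1) d + 1 = D.rk (T D) d := by unfold Datum.rk T L; omega
    rw [← h1]
    push_cast
    ring
  have hA : |S.h (T D) E - S.h (T D) E' + (D.rk (T D) d : ℝ) * (hgt ψ - hgt φ)| ≤ C₁ + C₁ := by
    unfold h
    rw [abs_le] at a1 a2 ⊢
    constructor <;> linarith [a1.1, a1.2, a2.1, a2.2]
  have hB : |S.h (T D - 1) E - S.h (T D - 1) E' +
      (D.rk (T D - 1) d : ℝ) * (hgt ψ - hgt φ)| ≤ C₂ + C₂ := by
    unfold h
    rw [abs_le] at b1 b2 ⊢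
    constructor <;> linarith [b1.1, b1.2, b2.1, b2.2]
  have e : S.Inv E - S.Inv E' =
      (D.rk (T D) d : ℝ) * (S.h (T D - 1) E - S.h (T D - 1) E' +
        (D.rk (T D - 1) d : ℝ) * (hgt ψ - hgt φ)) -
      (D.rk (T D - 1) d : ℝ) * (S.h (T D) E - S.h (T D) E' +
        (D.rk (T D) d : ℝ) * (hgt ψ - hgt φ)) := by
    simp only [Inv, H, he, he', hr', hr]
    ring
  rw [e]
  refine (abs_sub _ _).trans (add_le_add ?_ ?_) <;>
    rw [abs_mul, Nat.abs_cast]
  · exact mul_le_mul_of_nonneg_left hB (Nat.cast_nonneg _)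
  · exact mul_le_mul_of_nonneg_left hA (Nat.cast_nonneg _)

theorem exists_inv_class_le : ∃ C, ∀ E E' : S.M, S.deg E ≤ 3 * D.g → S.deg E = S.deg E' →
    S.cls E = S.cls E' → |S.Inv E - S.Inv E'| ≤ C := by
  obtain ⟨C, hC⟩ := exists_bound_le (3 * D.g)
    (fun i (q : S.M × S.M) => S.deg q.1 = i ∧ S.deg q.2 = i ∧ S.cls q.1 = S.cls q.2)
    (fun q => |S.Inv q.1 - S.Inv q.2|) fun i hi => by
      obtain ⟨C, hC⟩ := exists_inv_class I S i hi
      exact ⟨C, fun q hq => hC _ _ hq.1 hq.2.1 hq.2.2⟩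
  exact ⟨C, fun E E' h1 h2 h3 => hC _ h1 (E, E') ⟨rfl, h2.symm, h3⟩⟩

omit I

/-- The chosen representative of a class. -/
def rep (c : G) : S.M := (S.exists_rep c).choose

theorem deg_rep (c : G) : S.deg (S.rep c) = D.g := (S.exists_rep c).choose_spec.1

theorem cls_rep (c : G) : S.cls (S.rep c) = c := (S.exists_rep c).choose_spec.2

/-- The invariant of a class. -/
def P (c : G) : ℝ := S.Inv (S.rep c)

/-- The height of a class. -/
def Q (c : G) : ℝ := S.P c + S.P (-c)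

include I

theorem exists_P_eq : ∃ C, ∀ E : S.M, D.g ≤ S.deg E → S.deg E ≤ 3 * D.g →
    |S.Inv E - S.P (S.cls E)| ≤ C := by
  obtain ⟨C, hC⟩ := exists_inv_class_le I S
  obtain ⟨C', hC'⟩ := exists_bound_le (2 * D.g)
    (fun i (q : ℕ × S.M) => q.1 = i ∧ S.deg q.2 = D.g)
    (fun q => |S.Inv (q.2 + q.1 • S.O) - S.Inv q.2|) fun i hi => by
      obtain ⟨C', hC'⟩ := exists_inv_pad_nsmul I S i
      refine ⟨C', fun q hq => ?_⟩
      rw [hq.1]
      exact hC' _ (by rw [hq.2]; omega)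
  refine ⟨C + C', fun E h1 h2 => ?_⟩
  obtain ⟨j, hj⟩ := Nat.exists_eq_add_of_le h1
  set R := S.rep (S.cls E)
  have a := hC E (R + j • S.O) h2
    (by rw [map_add, map_nsmul, S.deg_O, deg_rep, smul_eq_mul, mul_one, hj])
    (by rw [map_add, map_nsmul, S.cls_O, cls_rep, smul_zero, add_zero])
  have b : |S.Inv (R + j • S.O) - S.Inv R| ≤ C' :=
    hC' j (by omega) (j, R) ⟨rfl, deg_rep S _⟩
  unfold P
  rw [abs_le] at a b ⊢
  constructor <;> linarith

/-- The third difference of the invariant vanishes. -/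
theorem exists_cubic : ∃ C, ∀ c₁ c₂ c₃ : G,
    |S.P (c₁ + c₂ + c₃) - S.P (c₁ + c₂) - S.P (c₁ + c₃) - S.P (c₂ + c₃)
      + S.P c₁ + S.P c₂ + S.P c₃ - S.P 0| ≤ C := by
  obtain ⟨C, hC⟩ := exists_delta I S
  obtain ⟨C₁, hC₁⟩ := exists_H_add I S
  obtain ⟨C₂, hC₂⟩ := exists_P_eq I S
  set K : ℝ := (T D : ℝ) + 1 with hK
  refine ⟨C + 7 * K * C₁ + 7 * C₂ + |S.Inv 0 - S.P 0| + |S.H 0| * (3 * (D.g : ℝ)),
    fun c₁ c₂ c₃ => ?_⟩
  set E1 := S.rep c₁
  set E2 := S.rep c₂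
  set E3 := S.rep c₃
  have d1 : S.deg E1 = D.g := deg_rep S _
  have d2 : S.deg E2 = D.g := deg_rep S _
  have d3 : S.deg E3 = D.g := deg_rep S _
  have k := hC E1 E2 E3 (by omega)
  have H12 := hC₁ E1 E2 (by omega)
  have H13 := hC₁ E1 E3 (by omega)
  have H23 := hC₁ E2 E3 (by omega)
  have H123 := hC₁ (E1 + E2) E3 (by rw [map_add]; omega)
  have I12 := hC₂ (E1 + E2) (by rw [map_add]; omega) (by rw [map_add]; omega)
  have I13 := hC₂ (E1 + E3) (by rw [map_add]; omega) (by rw [map_add]; omega)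
  have I23 := hC₂ (E2 + E3) (by rw [map_add]; omega) (by rw [map_add]; omega)
  have I123 := hC₂ (E1 + E2 + E3) (by rw [map_add, map_add]; omega)
    (by rw [map_add, map_add]; omega)
  rw [map_add, cls_rep, cls_rep] at I12 I13 I23
  rw [map_add, map_add, cls_rep, cls_rep, cls_rep] at I123
  have hK0 : 0 ≤ K := by positivity
  have hg : (0 : ℝ) ≤ (D.g : ℝ) := Nat.cast_nonneg _
  have e : S.P (c₁ + c₂ + c₃) - S.P (c₁ + c₂) - S.P (c₁ + c₃) - S.P (c₂ + c₃)
      + S.P c₁ + S.P c₂ + S.P c₃ - S.P 0 =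
      (S.h (T D) (E1 + E2 + E3) - S.h (T D) (E1 + E2) - S.h (T D) (E1 + E3) - S.h (T D) (E2 + E3)
        + S.h (T D) E1 + S.h (T D) E2 + S.h (T D) E3 - S.h (T D) 0)
      - (S.Inv (E1 + E2 + E3) - S.P (c₁ + c₂ + c₃)) + (S.Inv (E1 + E2) - S.P (c₁ + c₂))
      + (S.Inv (E1 + E3) - S.P (c₁ + c₃)) + (S.Inv (E2 + E3) - S.P (c₂ + c₃))
      + (S.Inv 0 - S.P 0)
      - (K - D.g - 3 * D.g) * ((S.H (E1 + E2 + E3) - S.H (E1 + E2) - S.H E3 + S.H 0))
      + (2 * D.g - D.g) * (S.H (E1 + E2) - S.H E1 - S.H E2 + S.H 0)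
      + (K - D.g - 2 * D.g) * (S.H (E1 + E3) - S.H E1 - S.H E3 + S.H 0)
      + (K - D.g - 2 * D.g) * (S.H (E2 + E3) - S.H E2 - S.H E3 + S.H 0)
      + 0 * S.H 0 := by
    simp only [P, Inv, map_add, map_zero, deg_rep, hK, E1, E2, E3]
    push_cast
    ring
  have hb : ∀ {r x : ℝ}, -K ≤ r → r ≤ K → |x| ≤ C₁ → |r * x| ≤ K * C₁ := fun h1 h2 hx => by
    rw [abs_mul]
    exact mul_le_mul (abs_le.2 ⟨h1, h2⟩) hx (abs_nonneg _) hK0
  have h3g : 4 * (D.g : ℝ) ≤ K := by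
    have h4 : 4 * D.g ≤ T D + 1 := by unfold T L; omega
    have : ((4 * D.g : ℕ) : ℝ) ≤ ((T D + 1 : ℕ) : ℝ) := Nat.cast_le.2 h4
    push_cast at this
    exact this
  have t1 := hb (r := K - D.g - 3 * D.g) (by linarith) (by linarith) H123
  have t2 := hb (r := 2 * (D.g : ℝ) - D.g) (by linarith) (by linarith) H12
  have t3 := hb (r := K - D.g - 2 * D.g) (by linarith) (by linarith) H13
  have t4 := hb (r := K - D.g - 2 * D.g) (by linarith) (by linarith) H23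
  have hC₁0 : 0 ≤ C₁ := (abs_nonneg _).trans H12
  have hC₂0 : 0 ≤ C₂ := (abs_nonneg _).trans I12
  have h5 : 0 ≤ K * C₁ := mul_nonneg hK0 hC₁0
  have h6 := neg_abs_le (S.Inv 0 - S.P 0)
  have h7 := le_abs_self (S.Inv 0 - S.P 0)
  have h8 : 0 ≤ |S.H 0| * (3 * (D.g : ℝ)) := by positivity
  rw [e, zero_mul, add_zero]
  rw [abs_le] at k I12 I13 I23 I123 t1 t2 t3 t4 ⊢
  constructor <;>
    linarith [k.1, k.2, I12.1, I12.2, I13.1, I13.2, I23.1, I23.2, I123.1, I123.2, t1.1, t1.2,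
      t2.1, t2.2, t3.1, t3.2, t4.1, t4.2]

/-- The approximate parallelogram law. -/
theorem exists_parallelogram : ∃ C, ∀ c d : G,
    |S.Q (c + d) + S.Q (c - d) - 2 * S.Q c - 2 * S.Q d| ≤ C := by
  obtain ⟨C, hC⟩ := exists_cubic I S
  refine ⟨C + C + |4 * S.P 0|, fun c d => ?_⟩
  have h1 := hC c d (-d)
  have h2 := hC (-c) (-d) d
  rw [add_neg_cancel_right, add_neg_cancel, ← sub_eq_add_neg] at h1
  rw [neg_add_cancel_right, neg_add_cancel] at h2
  have h3 := neg_abs_le (4 * S.P 0)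
  have h4 := le_abs_self (4 * S.P 0)
  simp only [Q, neg_add_rev, neg_sub]
  rw [abs_le] at h1 h2 ⊢
  rw [show -d + -c = -c + -d by abel, show d - c = -c + d by abel]
  constructor <;> linarith [h1.1, h1.2, h2.1, h2.2]

end Sys

end FLTAgent.MW
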