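import Fermat.Agent.MW.Global

/-!
# Multiples, jumps and finiteness
-/

set_option autoImplicit false
set_option linter.unusedSectionVars false
set_option linter.style.haveILetI false

noncomputable section

namespace FLTAgent.MW

open Filter Topology

variable {D : Datum}

section Alg

variable {k : Type} [Field k]

/-- Multiplying a family by a vector. -/
def mulFam {a b n : ℕ} {r : Type} (φ : D.Vec k a) (B : r → D.Vec k b) : r → D.Vec k n :=
  fun i => D.mul a b n φ (B i)

theorem mulFam_li {a b n : ℕ} {r : Type} [Fintype r] (R : Realisation D k) (h : a + b ≤ n)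
    {φ : D.Vec k a} (hφ : φ ≠ 0) {B : r → D.Vec k b} (hB : LinearIndependent k B) :
    LinearIndependent k (mulFam φ B : r → D.Vec k n) := by
  refine hB.map' (D.mul a b n φ) (LinearMap.ker_eq_bot'.2 fun x hx => ?_)
  have h1 := R.phi_mul h φ x
  rw [hx, R.phi_zero] at h1
  rcases mul_eq_zero.1 h1.symm with h2 | h2
  · exact absurd (R.phi_injective (h2.trans R.phi_zero.symm)) hφ
  · exact R.phi_injective (h2.trans R.phi_zero.symm)

end Alg

section Pi

variable {k : Type} [NormedField k]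

theorem exists_norm_eq_apply {ι : Type} [Fintype ι] {x : ι → k} (hx : x ≠ 0) :
    ∃ l, x l ≠ 0 ∧ ‖x l‖ = ‖x‖ := by
  obtain ⟨i₀, hi₀⟩ := Function.ne_iff.1 hx
  obtain ⟨l, -, hl⟩ := Finset.exists_max_image Finset.univ (fun i => ‖x i‖) ⟨i₀, Finset.mem_univ _⟩
  have h1 : ‖x‖ = ‖x l‖ := le_antisymm
    ((pi_norm_le_iff_of_nonneg (norm_nonneg _)).2 fun i => hl i (Finset.mem_univ _))
    (norm_le_pi_norm x l)
  exact ⟨l, fun h => hi₀ (norm_le_zero_iff.1 ((hl i₀ (Finset.mem_univ _)).trans (by simp [h]))),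
    h1.symm⟩

theorem continuous_mulFam {a b n : ℕ} {r : Type} [Fintype r] :
    Continuous fun q : D.Vec k a × (r → D.Vec k b) => (mulFam q.1 q.2 : r → D.Vec k n) := by
  refine continuous_pi fun i => continuous_pi fun l => ?_
  simp only [mulFam, Datum.mul_apply]
  fun_prop

theorem continuous_minors {r ι : Type} [Fintype r] [DecidableEq r] [Fintype ι] [DecidableEq ι] :
    Continuous (minors : (r → ι → k) → (r → ι) → k) :=
  continuous_pi fun f => Continuous.matrix_det (continuous_pi fun i => continuous_pi fun j =>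
    (continuous_apply (f j)).comp (continuous_apply i))

/-- The local discrepancy of multiplication. -/
def scaleL {a b : ℕ} (n : ℕ) {r : ℕ} (φ : D.Vec k a) (o : Fin r → D.Vec k b) : ℝ :=
  lsize (mulFam φ o : Fin r → D.Vec k n) - r * Real.log ‖φ‖ - lsize o

theorem scaleL_reduce {a b n r : ℕ} (R : Realisation D k) (h : a + b ≤ n) {φ : D.Vec k a}
    (hφ : φ ≠ 0) {o : Fin r → D.Vec k b} (ho : LinearIndependent k o) :
    ∃ (ψ : D.Vec k a) (o' : Fin r → D.Vec k b), ‖ψ‖ = 1 ∧ UnitFrame o' ∧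
      scaleL n φ o = lsize (mulFam ψ o' : Fin r → D.Vec k n) := by
  obtain ⟨l, hl0, hl⟩ := exists_norm_eq_apply hφ
  set ψ := (φ l)⁻¹ • φ
  have hψ : ‖ψ‖ = 1 := by
    rw [norm_smul, norm_inv, hl, inv_mul_cancel₀ (norm_ne_zero_iff.2 hφ)]
  obtain ⟨o', ho', hs⟩ := exists_unitFrame (W := Submodule.span k (Set.range o)) (r := r)
    (by rw [finrank_span_eq_card ho, Fintype.card_fin])
  obtain ⟨M, hM⟩ := exists_matrix (ω := o') (y := o) (k := k) fun i =>
    hs.symm ▸ Submodule.subset_span ⟨i, rfl⟩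
  have hd : M.det ≠ 0 := det_ne_zero_of_li (ω := o') (by rw [← hM]; exact ho)
  have hψ0 : ψ ≠ 0 := fun h0 => by simp [h0] at hψ
  have hli := mulFam_li (n := n) R h hψ0 ho'.li
  have e1 : minors (mulFam φ o : Fin r → D.Vec k n) =
      (M.det * φ l ^ r) • minors (mulFam ψ o' : Fin r → D.Vec k n) := by
    have h2 : (mulFam φ o : Fin r → D.Vec k n) =
        fun i => ∑ j, (φ l • M) i j • D.mul a b n ψ (o' j) := funext fun i => by
      show D.mul a b n φ (o i) = _
      have hφe : D.mul a b n φ = φ l • D.mul a b n ψ := by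
        rw [← map_smul, smul_smul, mul_inv_cancel₀ hl0, one_smul]
      rw [hφe, hM]
      simp [map_sum, map_smul, Finset.smul_sum, smul_smul, mul_comm]
    rw [h2, minors_mul, Matrix.det_smul, Fintype.card_fin, mul_comm]
    rfl
  refine ⟨ψ, o', hψ, ho', ?_⟩
  have hm0 := norm_ne_zero_iff.2 (minors_ne_zero_iff.2 hli)
  rw [scaleL, lsize, lsize, lsize, e1, norm_smul, hM, minors_mul, norm_smul, ho'.2, mul_one,
    norm_mul, norm_pow, hl, Real.log_mul (mul_ne_zero (norm_ne_zero_iff.2 hd)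
      (pow_ne_zero _ (norm_ne_zero_iff.2 hφ))) hm0, Real.log_mul (norm_ne_zero_iff.2 hd)
      (pow_ne_zero _ (norm_ne_zero_iff.2 hφ)), Real.log_pow]
  ring

theorem exists_scale_bound [ProperSpace k] (R : Realisation D k) {a b n : ℕ} (h : a + b ≤ n)
    (r : ℕ) : ∃ C : ℝ, ∀ (φ : D.Vec k a) (o : Fin r → D.Vec k b), φ ≠ 0 →
      LinearIndependent k o → |scaleL n φ o| ≤ C := by
  set S : Set (D.Vec k a × (Fin r → D.Vec k b)) :=
    Metric.closedBall 0 1 ∩ ({q | ‖q.1‖ = 1} ∩ {q | ‖minors q.2‖ = 1})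
  have hS : IsCompact S := (isCompact_closedBall _ _).inter_right
    ((isClosed_eq continuous_fst.norm continuous_const).inter
      (isClosed_eq (continuous_minors.comp continuous_snd).norm continuous_const))
  have hc : ContinuousOn (fun q : D.Vec k a × (Fin r → D.Vec k b) =>
      lsize (mulFam q.1 q.2 : Fin r → D.Vec k n)) S := by
    refine ((continuous_minors.comp continuous_mulFam).norm.continuousOn).log fun q hq => ?_
    have h1 : q.1 ≠ 0 := fun h0 => by simpa [h0] using hq.2.1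
    have h2 : LinearIndependent k q.2 := minors_ne_zero_iff.1 fun h0 => by
      simpa [h0] using hq.2.2
    exact norm_ne_zero_iff.2 (minors_ne_zero_iff.2 (mulFam_li R h h1 h2))
  obtain ⟨C, hC⟩ := hS.exists_bound_of_continuousOn hc
  refine ⟨C, fun φ o hφ ho => ?_⟩
  obtain ⟨ψ, o', hψ, ho', e⟩ := scaleL_reduce R h hφ ho
  rw [e]
  refine hC (ψ, o') ⟨?_, hψ, ho'.2⟩
  rw [Metric.mem_closedBall, dist_zero_right]
  exact max_le hψ.le ho'.1

/-- A jump frame: the quotient sizes before and after multiplication by `s`. -/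
def jumpL {a b n : ℕ} {r r' : ℕ} (s : D.Vec k a) (o : Fin r → D.Vec k b)
    (o₂ : Fin r' → D.Vec k n) (x : D.Vec k b) : ℝ :=
  lsize (Sum.elim o₂ fun _ : Unit => D.mul a b n s x) - lsize o₂ -
    lsize (Sum.elim o fun _ : Unit => x) + lsize o

theorem jumpL_reduce {a b n r r' : ℕ} {s : D.Vec k a} {o : Fin r → D.Vec k b}
    {o₂ : Fin r' → D.Vec k n} {x : D.Vec k b} (ho : LinearIndependent k o)
    (ho₂ : LinearIndependent k o₂) (hx : LinearIndependent k (Sum.elim o fun _ : Unit => x))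
    (hsx : LinearIndependent k (Sum.elim o₂ fun _ : Unit => D.mul a b n s x))
    (hsub : ∀ i, D.mul a b n s (o i) ∈ Submodule.span k (Set.range o₂)) :
    ∃ (o₂' : Fin r' → D.Vec k n) (y : D.Vec k b), UnitFrame o₂' ∧ ‖y‖ = 1 ∧
      minors (Sum.elim o₂' fun _ : Unit => D.mul a b n s y) ≠ 0 ∧
      jumpL s o o₂ x ≤ lsize (Sum.elim o₂' fun _ : Unit => D.mul a b n s y) := by
  classical
  obtain ⟨o', f, ho', hs, hid⟩ := exists_idFrame (W := Submodule.span k (Set.range o)) (r := r)
    (by rw [finrank_span_eq_card ho, Fintype.card_fin])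
  obtain ⟨o₂', ho₂', hs₂⟩ := exists_unitFrame (W := Submodule.span k (Set.range o₂)) (r := r')
    (by rw [finrank_span_eq_card ho₂, Fintype.card_fin])
  obtain ⟨M, hM⟩ := exists_matrix (ω := o') (y := o) (k := k) fun i =>
    hs.symm ▸ Submodule.subset_span ⟨i, rfl⟩
  obtain ⟨M₂, hM₂⟩ := exists_matrix (ω := o₂') (y := o₂) (k := k) fun i =>
    hs₂.symm ▸ Submodule.subset_span ⟨i, rfl⟩
  have hd : M.det ≠ 0 := det_ne_zero_of_li (ω := o') (by rw [← hM]; exact ho)
  have hd₂ : M₂.det ≠ 0 := det_ne_zero_of_li (ω := o₂') (by rw [← hM₂]; exact ho₂)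
  set x' := x - ∑ i, x (f i) • o' i with hx'
  have hxf : ∀ j, x' (f j) = 0 := fun j => by
    simp [hx', Finset.sum_apply, hid, Finset.sum_ite_eq']
  obtain ⟨Z, hZ⟩ := exists_matrix (ω := o₂') (k := k)
    (y := fun _ : Unit => ∑ i, x (f i) • D.mul a b n s (o' i)) fun _ => by
    rw [hs₂]
    refine Submodule.sum_mem _ fun i _ => Submodule.smul_mem _ _ ?_
    have h1 : o' i ∈ Submodule.span k (Set.range o) := hs ▸ Submodule.subset_span ⟨i, rfl⟩
    obtain ⟨e, he⟩ := (Submodule.mem_span_range_iff_exists_fun k).1 h1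
    rw [← he, map_sum]
    exact Submodule.sum_mem _ fun l _ => by rw [map_smul]; exact Submodule.smul_mem _ _ (hsub l)
  have e1 : minors (Sum.elim o fun _ : Unit => x) =
      M.det • minors (Sum.elim o' fun _ : Unit => x') := by
    have h := minors_elim M (1 : Matrix Unit Unit k)
      (Matrix.of fun _ i => x (f i)) o' (fun _ => x')
    rw [Matrix.det_one, mul_one] at h
    rw [← h, hM]
    congr 2
    funext _
    simp [hx']
  have e2 : minors (Sum.elim o₂ fun _ : Unit => D.mul a b n s x) =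
      M₂.det • minors (Sum.elim o₂' fun _ : Unit => D.mul a b n s x') := by
    have h := minors_elim M₂ (1 : Matrix Unit Unit k) Z o₂' (fun _ => D.mul a b n s x')
    rw [Matrix.det_one, mul_one] at h
    rw [← h, hM₂]
    congr 2
    funext u
    have := congrFun hZ u
    simp only [Finset.univ_unique, Finset.sum_singleton, Matrix.one_apply_eq, one_smul]
    rw [← this]
    simp [hx', map_sub, map_sum]
  have hne1 : minors (Sum.elim o' fun _ : Unit => x') ≠ 0 := fun h0 =>
    minors_ne_zero_iff.2 hx (by rw [e1, h0, smul_zero])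
  have hne2 : minors (Sum.elim o₂' fun _ : Unit => D.mul a b n s x') ≠ 0 := fun h0 =>
    minors_ne_zero_iff.2 hsx (by rw [e2, h0, smul_zero])
  have hx0 : x' ≠ 0 := fun h0 => by
    refine hne2 (funext fun g => Matrix.det_eq_zero_of_row_eq_zero (Sum.inr ()) fun j => ?_)
    simp [h0]
  obtain ⟨l, hl0, hl⟩ := exists_norm_eq_apply hx0
  set y := (x' l)⁻¹ • x'
  have hy : ‖y‖ = 1 := by
    rw [norm_smul, norm_inv, hl, inv_mul_cancel₀ (norm_ne_zero_iff.2 hx0)]
  have e3 : minors (Sum.elim o₂' fun _ : Unit => D.mul a b n s x') =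
      x' l • minors (Sum.elim o₂' fun _ : Unit => D.mul a b n s y) := by
    have h := minors_elim (1 : Matrix (Fin r') (Fin r') k) (x' l • (1 : Matrix Unit Unit k)) 0 o₂'
      (fun _ => D.mul a b n s y)
    rw [Matrix.det_one, one_mul, Matrix.det_smul, Fintype.card_unit, pow_one, Matrix.det_one,
      mul_one] at h
    rw [← h]
    congr 2
    · funext i
      simp [Matrix.one_apply]
    · funext u
      simp [y, smul_smul, mul_inv_cancel₀ hl0]
  have h4 : ‖x' l‖ ≤ ‖minors (Sum.elim o' fun _ : Unit => x')‖ := by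
    refine le_trans (le_of_eq ?_) (norm_le_pi_norm _ (Sum.elim f fun _ => l))
    rw [minors_apply]
    have hA : (Matrix.of fun (i j : Fin r ⊕ Unit) => Sum.elim o' (fun _ : Unit => x') i
        (Sum.elim f (fun _ => l) j)) = Matrix.fromBlocks (1 : Matrix (Fin r) (Fin r) k)
          (Matrix.of fun i _ => o' i l) 0 (Matrix.of fun _ _ => x' l) := by
      refine Matrix.ext fun i j => ?_
      rcases i with i | i <;> rcases j with j | j <;> simp [hid, hxf, Matrix.one_apply]
    rw [hA, Matrix.det_fromBlocks_zero₂₁, Matrix.det_one, one_mul]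
    simp
  have hny : minors (Sum.elim o₂' fun _ : Unit => D.mul a b n s y) ≠ 0 := fun h0 =>
    hne2 (by rw [e3, h0, smul_zero])
  refine ⟨o₂', y, ho₂', hy, hny, ?_⟩
  have hl' : (0 : ℝ) < ‖x' l‖ := norm_pos_iff.2 hl0
  rw [jumpL, lsize, lsize, lsize, lsize, lsize, e1, e2, e3, hM, hM₂, minors_mul, minors_mul,
    norm_smul, norm_smul, norm_smul, norm_smul, norm_smul, ho'.2, ho₂'.2, mul_one, mul_one,
    Real.log_mul (norm_ne_zero_iff.2 hd₂) (mul_ne_zero hl'.ne' (norm_ne_zero_iff.2 hny)),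
    Real.log_mul hl'.ne' (norm_ne_zero_iff.2 hny),
    Real.log_mul (norm_ne_zero_iff.2 hd) (norm_ne_zero_iff.2 hne1)]
  have := Real.log_le_log hl' h4
  linarith

theorem exists_jump_bound [ProperSpace k] {a : ℕ} (b n r r' : ℕ) (s : D.Vec k a) :
    ∃ C : ℝ, ∀ (o : Fin r → D.Vec k b) (o₂ : Fin r' → D.Vec k n) (x : D.Vec k b),
      LinearIndependent k o → LinearIndependent k o₂ →
      LinearIndependent k (Sum.elim o fun _ : Unit => x) →
      LinearIndependent k (Sum.elim o₂ fun _ : Unit => D.mul a b n s x) →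
      (∀ i, D.mul a b n s (o i) ∈ Submodule.span k (Set.range o₂)) → jumpL s o o₂ x ≤ C := by
  set T : (Fin r' → D.Vec k n) × D.Vec k b → Fin r' ⊕ Unit → D.Vec k n :=
    fun q => Sum.elim q.1 fun _ : Unit => D.mul a b n s q.2
  have hc : Continuous fun q => ‖minors (T q)‖ := by
    refine (continuous_minors.comp (continuous_pi fun i => ?_)).norm
    rcases i with i | i
    · exact (continuous_apply i).comp continuous_fst
    · refine continuous_pi fun l => ?_
      simp only [T, Sum.elim_inr, Datum.mul_apply]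
      fun_prop
  obtain ⟨K, hK⟩ := (isCompact_closedBall (0 : (Fin r' → D.Vec k n) × D.Vec k b) 1)
    |>.exists_bound_of_continuousOn hc.continuousOn
  refine ⟨Real.log (max K 1), fun o o₂ x ho ho₂ hx hsx hsub => ?_⟩
  obtain ⟨o₂', y, ho₂', hy, hny, h⟩ := jumpL_reduce ho ho₂ hx hsx hsub
  refine h.trans (Real.log_le_log (norm_pos_iff.2 hny) (le_max_of_le_left ?_))
  have h1 := hK (o₂', y) (by rw [Metric.mem_closedBall, dist_zero_right]; exact max_le ho₂'.1 hy.le)
  simpa [T] using h1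

end Pi

section Good

variable {p : ℕ} [Fact p.Prime]

theorem scale_good (R : Realisation D ℚ_[p]) (R' : Realisation D (ZMod p)) {a b n r : ℕ}
    (h : a + b ≤ n) {φ : D.Vec ℚ_[p] a} (hφ : φ ≠ 0) {o : Fin r → D.Vec ℚ_[p] b}
    (ho : LinearIndependent ℚ_[p] o) : scaleL n φ o = 0 := by
  obtain ⟨ψ, o', hψ, ho', e⟩ := scaleL_reduce R h hφ ho
  rw [e]
  have hψi : ∀ i, ‖ψ i‖ ≤ 1 := fun i => hψ ▸ norm_le_pi_norm ψ i
  obtain ⟨l, -, hl⟩ := exists_norm_eq_apply (x := ψ) (fun h0 => by simp [h0] at hψ)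
  have hne : (fun i => red (ψ i)) ≠ (0 : D.Vec (ZMod p) a) := fun h0 =>
    red_ne_zero (hl.trans hψ) (congrFun h0 l)
  refine (lsize_eq_zero (fun i l => (integral_mul hψi (ho'.integral i) l).1) ?_).1
  have e2 : redFam (mulFam ψ o' : Fin r → D.Vec ℚ_[p] n) =
      mulFam (fun i => red (ψ i)) (redFam o') :=
    funext fun i => funext fun l => (integral_mul hψi (ho'.integral i) l).2
  show LinearIndependent (ZMod p) (redFam (mulFam ψ o' : Fin r → D.Vec ℚ_[p] n))
  rw [e2]
  exact mulFam_li R' h hne ho'.li_red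

theorem jump_good {a b n r r' : ℕ} {s : D.Vec ℚ_[p] a} (hs : ∀ i, ‖s i‖ ≤ 1)
    {o : Fin r → D.Vec ℚ_[p] b} {o₂ : Fin r' → D.Vec ℚ_[p] n} {x : D.Vec ℚ_[p] b}
    (ho : LinearIndependent ℚ_[p] o) (ho₂ : LinearIndependent ℚ_[p] o₂)
    (hx : LinearIndependent ℚ_[p] (Sum.elim o fun _ : Unit => x))
    (hsx : LinearIndependent ℚ_[p] (Sum.elim o₂ fun _ : Unit => D.mul a b n s x))
    (hsub : ∀ i, D.mul a b n s (o i) ∈ Submodule.span ℚ_[p] (Set.range o₂)) :
    jumpL s o o₂ x ≤ 0 := by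
  obtain ⟨o₂', y, ho₂', hy, hny, h⟩ := jumpL_reduce ho ho₂ hx hsx hsub
  refine h.trans (Real.log_nonpos (norm_nonneg _) ?_)
  refine (pi_norm_le_iff_of_nonneg zero_le_one).2 fun g => (Integral.minors ?_ g).1
  exact (ho₂'.integral.elim fun _ l => (integral_mul hs (fun i => hy ▸ norm_le_pi_norm y i) l).1).1

end Good

section Global

variable (I : Input D)

theorem exists_basis_frame {n r : ℕ} {W : Submodule ℚ (D.Vec ℚ n)}
    (hr : Module.finrank ℚ W = r) : ∃ o : Fin r → D.Vec ℚ n,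
      LinearIndependent ℚ o ∧ Submodule.span ℚ (Set.range o) = W := by
  refine ⟨fun i => (Module.finBasisOfFinrankEq ℚ W hr i : W),
    (Module.finBasisOfFinrankEq ℚ W hr).linearIndependent.map' W.subtype W.ker_subtype, ?_⟩
  have h := (Module.finBasisOfFinrankEq ℚ W hr).span_eq
  apply_fun Submodule.map W.subtype at h
  rw [Submodule.map_span, Submodule.map_top, Submodule.range_subtype, ← Set.range_comp] at h
  exact h

theorem castV_ne_zero {k : Type} [Field k] [CharZero k] {ι : Type} {x : ι → ℚ} (hx : x ≠ 0) :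
    castV k x ≠ 0 := by
  obtain ⟨i, hi⟩ := Function.ne_iff.1 hx
  exact fun h => hi (Rat.cast_eq_zero.1 (congrFun h i))

theorem castFam_mulFam {k : Type} [NormedField k] [CharZero k] {a b n r : ℕ} (φ : D.Vec ℚ a)
    (o : Fin r → D.Vec ℚ b) :
    castFam k (fun i => D.mul a b n φ (o i)) = mulFam (castV k φ) (castFam k o) :=
  funext fun i => castV_mul k a b n φ (o i)

include I in
/-- **Heights of multiples.** -/
theorem exists_scale {a b n : ℕ} (h : a + b ≤ n) (r : ℕ) :
    ∃ C : ℝ, ∀ φ : D.Vec ℚ a, φ ≠ 0 → ∀ W : Submodule ℚ (D.Vec ℚ b), Module.finrank ℚ W = r →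
      |hW (W.map (D.mul a b n φ)) - r * hgt φ - hW W| ≤ C := by
  classical
  set T := {q : D.Vec ℚ a × (Fin r → D.Vec ℚ b) // q.1 ≠ 0 ∧ LinearIndependent ℚ q.2}
  set F : T → Plc →₀ ℝ := fun q =>
    loc (minors fun i => D.mul a b n q.1.1 (q.1.2 i)) - (r : ℝ) • loc q.1.1 - loc (minors q.1.2)
    with hF
  have hnone : ∀ q : T, F q none = scaleL n (castV ℝ q.1.1) (castFam ℝ q.1.2) := fun q => by
    simp only [hF, Finsupp.sub_apply, Finsupp.smul_apply, loc_minors_none, smul_eq_mul, scaleL,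
      castFam_mulFam]
    rw [loc_none]
    rfl
  have hsome : ∀ (p : ℕ) [hp : Fact p.Prime] (q : T), F q (some ⟨p, hp.out⟩) =
      scaleL n (castV ℚ_[p] q.1.1) (castFam ℚ_[p] q.1.2) := fun p _ q => by
    simp only [hF, Finsupp.sub_apply, Finsupp.smul_apply, loc_minors_some, smul_eq_mul, scaleL,
      castFam_mulFam]
    rw [loc_some]
    rfl
  obtain ⟨C, hC⟩ := exists_total_bound F I.bad (by
      obtain ⟨C, hC⟩ := exists_scale_bound I.real h r
      exact ⟨C, fun q => hnone q ▸ hC _ _ (castV_ne_zero q.2.1) (linearIndependent_castFam ℝ q.2.2)⟩)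
    (fun ⟨p, hp⟩ => by
      haveI := Fact.mk hp
      obtain ⟨C, hC⟩ := exists_scale_bound (I.padic p) h r
      exact ⟨C, fun q => hsome p q ▸ hC _ _ (castV_ne_zero q.2.1)
        (linearIndependent_castFam ℚ_[p] q.2.2)⟩)
    fun ⟨p, hp⟩ hnot q => by
      haveI := Fact.mk hp
      rw [hsome p q]
      exact scale_good (I.padic p) (I.good p hnot) h (castV_ne_zero q.2.1)
        (linearIndependent_castFam ℚ_[p] q.2.2)
  refine ⟨C, fun φ hφ W hr => ?_⟩
  obtain ⟨o, ho, hs⟩ := exists_basis_frame hr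
  have hli : LinearIndependent ℚ fun i => D.mul a b n φ (o i) := by
    refine ho.map' (D.mul a b n φ) (LinearMap.ker_eq_bot'.2 fun x hx => ?_)
    have h1 := I.rat.phi_mul h φ x
    rw [hx, I.rat.phi_zero] at h1
    rcases mul_eq_zero.1 h1.symm with h2 | h2
    · exact absurd (I.rat.phi_injective (h2.trans I.rat.phi_zero.symm)) hφ
    · exact I.rat.phi_injective (h2.trans I.rat.phi_zero.symm)
  have h1 := hC ⟨(φ, o), hφ, ho⟩
  simp only [hF, map_sub, ← Finsupp.smul_single_one] at h1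
  have hsm : total ((r : ℝ) • loc φ) = r * hgt φ := by
    rw [Nat.cast_smul_eq_nsmul, map_nsmul, nsmul_eq_mul]; rfl
  rw [hsm, show total (loc (minors o)) = hW W from hW_eq ho hs] at h1
  rwa [show total (loc (minors fun i => D.mul a b n φ (o i))) = hW (W.map (D.mul a b n φ)) from
    hW_eq hli (by rw [← hs, Submodule.map_span, ← Set.range_comp]; rfl)] at h1

theorem sup_span_singleton {n r : ℕ} {o : Fin r → D.Vec ℚ n} {W : Submodule ℚ (D.Vec ℚ n)}
    (hs : Submodule.span ℚ (Set.range o) = W) (x : D.Vec ℚ n) :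
    Submodule.span ℚ (Set.range (Sum.elim o fun _ : Unit => x)) = W ⊔ Submodule.span ℚ {x} := by
  rw [Set.Sum.elim_range, Submodule.span_union, hs, Set.range_const]

theorem li_of_notMem {n r : ℕ} {o : Fin r → D.Vec ℚ n} (ho : LinearIndependent ℚ o)
    {W : Submodule ℚ (D.Vec ℚ n)} (hs : Submodule.span ℚ (Set.range o) = W) {x : D.Vec ℚ n}
    (hx : x ∉ W) : LinearIndependent ℚ (Sum.elim o fun _ : Unit => x) :=
  minors_ne_zero_iff.1 fun h0 => hx (hs ▸ mem_span_of_mem ho h0)

/-- **Jumps do not grow under multiplication.** -/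
theorem exists_jump {a : ℕ} (b n r r' : ℕ) (s : D.Vec ℚ a) :
    ∃ C : ℝ, ∀ (W : Submodule ℚ (D.Vec ℚ b)) (W₂ : Submodule ℚ (D.Vec ℚ n)) (x : D.Vec ℚ b),
      Module.finrank ℚ W = r → Module.finrank ℚ W₂ = r' → x ∉ W →
      D.mul a b n s x ∉ W₂ → (∀ w ∈ W, D.mul a b n s w ∈ W₂) →
      hW (W₂ ⊔ Submodule.span ℚ {D.mul a b n s x}) - hW W₂ ≤
        hW (W ⊔ Submodule.span ℚ {x}) - hW W + C := by
  classical
  set T := {q : (Fin r → D.Vec ℚ b) × (Fin r' → D.Vec ℚ n) × D.Vec ℚ b //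
    LinearIndependent ℚ q.1 ∧ LinearIndependent ℚ q.2.1 ∧
    LinearIndependent ℚ (Sum.elim q.1 fun _ : Unit => q.2.2) ∧
    LinearIndependent ℚ (Sum.elim q.2.1 fun _ : Unit => D.mul a b n s q.2.2) ∧
    ∀ i, D.mul a b n s (q.1 i) ∈ Submodule.span ℚ (Set.range q.2.1)}
  set F : T → Plc →₀ ℝ := fun q =>
    loc (minors (Sum.elim q.1.2.1 fun _ : Unit => D.mul a b n s q.1.2.2)) - loc (minors q.1.2.1)
      - loc (minors (Sum.elim q.1.1 fun _ : Unit => q.1.2.2)) + loc (minors q.1.1) with hF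
  have hsub : ∀ (k : Type) [NormedField k] [CharZero k] (q : T) (i : Fin r),
      D.mul a b n (castV k s) (castFam k q.1.1 i) ∈
        Submodule.span k (Set.range (castFam k q.1.2.1)) := fun k _ _ q i => by
    rw [span_castFam rfl, show castFam k q.1.1 i = castV k (q.1.1 i) from rfl, ← castV_mul]
    exact castV_mem (q.2.2.2.2.2 i)
  have hcf : ∀ (k : Type) [NormedField k] [CharZero k] (q : T),
      castFam k (Sum.elim q.1.2.1 fun _ : Unit => D.mul a b n s q.1.2.2) =
        Sum.elim (castFam k q.1.2.1) (fun _ : Unit => D.mul a b n (castV k s) (castV k q.1.2.2)) ∧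
      castFam k (Sum.elim q.1.1 fun _ : Unit => q.1.2.2) =
        Sum.elim (castFam k q.1.1) (fun _ : Unit => castV k q.1.2.2) := fun k _ _ q => by
    rw [castFam_elim, castFam_elim]
    refine ⟨?_, rfl⟩
    congr 1
    funext u
    exact castV_mul k a b n s q.1.2.2
  have hyp : ∀ (k : Type) [NormedField k] [CharZero k] (q : T),
      LinearIndependent k (Sum.elim (castFam k q.1.1) fun _ : Unit => castV k q.1.2.2) ∧
      LinearIndependent k (Sum.elim (castFam k q.1.2.1)
        fun _ : Unit => D.mul a b n (castV k s) (castV k q.1.2.2)) := fun k _ _ q => by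
    rw [← (hcf k q).1, ← (hcf k q).2]
    exact ⟨linearIndependent_castFam k q.2.2.2.1, linearIndependent_castFam k q.2.2.2.2.1⟩
  obtain ⟨C, hC⟩ := exists_total_upper F
    ((loc s).support.preimage some (Option.some_injective _).injOn) (by
      obtain ⟨C, hC⟩ := exists_jump_bound b n r r' (castV ℝ s)
      refine ⟨C, fun q => ?_⟩
      simp only [hF, Finsupp.sub_apply, Finsupp.add_apply, loc_minors_none, (hcf ℝ q).1,
        (hcf ℝ q).2]
      exact hC _ _ _ (linearIndependent_castFam ℝ q.2.1) (linearIndependent_castFam ℝ q.2.2.1)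
        (hyp ℝ q).1 (hyp ℝ q).2 (hsub ℝ q))
    (fun ⟨p, hp⟩ => by
      haveI := Fact.mk hp
      obtain ⟨C, hC⟩ := exists_jump_bound b n r r' (castV ℚ_[p] s)
      refine ⟨C, fun q => ?_⟩
      simp only [hF, Finsupp.sub_apply, Finsupp.add_apply, loc_minors_some, (hcf ℚ_[p] q).1,
        (hcf ℚ_[p] q).2]
      exact hC _ _ _ (linearIndependent_castFam ℚ_[p] q.2.1)
        (linearIndependent_castFam ℚ_[p] q.2.2.1) (hyp _ q).1 (hyp _ q).2 (hsub _ q))
    fun ⟨p, hp⟩ hnot q => by
      haveI := Fact.mk hp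
      simp only [hF, Finsupp.sub_apply, Finsupp.add_apply, loc_minors_some, (hcf ℚ_[p] q).1,
        (hcf ℚ_[p] q).2]
      refine jump_good (fun i => ?_) (linearIndependent_castFam ℚ_[p] q.2.1)
        (linearIndependent_castFam ℚ_[p] q.2.2.1) (hyp _ q).1 (hyp _ q).2 (hsub _ q)
      rw [Finset.mem_preimage, Finsupp.mem_support_iff, not_not, loc_some] at hnot
      refine (norm_le_pi_norm (castV ℚ_[p] s) i).trans ?_
      rcases Real.log_eq_zero.1 hnot with h | h | h
      · exact h.le.trans zero_le_one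
      · exact h.le
      · linarith [norm_nonneg (castV ℚ_[p] s), show ‖castV ℚ_[p] s‖ = -1 from h]
  refine ⟨C, fun W W₂ x hr hr₂ hx hsx hmem => ?_⟩
  obtain ⟨o, ho, hs⟩ := exists_basis_frame hr
  obtain ⟨o₂, ho₂, hs₂⟩ := exists_basis_frame hr₂
  have l1 := li_of_notMem ho hs hx
  have l2 := li_of_notMem ho₂ hs₂ hsx
  have h1 := hC ⟨(o, o₂, x), ho, ho₂, l1, l2, fun i =>
    hs₂.symm ▸ hmem _ (hs ▸ Submodule.subset_span ⟨i, rfl⟩)⟩
  simp only [hF, map_sub, map_add] at h1
  rw [show total (loc (minors o)) = hW W from hW_eq ho hs,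
    show total (loc (minors o₂)) = hW W₂ from hW_eq ho₂ hs₂,
    show total (loc (minors (Sum.elim o fun _ : Unit => x))) = hW (W ⊔ Submodule.span ℚ {x}) from
      hW_eq l1 (sup_span_singleton hs x),
    show total (loc (minors (Sum.elim o₂ fun _ : Unit => D.mul a b n s x))) =
      hW (W₂ ⊔ Submodule.span ℚ {D.mul a b n s x}) from
      hW_eq l2 (sup_span_singleton hs₂ _)] at h1
  linarith

/-- **A jump does not lower the height much.** -/
theorem exists_lower {n : ℕ} (r : ℕ) (ev : Fin (D.dim n) → ℤ) :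
    ∃ C : ℝ, ∀ (W : Submodule ℚ (D.Vec ℚ n)) (x : D.Vec ℚ n), Module.finrank ℚ W = r →
      (∀ w ∈ W, ∑ l, (ev l : ℚ) * w l = 0) → ∑ l, (ev l : ℚ) * x l ≠ 0 →
      hW W ≤ hW (W ⊔ Submodule.span ℚ {x}) + C := by
  classical
  set T := {q : (Fin r → D.Vec ℚ n) × D.Vec ℚ n // LinearIndependent ℚ q.1 ∧
    (∀ i, ∑ l, (ev l : ℚ) * q.1 i l = 0) ∧ ∑ l, (ev l : ℚ) * q.2 l ≠ 0}
  set F : T → Plc →₀ ℝ := fun q => loc (minors q.1.1) + locC (∑ l, (ev l : ℚ) * q.1.2 l)
    - loc (minors (Sum.elim q.1.1 fun _ : Unit => q.1.2)) with hF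
  have key : ∀ (k : Type) [NormedField k] [CharZero k] (K : ℝ), 0 < K →
      (∀ g : Fin (D.dim n) → k, ‖∑ l, ((ev l : ℤ) : k) * g l‖ ≤ K * ‖g‖) → ∀ q : T,
      lsize (castFam k q.1.1) + Real.log ‖((∑ l, (ev l : ℚ) * q.1.2 l : ℚ) : k)‖
        - lsize (castFam k (Sum.elim q.1.1 fun _ : Unit => q.1.2)) ≤ Real.log K := by
    intro k _ _ K hK hev q
    obtain ⟨⟨o, x⟩, ho, hev0, hx⟩ := q
    have hli := linearIndependent_castFam k ho
    have hm := norm_ne_zero_iff.2 (minors_ne_zero_iff.2 hli)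
    have hc : ((∑ l, (ev l : ℚ) * x l : ℚ) : k) ≠ 0 := Rat.cast_ne_zero.2 hx
    have hB : ∀ i, ∑ l, ((ev l : ℤ) : k) * castFam k o i l = 0 := fun i => by
      have h := congrArg (fun q : ℚ => (q : k)) (hev0 i)
      simpa [castFam, castV] using h
    obtain ⟨f, hf0, hf⟩ := exists_norm_eq_apply (minors_ne_zero_iff.2 hli)
    have hex := minors_mul_eval (castFam k o) (castV k x) (fun l => ((ev l : ℤ) : k)) hB f
    have hcx : ∑ l, ((ev l : ℤ) : k) * castV k x l = ((∑ l, (ev l : ℚ) * x l : ℚ) : k) := by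
      simp [castV]
    set big := castFam k (Sum.elim o fun _ : Unit => x) with hbig
    have hbe : big = Sum.elim (castFam k o) fun _ : Unit => castV k x := castFam_elim _ _
    rw [← hbe, hcx] at hex
    have h1 : ‖minors (castFam k o)‖ * ‖((∑ l, (ev l : ℚ) * x l : ℚ) : k)‖ ≤ K * ‖minors big‖ := by
      rw [← hf, ← norm_mul, hex]
      refine (hev _).trans (mul_le_mul_of_nonneg_left ?_ hK.le)
      exact (pi_norm_le_iff_of_nonneg (norm_nonneg _)).2 fun l => norm_le_pi_norm (minors big) _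
    have hb0 : 0 < ‖minors big‖ := by
      refine pos_of_mul_pos_right (lt_of_lt_of_le ?_ h1) hK.le
      exact mul_pos (lt_of_le_of_ne (norm_nonneg _) (Ne.symm hm)) (norm_pos_iff.2 hc)
    have h2 := Real.log_le_log (mul_pos (lt_of_le_of_ne (norm_nonneg _) (Ne.symm hm))
      (norm_pos_iff.2 hc)) h1
    rw [Real.log_mul hm (norm_ne_zero_iff.2 hc), Real.log_mul hK.ne' hb0.ne'] at h2
    show lsize _ + _ - lsize _ ≤ _
    rw [lsize, lsize]
    simp only at h2 ⊢
    linarith
  have hnarch : ∀ (p : ℕ) [Fact p.Prime] (q : T),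
      F q (some ⟨p, Fact.out⟩) ≤ Real.log 1 := fun p _ q => by
    simp only [hF, Finsupp.sub_apply, Finsupp.add_apply, loc_minors_some]
    simp only [locC, loc_some, pi_norm_const]
    refine key ℚ_[p] 1 one_pos (fun g => ?_) q
    rw [one_mul]
    refine IsUltrametricDist.norm_sum_le_of_forall_le_of_nonneg (norm_nonneg _) fun l _ => ?_
    rw [norm_mul]
    exact (mul_le_of_le_one_left (norm_nonneg _) (norm_intCast_padic_le _)).trans
      (norm_le_pi_norm g l)
  obtain ⟨C, hC⟩ := exists_total_upper F ∅ (by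
      refine ⟨Real.log ((∑ l, |(ev l : ℝ)|) + 1), fun q => ?_⟩
      simp only [hF, Finsupp.sub_apply, Finsupp.add_apply, loc_minors_none]
      simp only [locC, loc_none, pi_norm_const]
      refine key ℝ _ (add_pos_of_nonneg_of_pos (Finset.sum_nonneg fun l _ => abs_nonneg _) one_pos)
        (fun g => ?_) q
      refine (norm_sum_le _ _).trans ?_
      rw [add_mul, Finset.sum_mul]
      refine le_add_of_le_of_nonneg (Finset.sum_le_sum fun l _ => ?_) (by positivity)
      rw [norm_mul, Real.norm_eq_abs]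
      exact mul_le_mul_of_nonneg_left (norm_le_pi_norm g l) (abs_nonneg _))
    (fun ⟨p, hp⟩ => by
      haveI := Fact.mk hp
      exact ⟨_, fun q => hnarch p q⟩)
    fun ⟨p, hp⟩ _ q => by
      haveI := Fact.mk hp
      have := hnarch p q
      rwa [Real.log_one] at this
  refine ⟨C, fun W x hr hev0 hx => ?_⟩
  obtain ⟨o, ho, hs⟩ := exists_basis_frame hr
  have hxW : x ∉ W := fun h => hx (hev0 x h)
  have h1 := hC ⟨(o, x), ho, fun i => hev0 _ (hs ▸ Submodule.subset_span ⟨i, rfl⟩), hx⟩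
  simp only [hF, map_sub, map_add, total_locC hx] at h1
  rw [show total (loc (minors o)) = hW W from hW_eq ho hs,
    show total (loc (minors (Sum.elim o fun _ : Unit => x))) = hW (W ⊔ Submodule.span ℚ {x}) from
      hW_eq (li_of_notMem ho hs hxW) (sup_span_singleton hs x)] at h1
  linarith

/-- **Northcott for subspaces.** -/
theorem finite_subspaces (n r : ℕ) (B : ℝ) :
    {W : Submodule ℚ (D.Vec ℚ n) | Module.finrank ℚ W = r ∧ hW W ≤ B}.Finite := by
  classical
  obtain ⟨S, hS⟩ := finite_lines (ι := Fin r → Fin (D.dim n)) B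
  have hex : ∀ W ∈ {W : Submodule ℚ (D.Vec ℚ n) | Module.finrank ℚ W = r ∧ hW W ≤ B},
      ∃ y ∈ S, ∃ (c : ℚ) (o : Fin r → D.Vec ℚ n), c ≠ 0 ∧ LinearIndependent ℚ o ∧
        Submodule.span ℚ (Set.range o) = W ∧ minors o = c • y := by
    rintro W ⟨hr, hB⟩
    obtain ⟨o, ho, hs⟩ := exists_basis_frame hr
    obtain ⟨y, hy, c, hc, he⟩ := hS (minors o) (minors_ne_zero_iff.2 ho)
      ((hW_eq ho hs).trans_le hB)
    exact ⟨y, hy, c, o, hc, ho, hs, he⟩
  choose! y hy c o hc ho hs he using hex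
  refine Set.Finite.of_finite_image (f := y) (S.finite_toSet.subset ?_) ?_
  · rintro _ ⟨W, hW, rfl⟩; exact hy W hW
  · intro W hW W' hW' hyy
    obtain ⟨f, hf⟩ := exists_minor_ne_zero (ho W hW)
    have hy0 : y W f ≠ 0 := fun h => hf (by rw [he W hW]; simp [h])
    have hf' : minors (o W') f ≠ 0 := by
      rw [he W' hW', ← hyy]; simp [hc W' hW', hy0]
    obtain ⟨M, hMd, -, hM⟩ := exists_normalised hf
    obtain ⟨M', hMd', -, hM'⟩ := exists_normalised hf'
    have heq : (fun i => ∑ l, M i l • o W l) = fun i => ∑ l, M' i l • o W' l :=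
      funext fun i => funext fun x => by
        rw [hM i x, hM' i x, he W hW, he W' hW', ← hyy]
        simp only [Pi.smul_apply, smul_eq_mul]
        field_simp [hc W hW, hc W' hW']
    have sp : ∀ {W : Submodule ℚ (D.Vec ℚ n)} {o : Fin r → D.Vec ℚ n}
        {M : Matrix (Fin r) (Fin r) ℚ}, LinearIndependent ℚ o → M.det ≠ 0 →
        Submodule.span ℚ (Set.range o) = W →
        Submodule.span ℚ (Set.range fun i => ∑ l, M i l • o l) = W := by
      intro W o M li hd hs
      have hli : LinearIndependent ℚ fun i => ∑ l, M i l • o l := by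
        rw [← minors_ne_zero_iff, minors_mul]
        exact smul_ne_zero hd (minors_ne_zero_iff.2 li)
      refine Submodule.eq_of_le_of_finrank_le (Submodule.span_le.2 ?_) ?_
      · rintro _ ⟨i, rfl⟩
        exact Submodule.sum_mem _ fun l _ => Submodule.smul_mem _ _
          (hs ▸ Submodule.subset_span ⟨l, rfl⟩)
      · rw [finrank_span_eq_card hli, ← hs, finrank_span_eq_card li]
    rw [← sp (ho W hW) (by rw [hMd]; exact inv_ne_zero hf) (hs W hW), heq,
      sp (ho W' hW') (by rw [hMd']; exact inv_ne_zero hf') (hs W' hW')]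

theorem hW_nonneg {n : ℕ} (W : Submodule ℚ (D.Vec ℚ n)) : 0 ≤ hW W := hgt_nonneg _

theorem hW_span_singleton {n : ℕ} {φ : D.Vec ℚ n} (hφ : φ ≠ 0) :
    hW (Submodule.span ℚ {φ}) = hgt φ := by
  classical
  rw [← hW_eq (B := fun _ : Unit => φ) ((linearIndependent_unique_iff (v := fun _ : Unit => φ)).2 hφ)
    (by rw [Set.range_const])]
  rw [show minors (fun _ : Unit => φ) = φ ∘ (Equiv.funUnique Unit (Fin (D.dim n))) from
    funext fun f => by simp [minors_apply]]
  exact hgt_comp_equiv _ _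

end Global

end FLTAgent.MW
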