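import Fermat.Agent.MW.WeakSquares
import Fermat.Agent.Mazur.Kummer
import Fermat.Agent.Kronecker.GoodReduction
import Fermat.Agent.EigenLattice.Coord
import Fermat.Agent.EigenReps.Level
import Fermat.Agent.Divisible.Main

/-!
# Weak Mordell–Weil: `J₀(N)(ℚ)` modulo `2` is finite
-/

set_option autoImplicit false
set_option linter.style.haveILetI false
set_option linter.unusedSectionVars false
set_option synthInstance.maxHeartbeats 400000
set_option maxHeartbeats 1000000

noncomputable section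

namespace FLTAgent.MW

open AlgebraicCurve ModularCurve

local notation "QA" => AlgebraicClosure ℚ
local notation "GG" => (AlgebraicClosure ℚ ≃ₐ[ℚ] AlgebraicClosure ℚ)

local instance (priority := 2000) algSub' (L : IntermediateField ℚ (AlgebraicClosure ℚ)) :
    Algebra ℚ L := L.algebra'

theorem zmod_two_cases (a : ZMod 2) : a = 0 ∨ a = 1 := by
  revert a; decide

theorem neg_one_pow_val_inj {a b : ZMod 2} (h : (-1 : QA) ^ a.val = (-1) ^ b.val) : a = b := by
  rcases zmod_two_cases a with rfl | rfl <;> rcases zmod_two_cases b with rfl | rfl <;>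
    first
      | rfl
      | (exfalso; simp only [ZMod.val_zero, ZMod.val_one, pow_zero, pow_one] at h; norm_num at h)

theorem neg_one_pow_val_add (a b : ZMod 2) :
    (-1 : QA) ^ (a + b).val = (-1) ^ a.val * (-1) ^ b.val := by
  rcases zmod_two_cases a with rfl | rfl <;> rcases zmod_two_cases b with rfl | rfl <;>
    simp [ZMod.val_one, show (1 : ZMod 2) + 1 = 0 from rfl]

/-- Kummer theory with even values away from `2 N`. -/
theorem exists_sqrt {N : ℕ} [NeZero N] {L : IntermediateField ℚ QA}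
    (U : Subgroup GG) (hLU : L.fixingSubgroup ≤ U) (V : Subgroup GG) (hV : IsOpen (V : Set GG))
    (χ : GG → ZMod 2) (hχ : ∀ σ ∈ U, ∀ τ ∈ U, χ (σ * τ) = χ σ + χ τ) (hχV : ∀ σ ∈ V, χ σ = 0)
    (hVU : V ≤ U)
    (hI : ∀ q : ℕ, q.Prime → ¬ q ∣ 2 * N → ∀ A : ValuationSubring QA, A.LiesOverPrime q →
      A.inertiaSubgroupIn ℚ ≤ U ∧ ∀ σ ∈ A.inertiaSubgroupIn ℚ, χ σ = 0) :
    ∃ β : QA, β ≠ 0 ∧ β ^ 2 ∈ L ∧ (∀ σ ∈ L.fixingSubgroup, σ β = (-1) ^ (χ σ).val * β) ∧
      ∀ q : ℕ, q.Prime → ¬ q ∣ 2 * N → ∀ A : ValuationSubring QA, A.LiesOverPrime q →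
        ∃ y ∈ L, A.valuation (β ^ 2) = A.valuation y ^ 2 := by
  haveI := Mazur.isGalois_QQb
  obtain ⟨β, hβ0, hβ⟩ := Mazur.exists_kummer U V hV hVU (fun σ => (-1 : QA) ^ (χ σ).val)
    (fun σ _ => pow_ne_zero _ (neg_ne_zero.2 one_ne_zero))
    (fun σ hσ τ hτ => by
      rw [hχ σ hσ τ hτ, neg_one_pow_val_add, map_pow σ, map_neg σ, map_one σ])
    (fun σ hσ => by simp [hχV σ hσ])
  refine ⟨β, hβ0, ?_, fun σ hσ => hβ σ (hLU hσ), fun q hq hqN A hA => ?_⟩
  · rw [← InfiniteGalois.fixedField_fixingSubgroup L]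
    rintro ⟨σ, hσ⟩
    show σ (β ^ 2) = β ^ 2
    rw [map_pow, hβ σ (hLU hσ), mul_pow, ← pow_mul, mul_comm (χ σ).val, pow_mul, neg_one_sq,
      one_pow, one_mul]
  · obtain ⟨hIU, hI0⟩ := hI q hq hqN A hA
    obtain ⟨i, hi⟩ := Mazur.exists_zpow_valuation A hq hA hβ0 fun σ hσ => by
      rw [hβ σ (hIU hσ), hI0 σ hσ, ZMod.val_zero, pow_zero, one_mul]
    exact ⟨(q : QA) ^ i, zpow_mem (natCast_mem L q) i, by rw [map_pow, hi, map_zpow₀]⟩

theorem mul_two_nsmul {G : Type*} [AddGroup G] {x : G} {l : ℕ} (h : l • x = 0) : (l : ℤ) • x = 0 := by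
  rwa [natCast_zsmul]

/-- **Weak Mordell–Weil.** Rational classes form finitely many classes modulo doubles of rational
classes. -/
theorem exists_finset_mod_two (N : ℕ) [NeZero N] :
    ∃ R : Finset (JZero N), (∀ r ∈ R, ∀ σ : GG, σ • r = r) ∧
      ∀ z : JZero N, (∀ σ : GG, σ • z = z) →
        ∃ r ∈ R, ∃ w : JZero N, (∀ σ : GG, σ • w = w) ∧ z = r + 2 • w := by
  classical
  haveI := Mazur.isGalois_QQb
  let κC := Kronecker.complexEmb
  obtain ⟨L, hL, hLfix⟩ := EigenLattice.exists_level_galMx (N := N) κC 2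
  haveI := hL
  haveI : NumberField L := ⟨⟩
  -- the fixer of the two-torsion
  let U : Subgroup GG :=
    { carrier := {σ | ∀ x : JZero N, 2 • x = 0 → σ • x = x}
      one_mem' := fun x _ => one_smul _ x
      mul_mem' := fun {a b} ha hb x hx => by rw [mul_smul, hb x hx, ha x hx]
      inv_mem' := fun {a} ha x hx => by
        conv_lhs => rw [← ha x hx]
        rw [inv_smul_smul] }
  have hLU : L.fixingSubgroup ≤ U := fun σ hσ x hx => by
    set c : Pic0.torsion QA (modularFunctionFieldBar N) 2 :=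
      ⟨x, Pic0.mem_torsion.2 (mul_two_nsmul hx)⟩
    have h := EigenLattice.galMx_mulVec (N := N) κC 2 σ c
    rw [hLfix σ ((IntermediateField.mem_fixingSubgroup_iff _ _).1 hσ), Matrix.one_mulVec] at h
    exact (JZero.coe_torsionGaloisRep_apply N σ c).symm.trans
      (congrArg Subtype.val ((EigenLattice.torsCoord κC 2).injective h).symm)
  have hIU : ∀ q : ℕ, q.Prime → ¬ q ∣ 2 * N → ∀ A : ValuationSubring QA, A.LiesOverPrime q →
      ∀ σ ∈ A.inertiaSubgroupIn ℚ, ∀ x : JZero N, 4 • x = 0 → σ • x = x := by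
    intro q hq hqN A hA σ hσ x hx
    refine sub_eq_zero.1 ((Kronecker.goodReductionAt N q hq
      (fun h => hqN (h.mul_left 2)) A hA).2 4 ?_ _ ?_ ?_)
    · intro h
      exact hqN ((hq.dvd_of_dvd_pow (show q ∣ 2 ^ 2 by simpa using h)).mul_right N)
    · rw [nsmul_sub, EigenReps.nsmul_galois_smul, hx, sub_zero]
      rw [← zero_nsmul x, ← EigenReps.nsmul_galois_smul, zero_nsmul, zero_nsmul]
    · rw [map_sub, sub_eq_zero]
      exact Kronecker.reductionModL_smul_of_mem_inertia σ hσ x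
  let Fix2 := {z : JZero N // ∀ σ : GG, σ • z = z}
  choose half hhalf using fun z : Fix2 =>
    Divisible.exists_nsmul_eq N (l := 2) two_ne_zero z.1
  let T2 := Pic0.torsion QA (modularFunctionFieldBar N) 2
  haveI : Finite T2 := Finite.of_equiv _ (EigenLattice.torsCoord (N := N) κC 2).symm.toEquiv
  let co : Fix2 → GG → T2 := fun z σ => ⟨σ • half z - half z, Pic0.mem_torsion.2 <| mul_two_nsmul <| by
    rw [nsmul_sub, EigenReps.nsmul_galois_smul, hhalf, z.2 σ, sub_self]⟩
  have hco : ∀ z σ τ, ((co z (σ * τ) : JZero N)) = co z σ + σ • (co z τ : JZero N) := fun z σ τ => by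
    show (σ * τ) • half z - half z = σ • half z - half z + σ • (τ • half z - half z)
    rw [mul_smul, smul_sub]
    abel
  obtain ⟨R₀, hR₀⟩ := exists_finset_square_classes (L := L) (2 * N)
    (mul_ne_zero two_ne_zero (NeZero.ne N))
  have hroot : ∀ (z : Fix2) (i : EigenLattice.Ix N), ∃ r : R₀, ∃ β : QA, ∃ w ∈ L,
      β ≠ 0 ∧ β ^ 2 = r * w ^ 2 ∧ ∀ σ ∈ L.fixingSubgroup,
        σ β = (-1) ^ (EigenLattice.torsCoord κC 2 (co z σ) i).val * β := by
    intro z i
    obtain ⟨M, hM, hMfix⟩ := EigenReps.exists_fixing_class N (half z)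
    obtain ⟨β, hβ0, hβL, hβ, hval⟩ := exists_sqrt (N := N) U hLU
      (U ⊓ M.fixingSubgroup ⊓ L.fixingSubgroup)
      (((Subgroup.isOpen_mono hLU (IntermediateField.fixingSubgroup_isOpen L)).inter
        (IntermediateField.fixingSubgroup_isOpen M)).inter (IntermediateField.fixingSubgroup_isOpen L))
      (fun σ => EigenLattice.torsCoord κC 2 (co z σ) i)
      (fun σ hσ τ hτ => by
        have e : co z (σ * τ) = co z σ + co z τ := Subtype.ext (by
          rw [hco]
          exact congrArg _ (hσ _ (by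
            have := Pic0.mem_torsion.1 (co z τ).2
            rwa [natCast_zsmul] at this)))
        rw [e, map_add, Pi.add_apply])
      (fun σ hσ => by
        have e : co z σ = 0 := Subtype.ext (by
          show σ • half z - half z = 0
          rw [hMfix σ ((IntermediateField.mem_fixingSubgroup_iff _ _).1 hσ.1.2), sub_self])
        rw [e, map_zero, Pi.zero_apply])
      (fun σ hσ => hσ.1.1)
      (fun q hq hqN A hA => ⟨fun σ hσ x hx => hIU q hq hqN A hA σ hσ x (by
          rw [show (4 : ℕ) = 2 * 2 from rfl, mul_nsmul, hx, nsmul_zero]), fun σ hσ => by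
        have e : co z σ = 0 := Subtype.ext (by
          show σ • half z - half z = 0
          refine sub_eq_zero.2 ((sub_eq_zero.1 ((Kronecker.goodReductionAt N q hq
            (fun h => hqN (h.mul_left 2)) A hA).2 2 (fun h => hqN (h.mul_right N)) _ ?_ ?_)))
          · rw [nsmul_sub, EigenReps.nsmul_galois_smul, hhalf, z.2 σ, sub_self]
          · rw [map_sub, sub_eq_zero]
            exact Kronecker.reductionModL_smul_of_mem_inertia σ hσ _)
        rw [e, map_zero, Pi.zero_apply]⟩)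
    obtain ⟨r, hr, w, hw, e⟩ := hR₀ _ hβL (pow_ne_zero 2 hβ0) hval
    exact ⟨⟨r, hr⟩, β, w, hw, hβ0, e, hβ⟩
  choose root β w hw hβ0 hsq hβ using hroot
  haveI : Nonempty GG := ⟨1⟩
  let lift : (L →ₐ[ℚ] QA) → GG := Function.invFun fun σ : GG => (σ : QA →ₐ[ℚ] QA).comp L.val
  let key : Fix2 → (EigenLattice.Ix N → R₀) × ((L →ₐ[ℚ] QA) → T2) := fun z =>
    (fun i => root z i, fun h => co z (lift h))
  have hkey : ∀ z z' : Fix2, key z = key z' → ∀ σ, co z σ = co z' σ := by
    intro z z' h σ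
    obtain ⟨h1, h2⟩ := Prod.ext_iff.1 h
    set ρ := lift ((σ : QA →ₐ[ℚ] QA).comp L.val)
    have hρ : (ρ : QA →ₐ[ℚ] QA).comp L.val = (σ : QA →ₐ[ℚ] QA).comp L.val :=
      Function.invFun_eq (f := fun σ : GG => (σ : QA →ₐ[ℚ] QA).comp L.val) ⟨σ, rfl⟩
    have hk : ρ⁻¹ * σ ∈ L.fixingSubgroup :=
      (IntermediateField.mem_fixingSubgroup_iff _ _).2 fun x hx => by
        have e : ρ x = σ x := DFunLike.congr_fun hρ ⟨x, hx⟩
        show ρ⁻¹ (σ x) = x
        rw [← e]
        exact ρ.symm_apply_apply x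
    have hH : ∀ τ ∈ L.fixingSubgroup, co z τ = co z' τ := fun τ hτ => by
      refine (EigenLattice.torsCoord κC 2).injective (funext fun i => neg_one_pow_val_inj ?_)
      have hi : root z i = root z' i := congrFun h1 i
      have hwz : w z i ≠ 0 := fun e => pow_ne_zero 2 (hβ0 z i) (by rw [hsq, e]; simp)
      have hwz' : w z' i ≠ 0 := fun e => pow_ne_zero 2 (hβ0 z' i) (by rw [hsq, e]; simp)
      have hrel : (β z i / β z' i) ^ 2 = (w z i / w z' i) ^ 2 := by
        have hr : (root z' i : QA) ≠ 0 := fun e => pow_ne_zero 2 (hβ0 z' i) (by rw [hsq, e]; simp)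
        rw [div_pow, hsq, hsq, hi, div_pow, mul_div_mul_left _ _ hr]
      obtain ⟨u, hu, hu0, hβu⟩ : ∃ u ∈ L, u ≠ 0 ∧ β z i = u * β z' i := by
        rcases sq_eq_sq_iff_eq_or_eq_neg.1 hrel with e | e
        · exact ⟨_, div_mem (hw z i) (hw z' i), div_ne_zero hwz hwz',
            (div_eq_iff (hβ0 z' i)).1 e⟩
        · exact ⟨_, neg_mem (div_mem (hw z i) (hw z' i)), neg_ne_zero.2 (div_ne_zero hwz hwz'),
            (div_eq_iff (hβ0 z' i)).1 e⟩
      have e1 := hβ z i τ hτ
      rw [hβu, map_mul, (IntermediateField.mem_fixingSubgroup_iff _ _).1 hτ u hu,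
        hβ z' i τ hτ] at e1
      refine mul_right_cancel₀ (mul_ne_zero hu0 (hβ0 z' i)) ?_
      linear_combination -e1
    refine Subtype.ext ?_
    rw [show σ = ρ * (ρ⁻¹ * σ) by group, hco z ρ (ρ⁻¹ * σ), hco z' ρ (ρ⁻¹ * σ),
      show co z ρ = co z' ρ from congrFun h2 _, hH _ hk]
  let T := Set.range key
  haveI : Fintype T := Fintype.ofFinite _
  choose pick hpick using fun t : T => t.2
  refine ⟨Finset.univ.image fun t : T => (pick t).1, fun r hr σ => ?_, fun z hz => ?_⟩
  · obtain ⟨t, -, rfl⟩ := Finset.mem_image.1 hr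
    exact (pick t).2 σ
  · let t : T := ⟨key ⟨z, hz⟩, _, rfl⟩
    have hh := hkey ⟨z, hz⟩ (pick t) (hpick t).symm
    refine ⟨_, Finset.mem_image.2 ⟨t, Finset.mem_univ _, rfl⟩,
      half ⟨z, hz⟩ - half (pick t), fun σ => ?_, ?_⟩
    · have e := congrArg Subtype.val (hh σ)
      change σ • half ⟨z, hz⟩ - half ⟨z, hz⟩ = σ • half (pick t) - half (pick t) at e
      rw [smul_sub, sub_eq_sub_iff_sub_eq_sub]
      exact e
    · rw [nsmul_sub, hhalf, hhalf]
      abel

end FLTAgent.MW
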